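/-
U3: regularity of the chart of `1/j` at level `Γ(q^j N)` at the cusps of the special fibre.
-/
import Fermat.Agent.LL.Carayol.Cusp.Point

set_option autoImplicit false
set_option linter.style.haveILetI false

noncomputable section

namespace Fermat.Agent.Carayol

open IsLocalRing
open Fermat.Agent.GalRep Fermat.Agent.GalRep.Level Fermat.Agent.ModField
open Fermat.Agent.GalRep.Model (chartRing self_mem_chartRing)

variable {O : Type} [CommRing O] [IsDomain O] [IsDiscreteValuationRing O] {M : ℕ} [NeZero M]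

theorem regularPoint_cusp (E : Emb O M) {q j N : ℕ} (hq : q.Prime) (hj : 0 < j)
    (hM : M = q ^ j * N) (hqN : ¬ q ∣ N) (hN3 : 3 ≤ N) (hqO : (q : O) ∈ maximalIdeal O)
    {π : O} (hπ : Irreducible π)
    (n : Ideal (chartRing O (jF E)⁻¹)) [n.IsMaximal]
    (hπn : algebraMap O (chartRing O (jF E)⁻¹) π ∈ n)
    (hwn : (⟨(jF E)⁻¹, self_mem_chartRing _⟩ : chartRing O (jF E)⁻¹) ∈ n) :
    ∃ x y : chartRing O (jF E)⁻¹, x ∈ n ∧ y ∈ n ∧
      ∀ z ∈ n, ∃ s ∉ n, s * z ∈ Ideal.span {x, y} := by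
  exact CuspQ.regularPoint_cusp E ⟨hq, hM, hj, hqN, hN3, hqO⟩ hπ n hπn hwn

end Fermat.Agent.Carayol
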