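/-
Vanishing sums of translates make the norms along every component an `n`-th power, at level
`Q N` with `Q = q ^ (t + 1)`.
-/
import Fermat.Agent.NewVec.Norm
import Fermat.Agent.LL.Carayol.Components

set_option autoImplicit false
set_option linter.style.haveILetI false
set_option linter.unusedSectionVars false

noncomputable section

namespace Fermat.Agent.Carayol

open CongruenceSubgroup IsLocalRing UpperHalfPlane
open Fermat.Agent.GalRep Fermat.Agent.GalRep.Level Fermat.Agent.ModField Fermat.Agent.NewVec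
open Fermat.Agent.Galois (GQ)
open scoped MatrixGroups Manifold

/-! ## The norm condition -/

variable {A : ValuationSubring (AlgebraicClosure ℚ)} {q Q t m N M : ℕ} [NeZero M] [NeZero Q] [NeZero m]
  [Fact (Nat.Coprime Q m)]
  (hq : q.Prime) (hA : A.LiesOverPrime q) (hQ : Q = q ^ (t + 1)) (hMN : M = Q * N) (hqN : ¬ q ∣ N)

local notation "EE" => embO A M

/-- Functions with coefficients fixed by inertia are fixed by the conjugations. -/
theorem conjTor_eq_self {x : Fld EE} (hx : toLS EE x ∈ kSer (inertiaC A)) (a : (ZMod Q)ˣ) :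
    conjTor hq hA hQ hMN hqN a x = x := by
  refine toLS_injective EE ?_
  rw [conjTor_apply, toLS_fConj]
  ext i
  obtain ⟨y, hy, hyx⟩ := mem_kSer.mp hx i
  rw [lmap_coeff]
  show liftAut _ _ = _
  rw [← hyx, liftAut_spec, fixAut_fix hq hA hQ hMN hqN a y hy]

variable [IsDiscreteValuationRing (oBase A M)] {π : oBase A M} (hπ : Irreducible π)
  {n : ℕ} [NeZero n]

set_option maxHeartbeats 2000000 in
open scoped Classical in
/-- The product of the translates over a component is a power up to a constant. -/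
theorem exists_norm_root (hmN : m ∣ N) (hG : IsLevel M (midGroup Q m))
    {χ : ParG (midGroup Q m) (ZMod n)} {F : ℍ → ℂ} (hF : IsRepG (midGroup Q m) n χ F)
    (hbd : powMF hG hF ∈ bddMF EE) (hfix : ∀ a, conjTor hq hA hQ hMN hqN a
      (toFld EE ⟨powMF hG hF, hbd⟩) = toFld EE ⟨powMF hG hF, hbd⟩)
    (hvan : ∀ g : SL(2, ZMod Q), ∑ w : ZMod Q, ∑ a : (ZMod Q)ˣ,
      act Q m (conjA a g * unip Q w) χ = 0)
    (σ : RingAut (Fld EE)) (hσ : σ ∈ symG hq hA hQ hMN hqN) (P : comps hπ) :
    ∃ (a b : oBase A M) (k : Fld EE), a ≠ 0 ∧ b ≠ 0 ∧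
      algebraMap _ (Fld EE) b * ∏ h ∈ fixH hq hA hQ hMN hqN hπ P,
        h (σ (toFld EE ⟨powMF hG hF, hbd⟩)) = algebraMap _ (Fld EE) a * k ^ n := by
  have hN0 : N ≠ 0 := fun h => hqN (h ▸ dvd_zero q)
  haveI : NeZero N := ⟨hN0⟩
  have hcN : Nat.Coprime Q N := hQ ▸ (hq.coprime_iff_not_dvd.mpr hqN).pow_left (t + 1)
  haveI : Fact (Nat.Coprime Q N) := ⟨hcN⟩
  set φ := powMF hG hF with hφ
  set f := toFld EE ⟨φ, hbd⟩ with hf
  obtain ⟨g, c, hgc⟩ := hσ
  have hσf : σ f = fShift EE g f := by rw [hgc, hfix]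
  set δ := cuspOf hπ P
  obtain ⟨γ, hγ⟩ : ∃ γ : SL(2, ℤ), γ = g * δ := ⟨_, rfl⟩
  -- the translations
  let x : ZMod Q × (ZMod Q)ˣ → SL(2, ZMod Q) := fun p =>
    conjA p.2 (red Q γ) * unip Q ((N : ZMod Q) * p.1)
  choose l hlq hlN using fun p => exists_liftX Q N (x p)
  obtain ⟨L, hLq, hLN⟩ := exists_liftX Q N (red Q γ)
  obtain ⟨γm, hγm⟩ : ∃ γm : SL(2, ℤ), γm = L⁻¹ * γ := ⟨_, rfl⟩
  have hone : ∀ {z : SL(2, ℤ)}, z ∈ Gamma N → red N z = 1 := fun hz => red_eq_one_iff.mpr hz
  have key : ∀ p, fix₁ hq hA hQ hMN hqN p (fShift EE γ f) =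
      fShift EE γm (fShift EE (l p) f) := fun p => by
    obtain ⟨γ', hγ'⟩ := exists_conjEq (expM hq hA hQ hMN hqN p.2) γ
    rw [fix₁_apply, conjTor_fShift hq hA hQ hMN hqN p.2 hγ', hfix, fShift_fShift, fShift_fShift]
    refine fShift_congr EE (red_ext_of_coprime hMN hcN ?_ ?_) f
    · have h1 : red Q γ' = conjA p.2 (red Q γ) := by
        have h := hγ'.of_dvd (hMN ▸ dvd_mul_right Q N : Q ∣ M)
        rwa [expM_mod_q hq hA hQ hMN hqN, ConjEq] at h
      rw [map_mul, map_mul, h1, hγm, map_mul (red Q), map_inv, hLq, hlq, inv_mul_cancel, mul_one]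
      show _ = x p
      congr 1
      refine Subtype.ext ?_
      rw [tN, red_zpow_T]
      simp [unip]
    · have h1 : red N γ' = red N γ := by
        have h := hγ'.of_dvd (hMN ▸ dvd_mul_left N Q : N ∣ M)
        rwa [expM_mod_N hq hA hQ hMN hqN, ConjEq, conjA_one] at h
      have h2 : red N (tN (N := N) p.1) = 1 := Subtype.ext (by
        rw [tN, red_zpow_T, Matrix.SpecialLinearGroup.coe_one]
        simp [Matrix.one_fin_two])
      rw [map_mul, map_mul, h1, h2, hγm, map_mul, map_inv, hone hLN, hone (hlN p), inv_one,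
        one_mul, one_mul, mul_one]
  -- the root
  have hlm : ∀ p, l p ∈ Gamma0 m := fun p => by
    have h : red N (l p) = 1 := hone (hlN p)
    have h10 := congrArg (fun z : SL(2, ZMod N) => z 1 0) h
    simp only [red_apply, Matrix.SpecialLinearGroup.coe_one] at h10
    rw [Gamma0_mem]
    have := congrArg (ZMod.castHom hmN (ZMod m)) h10
    simpa using this
  have hrep := isRepG_prod (Finset.univ : Finset (ZMod Q × (ZMod Q)ˣ)) _ _
    fun p _ => isRepG_translate hF (hlm p)
  have hsum : ∑ p : ZMod Q × (ZMod Q)ˣ, act Q m (red Q (l p)) χ = 0 := by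
    rw [← hvan (red Q γ), Fintype.sum_prod_type]
    have hu : IsUnit (N : ZMod Q) := (ZMod.isUnit_iff_coprime N Q).mpr hcN.symm
    refine Fintype.sum_bijective (fun j => (N : ZMod Q) * j) (Finite.injective_iff_bijective.mp hu.mul_right_injective) _ _ fun j =>
      Fintype.sum_congr _ _ fun a => ?_
    rw [hlq]
  rw [hsum] at hrep
  let ψ : MF M := ⟨_, modFuns_anti hG.gamma_le hrep.isModFun⟩
  have hψ : ψ ^ n = ∏ p, shift M (l p) φ := by
    refine Subtype.ext (funext fun τ => ?_)
    rw [SubmonoidClass.coe_pow, SubmonoidClass.coe_finsetProd, Finset.prod_apply, Pi.pow_apply]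
    show (∏ p, fun τ => F (l p • τ)) τ ^ n = _
    rw [Finset.prod_apply, ← Finset.prod_pow]
    rfl
  have hPbd : (∏ p, shift M (l p) φ) ∈ bddMF EE :=
    prod_mem fun p _ => shift_mem_bddMF EE hbd (l p)
  have hPK := kSer_of_bdd EE hPbd
  rw [← hψ, map_pow] at hPK
  have hψ0 : serAlg M ψ ≠ 0 := fun h0 =>
    hrep.ne_zero (congrArg Subtype.val (serAlg_injective M (h0.trans (map_zero _).symm)))
  set s := serAlg M ψ with hs
  set e := s.coeff s.order with he
  have he0 : e ≠ 0 := HahnSeries.coeff_order_eq_zero.not.mpr hψ0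
  have heK : e ^ n ∈ (EE).K := by
    have hl : ∀ k : ℕ, (s ^ k).leadingCoeff = e ^ k := fun k => by
      induction k with
      | zero => simp
      | succ k ih => rw [pow_succ, HahnSeries.leadingCoeff_mul, ih, HahnSeries.leadingCoeff_eq,
          pow_succ]
    rw [← hl, HahnSeries.leadingCoeff_eq]
    exact mem_kSer.mp hPK _
  set s' := HahnSeries.C e⁻¹ * s with hs'
  have hCne : (HahnSeries.C e⁻¹ : LaurentSeries ℂ) ≠ 0 := by simp [he0]
  have hord : s'.order = s.order := by
    rw [hs', HahnSeries.order_mul hCne hψ0, HahnSeries.C_apply,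
      HahnSeries.order_single (inv_ne_zero he0), zero_add]
  have hlead : s'.coeff s'.order = 1 := by
    rw [hord, hs', HahnSeries.C_mul_eq_smul, HahnSeries.coeff_smul, smul_eq_mul, ← he,
      inv_mul_cancel₀ he0]
  have hpow : s' ^ n ∈ kSer (EE).K := by
    rw [hs', mul_pow, ← map_pow, inv_pow]
    refine mul_mem (mem_kSer.mpr fun i => ?_) hPK
    rw [HahnSeries.C_apply, HahnSeries.coeff_single]
    split_ifs
    · exact inv_mem heK
    · exact zero_mem _
  have hsK : s' ∈ kSer (EE).K :=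
    kSer_of_pow _ (NeZero.pos n) (mul_ne_zero hCne hψ0) hlead hpow
  let ψ' : MF M := algebraMap ℂ (MF M) e⁻¹ * ψ
  have hψ' : serAlg M ψ' = s' := by
    rw [map_mul, AlgHom.commutes, hs', HahnSeries.algebraMap_apply']
    simp [hs]
  let k : Fld EE := ofMF EE ψ' (hψ' ▸ hsK)
  obtain ⟨a₀, b₀, hb₀, hab⟩ := exists_frac_of_mem EE heK
  have ha₀ : a₀ ≠ 0 := fun h0 => pow_ne_zero n he0 (by rw [hab, h0, map_zero, zero_div])
  have hbne : (EE).φ b₀ ≠ 0 := fun h0 => hb₀ ((EE).inj (h0.trans (map_zero _).symm))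
  have hmain : algebraMap _ (Fld EE) b₀ * ∏ p, fShift EE (l p) f =
      algebraMap _ (Fld EE) a₀ * k ^ n := by
    refine toLS_injective EE ?_
    have hk : toLS EE k = s' := by
      show toLS EE (toFld EE _) = _
      rw [toLS_toFld]
      exact hψ'
    have hP : toLS EE (∏ p, fShift EE (l p) f) = s ^ n := by
      rw [map_prod, hs, ← map_pow, hψ, map_prod]
      refine Finset.prod_congr rfl fun p _ => ?_
      rw [hf, fShift_toFld, toLS_toFld]
    rw [map_mul, map_mul, map_pow, hk, hP, toLS_algebraMap, toLS_algebraMap, hs', mul_pow,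
      ← mul_assoc, ← map_pow HahnSeries.C, ← map_mul HahnSeries.C, inv_pow, hab]
    congr 2
    have hane : (EE).φ a₀ ≠ 0 := fun h0 => ha₀ ((EE).inj (h0.trans (map_zero _).symm))
    field_simp
  refine ⟨a₀, b₀, (fShift EE δ).symm (fShift EE γm k), ha₀, hb₀, ?_⟩
  have hT : ∀ r : oBase A M, (fShift EE δ).symm (fShift EE γm (algebraMap _ (Fld EE) r)) =
      algebraMap _ (Fld EE) r := fun r => by
    rw [fShift_algebraMap, RingEquiv.symm_apply_eq, fShift_algebraMap]
  have hprod : ∏ h ∈ fixH hq hA hQ hMN hqN hπ P, h (σ f) =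
      (fShift EE δ).symm (fShift EE γm (∏ p, fShift EE (l p) f)) := by
    rw [fixH, Finset.prod_image, map_prod, map_prod]
    · refine Finset.prod_congr rfl fun p _ => ?_
      rw [RingEquiv.trans_apply, RingEquiv.trans_apply, hσf, fShift_fShift, ← hγ, key]
    · intro p _ p' _ hp
      refine fix₁_injective hq hA hQ hMN hqN (RingEquiv.ext fun y => ?_)
      obtain ⟨z, rfl⟩ := (fShift EE δ).surjective y
      exact (fShift EE δ).symm.injective (RingEquiv.congr_fun hp z)
  rw [hprod]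
  have := congrArg (fun z => (fShift EE δ).symm (fShift EE γm z)) hmain
  simpa only [map_mul, map_pow, hT] using this

end Fermat.Agent.Carayol
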