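/-
Along the special fibre at level `Q N` with `Q = q ^ (t + 1)`: Gauss orders of the power function of
an inertia-fixed class are congruent on all components.
-/
import Fermat.Agent.NewVec.Vertical
import Fermat.Agent.LL.Carayol.Norm

set_option autoImplicit false
set_option linter.style.haveILetI false
set_option linter.unusedSectionVars false

noncomputable section

namespace Fermat.Agent.Carayol

open CongruenceSubgroup IsLocalRing UpperHalfPlane
open Fermat.Agent.GalRep Fermat.Agent.GalRep.Level Fermat.Agent.ModField Fermat.Agent.NewVec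
open Fermat.Agent.Galois (GQ)
open scoped MatrixGroups

variable {A : ValuationSubring (AlgebraicClosure ℚ)} {q Q t m N M p : ℕ} [NeZero M] [NeZero Q]
  [NeZero m] [Fact (Nat.Coprime Q m)] [Fact p.Prime]
  (hq : q.Prime) (hA : A.LiesOverPrime q) (hQ : Q = q ^ (t + 1)) (hMN : M = Q * N) (hqN : ¬ q ∣ N)
  [IsDiscreteValuationRing (oBase A M)] {π : oBase A M}

local notation "EE" => embO A M

set_option maxHeartbeats 1000000 in
include hq hA hQ hMN hqN in
/-- The orders of a fixed class of the lattice. -/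
theorem exists_vertical (hπ : Irreducible π)
    (hK : KummerReduction (Q * Q * m)) (hG : IsLevel M (midGroup Q m)) (v : Lat (Q * Q * m) p)
    (hv : ∀ σ ∈ A.inertiaSubgroupIn ℚ, (latDatum (Q * Q * m) p hK).galois σ v = v) :
    ∃ r : ℕ, ∀ (k : ℕ) [NeZero (p ^ k)] (F : ℍ → ℂ)
      (hF : IsRepG (midGroup Q m) (p ^ k) (pullQ Q m (redPow k v)) F),
      powMF hG hF ∈ bddMF EE → ∃ e : ℤ, ∀ (δ : SL(2, ℤ)) (o : ℤ),
        HasOrd EE π (serAlg M (shift M δ (powMF hG hF))) o →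
          (p ^ k : ℤ) ∣ (p ^ r : ℤ) * o - e := by
  haveI : ∀ k, NeZero (p ^ k) := fun k => ⟨pow_ne_zero k (Fact.out : p.Prime).ne_zero⟩
  have hp : p.Prime := Fact.out
  obtain ⟨ℓ, hℓ, hℓgt, hℓ1⟩ := Nat.exists_prime_gt_modEq_one (k := Q * Q * m * M) (p + q + Q + N)
    (mul_ne_zero (mul_ne_zero (mul_ne_zero (NeZero.ne Q) (NeZero.ne Q)) (NeZero.ne m)) (NeZero.ne M))
  haveI : NeZero ℓ := ⟨hℓ.ne_zero⟩
  haveI : Fact (1 < ℓ) := ⟨hℓ.one_lt⟩
  have hℓM : (ℓ : ZMod M) = 1 := by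
    rw [← Nat.cast_one, ZMod.natCast_eq_natCast_iff]
    exact hℓ1.of_dvd (dvd_mul_left M _)
  have hℓq : (ℓ : ZMod Q) = 1 := by
    rw [← Nat.cast_one, ZMod.natCast_eq_natCast_iff]
    exact hℓ1.of_dvd (dvd_trans ⟨Q * m * M, by ring⟩ dvd_rfl)
  have hℓL : ¬ ℓ ∣ Q * Q * m := fun hd => by
    have h1 := (hℓ1.of_dvd ((dvd_mul_right (Q * Q * m) M))).of_dvd hd
    have := Nat.ModEq.symm h1
    rw [Nat.ModEq, Nat.mod_self, Nat.one_mod_eq_one.mpr hℓ.one_lt.ne'] at this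
    exact one_ne_zero this
  let l : GoodPrime (Q * Q * m) := ⟨⟨ℓ, hℓ⟩, hℓL⟩
  -- inverting `T - (ℓ + 1)`
  let P : Module.End ℤ_[p] (Lat (Q * Q * m) p) :=
    latHecke (Q * Q * m) p l - ((ℓ + 1 : ℕ) : Module.End ℤ_[p] (Lat (Q * Q * m) p))
  haveI : IsAddTorsionFree ℤ_[p] :=
    ⟨fun n hn a b hab => mul_left_cancel₀ (Nat.cast_ne_zero.mpr hn : (n : ℤ_[p]) ≠ 0)
      (by simpa [nsmul_eq_mul] using hab)⟩
  have hPinj : Function.Injective P := by
    rw [injective_iff_map_eq_zero]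
    intro w hw
    rw [LinearMap.sub_apply, Module.End.natCast_apply, sub_eq_zero] at hw
    have h0 : toPar w = 0 := eq_zero_of_hecke_fixed l (Subtype.ext (congrArg Subtype.val hw))
    exact Subtype.ext (congrArg Subtype.val h0 : _)
  obtain ⟨c, Qi, hc, hQi, hcomm⟩ := exists_scalar_inverse P hPinj
  obtain ⟨u, r, rfl⟩ : ∃ (u : ℤ_[p]ˣ) (r : ℕ), c = (u : ℤ_[p]) * (p : ℤ_[p]) ^ r :=
    ⟨_, _, PadicInt.unitCoeff_spec hc⟩
  let w : Lat (Q * Q * m) p := ((u⁻¹ : ℤ_[p]ˣ) : ℤ_[p]) • Qi v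
  have hw : latHecke (Q * Q * m) p l w = (p ^ r) • v + (ℓ + 1) • w := by
    have h1 : P w = (p ^ r) • v := by
      rw [map_smul, hQi, smul_smul, ← mul_assoc, Units.inv_mul, one_mul, ← Nat.cast_pow,
        Nat.cast_smul_eq_nsmul]
    rw [LinearMap.sub_apply, Module.End.natCast_apply, sub_eq_iff_eq_add] at h1
    exact h1
  have hwfix : ∀ σ ∈ A.inertiaSubgroupIn ℚ, (latDatum (Q * Q * m) p hK).galois σ w = w := by
    intro σ hσ
    let D := latDatum (Q * Q * m) p hK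
    have hT : Commute (D.galois σ) P := by
      have h1 := D.galois_hecke σ (MvPolynomial.X l)
      have e : D.hecke (MvPolynomial.X l) = latHecke (Q * Q * m) p l := by
        show latHeckePoly (Q * Q * m) p (MvPolynomial.X l) = _
        exact polyHom_X _ _ _
      rw [e] at h1
      exact h1.sub_right (Nat.commute_cast _ _)
    refine ((D.galois σ).map_smul ((u⁻¹ : ℤ_[p]ˣ) : ℤ_[p]) (Qi v)).trans
      (congrArg (fun x => ((u⁻¹ : ℤ_[p]ˣ) : ℤ_[p]) • x) ?_)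
    exact (LinearMap.congr_fun (hcomm _ hT).eq v).trans (congrArg Qi (hv σ hσ))
  refine ⟨r, fun k _ F hF hbd => ?_⟩
  obtain ⟨F', hF', f', -, -, -, hf', hser⟩ := exists_fixed_rep (A := A) hG
    (pullQ Q m (redPow k w)) (fixed_pullQ hK hG hwfix k)
  have hbd' : powMF hG hF' ∈ bddMF EE := bdd_of_kSer EE (by
    rw [hser]
    exact pow_mem (mem_kSer.mpr fun i => inertiaC_le_K A M (mem_kSer.mp hf' i)) _)
  -- the root of unity of order `ℓ`
  obtain ⟨y, hy⟩ := exists_qbar_zetaC ℓ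
  have hqℓ : ¬ q ∣ ℓ := fun hd => by
    have := (Nat.prime_dvd_prime_iff_eq hq hℓ).mp hd
    omega
  have hyℓ : y ^ ℓ = 1 := qbarToC.injective (by
    rw [map_pow, hy, map_one]; exact Level.zetaC_pow ℓ)
  have hy0 : y ≠ 0 := fun h => by simp [h, zero_pow (NeZero.ne ℓ)] at hyℓ
  have hyA : ∀ j : ℕ, y ^ j ∈ A := fun j => Galois.integralClosure_le A
    ⟨y ^ j, (IsIntegral.of_pow hℓ.pos (hyℓ ▸ isIntegral_one)).pow j⟩
  let zo : oBase A M := (⟨(⟨y, IntermediateField.algebraMap_mem _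
      (⟨y, root_mem_inertiaFld A hq hA hqℓ hyℓ⟩ : inertiaFld A)⟩ : oFld A M),
    show y ∈ A from pow_one y ▸ hyA 1⟩ : oBase A M)
  have hzo : oVal A M zo = y := rfl
  have hzu : IsUnit zo := by
    refine IsUnit.of_pow_eq_one (n := ℓ) (oVal_injective A M ?_) hℓ.ne_zero
    rw [map_pow, hzo, hyℓ, map_one]
  have hzC : (EE).φ zo = Complex.exp (2 * Real.pi * Complex.I / ℓ) := by
    rw [embO_φ, hzo, hy]; rfl
  have hNℓ : Nat.Coprime N ℓ := ((hℓ.coprime_iff_not_dvd).mpr fun hd => by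
    have hN0 : N ≠ 0 := fun h => hqN (h ▸ dvd_zero q)
    have := Nat.le_of_dvd (Nat.pos_of_ne_zero hN0) hd
    omega).symm
  have hT := isTransfer_pullQ (q := Q) (m := m) hMN l hNℓ hℓq (redPow k w)
  have hrel : pullQ Q m (heckeHomAt l (redPow k w)) =
      (p ^ r) • pullQ Q m (redPow k v) + (ℓ + 1) • pullQ Q m (redPow k w) := by
    rw [← redPow_latHecke, hw, map_add, map_nsmul, map_nsmul, map_add, map_nsmul, map_nsmul]
  obtain ⟨e, he⟩ := order_congr (ℓ := ℓ) EE hπ hG hℓ hℓM hzu hzC (p ^ r) hT hrel hF hF' hbd hbd'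
  exact ⟨e, fun δ o ho => by simpa using he δ o ho⟩

end Fermat.Agent.Carayol
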