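/-
An inertia-fixed class of level `Q²m`, `Q` a power of `q`, with vanishing sums of translates is
zero, given the regularity of the model at level `Γ(QN)`.
-/
import Fermat.Agent.LL.Carayol.Vertical
import Fermat.Agent.NewVec.Conclude

set_option autoImplicit false
set_option linter.style.haveILetI false
set_option linter.unusedSectionVars false

noncomputable section

namespace Fermat.Agent.Carayol

open CongruenceSubgroup IsLocalRing UpperHalfPlane
open Fermat.Agent.GalRep Fermat.Agent.GalRep.Level Fermat.Agent.ModField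
open Fermat.Agent.Galois (GQ)
open Fermat.Agent.GalRep.Model (chartRing self_mem_chartRing mem_chartRing_iff)
open Fermat.Agent.NewVec hiding fixAut fixAut_fix fixAut_mu fixStab fConj_eq_of_mu fixStab_mul conjTor conjTor_apply expM expM_mod_q expM_mod_N conjTor_fShift conjTor_jF symG mem_symG finite_symG symG_fix_jF symG_const symG_map_chart tN fix₁ fix₁_apply fix₁_sub_mem fix₁_mem_gaussP fix₁_injective comps gaussP_congr finite_comps cuspOf cuspOf_spec mem_gaussP_iff_shift mem_nonunits_iff_shift fixH symmetry conjTor_eq_self exists_norm_root exists_vertical chartFibre eq_zero_of_regular natCast_mem_maximal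
open scoped MatrixGroups Manifold

variable {A : ValuationSubring (AlgebraicClosure ℚ)} {q t Q m N M p : ℕ} [NeZero M] [NeZero Q]
  [NeZero m] [Fact (Nat.Coprime Q m)] [Fact p.Prime]
  (hq : q.Prime) (hA : A.LiesOverPrime q) (hQ : Q = q ^ (t + 1)) (hMN : M = Q * N) (hqN : ¬ q ∣ N)

local notation "EE" => embO A M

variable [IsDiscreteValuationRing (oBase A M)] {π : oBase A M}

theorem chartFibre (hπ : Irreducible π) [IsAlgClosed (ResidueField (oBase A M))] :
    Models.ChartFibre (ModField.model EE).B₀ π (fun P : comps hπ => P.1) ∧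
      Models.ChartFibre (ModField.model EE).B₁ π (fun P : comps hπ => P.1) := by
  have key : ∀ (w : Fld EE), IsNoetherianRing (chartRing (oBase A M) w) →
      (∀ g, fShift EE g w = w) →
      (∀ δ, ∀ x ∈ chartRing (oBase A M) w, x ∈ gaussP EE hπ δ) →
      (∀ P : Polynomial (oBase A M), serF EE (Polynomial.aeval w P) ∈ (gaussRing hπ).nonunits →
        Polynomial.C π ∣ P) →
      (∀ x ∈ chartRing (oBase A M) w, (∀ g, x ∈ (gaussP EE hπ g).nonunits) →
        ∃ e ∈ chartRing (oBase A M) w, x = π • e) →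
      Models.ChartFibre (chartRing (oBase A M) w) π (fun P : comps hπ => P.1) :=
    fun w hnoe hw hle hcentre hred =>
    { le := fun i b hb => by rw [cuspOf_spec hπ i]; exact hle _ b hb
      noetherian := hnoe
      reduced := fun b hb hall => hred b hb fun g => hall ⟨_, g, rfl⟩
      maximal_above := fun i n hn hall hex => by
        obtain ⟨b, hb, hbP⟩ := hex
        haveI := hn
        haveI : (gaussIdeal EE hπ (cuspOf hπ i) w (hle _)).IsPrime := Ideal.IsPrime.comap _
        refine isMaximal_above hπ w (gaussIdeal EE hπ (cuspOf hπ i) w (hle _)) n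
          (comap_gaussIdeal EE hπ _ w (hle _) hw hcentre) (fun x hx => hall x ?_) hb fun hx => hbP ?_
        · rw [cuspOf_spec hπ i]; exact (mem_gaussIdeal EE hπ _ w (hle _)).mp hx
        · rw [cuspOf_spec hπ i]; exact (mem_gaussIdeal EE hπ _ w (hle _)).mp hx
      residue := fun n hn hπn b => by
        haveI := hn
        exact residue_chartRing hπ w n hπn b }
  exact ⟨key _ (isNoetherianRing_B₀ EE) (fShift_jF EE) (fun δ => (chart_le_gaussP EE hπ δ).1)
      (centre_jF EE hπ) (fun x hx h => (reduced_model EE hπ h).1 hx),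
    key _ (isNoetherianRing_B₁ EE) (fun g => by rw [map_inv₀, fShift_jF])
      (fun δ => (chart_le_gaussP EE hπ δ).2) (centre_inv_jF EE hπ)
      (fun x hx h => (reduced_model EE hπ h).2 hx)⟩

set_option maxHeartbeats 2000000 in
open scoped Classical in
include hq hA hQ hMN hqN in
/-- Inertia-fixed with vanishing sums of translates is zero, given the regularity at level `M`. -/
theorem eq_zero_of_regular (hπ : Irreducible π) (hqp : q ≠ p) (hmN : m ∣ N)
    [IsAlgClosed (ResidueField (oBase A M))]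
    (hK : KummerReduction (Q * Q * m)) (v : Lat (Q * Q * m) p)
    (hv : ∀ σ ∈ A.inertiaSubgroupIn ℚ, (latDatum (Q * Q * m) p hK).galois σ v = v)
    (hvan : ∀ g : SL(2, ZMod Q), ∑ w : ZMod Q, ∑ a : (ZMod Q)ˣ,
      act Q m (Level.conjA a g * unip Q w) (pullQ Q m (toPar v)) = 0)
    (hreg₀ : ∀ n : Ideal (chartRing (oBase A M) (jF EE)), n.IsMaximal →
      algebraMap (oBase A M) (chartRing (oBase A M) (jF EE)) π ∈ n →
      ∃ x y, x ∈ n ∧ y ∈ n ∧ ∀ z ∈ n, ∃ s ∉ n, s * z ∈ Ideal.span {x, y})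
    (hreg₁ : ∀ n : Ideal (chartRing (oBase A M) (jF EE)⁻¹), n.IsMaximal →
      algebraMap (oBase A M) (chartRing (oBase A M) (jF EE)⁻¹) π ∈ n →
      (⟨(jF EE)⁻¹, self_mem_chartRing _⟩ : chartRing (oBase A M) (jF EE)⁻¹) ∈ n →
      ∃ x y, x ∈ n ∧ y ∈ n ∧ ∀ z ∈ n, ∃ s ∉ n, s * z ∈ Ideal.span {x, y}) :
    v = 0 := by
  have hp : p.Prime := Fact.out
  haveI hpk : ∀ k, NeZero (p ^ k) := fun k => ⟨pow_ne_zero k hp.ne_zero⟩
  have hG : IsLevel M (midGroup Q m) :=
    ((isLevel_gamma Q).of_dvd (hMN ▸ dvd_mul_right Q N)).inf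
      ((isLevel_gamma0 m).of_dvd (hMN ▸ hmN.mul_left Q))
  haveI := finite_symG hq hA hQ hMN hqN
  haveI : Finite (comps hπ) := finite_comps hπ
  letI : Fintype (comps hπ) := Fintype.ofFinite _
  haveI : Nonempty (comps hπ) := ⟨⟨gaussP EE hπ 1, 1, rfl⟩⟩
  have hinj := algebraMap_injective EE
  have hS := symmetry hq hA hQ hMN hqN hπ
  have hd : 0 < Q * Nat.totient Q := Nat.mul_pos (NeZero.pos Q) (Nat.totient_pos.mpr (NeZero.pos Q))
  obtain ⟨D, hD, hexp⟩ := Models.exists_exponent_root (ModField.model EE) π hπ hinj q hq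
    (natCast_mem_maximal hq hA hQ hMN hqN) (fun P : comps hπ => P.1) (chartFibre hπ).1 (chartFibre hπ).2
    (symG hq hA hQ hMN hqN) (fixH hq hA hQ hMN hqN hπ) hd hS
  obtain ⟨r, hr⟩ := exists_vertical hq hA hQ hMN hqN hπ hK hG v hv
  refine eq_zero_of_pullHom M v fun γ hγ => ?_
  set C := p ^ r * (6 * M) * D with hCdef
  have hC : C ≠ 0 := mul_ne_zero (mul_ne_zero (pow_ne_zero _ hp.ne_zero)
    (mul_ne_zero (by norm_num) (NeZero.ne M))) hD.ne'
  have key : ∀ k : ℕ, C • PadicInt.toZModPow k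
      ((v : Additive (Gamma0 (Q * Q * m)) →+ ℤ_[p]) (Additive.ofMul (pullHom Q m γ))) = 0 := by
    intro k
    obtain ⟨F, hF, f, -, hfs, hf0, hfK, hser⟩ :=
      exists_fixed_rep (A := A) hG (pullQ Q m (redPow k v)) (fixed_pullQ hK hG hv k)
    have hbd : powMF hG hF ∈ bddMF EE := bdd_of_kSer EE (by
      rw [hser]
      exact pow_mem (mem_kSer.mpr fun i => inertiaC_le_K A M (mem_kSer.mp hfK i)) _)
    obtain ⟨e, he⟩ := hr k F hF hbd
    obtain ⟨f₁, hf₁⟩ : ∃ x, x = toFld EE ⟨powMF hG hF, hbd⟩ := ⟨_, rfl⟩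
    have hod₁ : OrdDvd EE (p ^ k) f₁ := by rw [hf₁]; exact OrdDvd.of_rep hG hF hbd
    obtain ⟨j, hje⟩ : ∃ j : ℕ, ((p ^ k : ℕ) : ℤ) ∣ (j : ℤ) + e := by
      refine ⟨((-e) % ((p ^ k : ℕ) : ℤ)).toNat, ?_⟩
      rw [Int.toNat_of_nonneg (Int.emod_nonneg _ (by exact_mod_cast (hpk k).out)), Int.emod_def]
      exact ⟨-((-e) / ((p ^ k : ℕ) : ℤ)), by ring⟩
    obtain ⟨f₂, hf₂⟩ : ∃ x, x = algebraMap (oBase A M) (Fld EE) (π ^ j) * f₁ ^ (p ^ r) := ⟨_, rfl⟩
    have hπj : π ^ j ≠ 0 := pow_ne_zero _ hπ.ne_zero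
    have hod : OrdDvd EE (p ^ k) f₂ := by rw [hf₂]; exact (hod₁.pow _).const_mul hπj
    have hgauss : ∀ (g : SL(2, ℤ)) (o : ℤ), HasOrd EE π (toLS EE (fShift EE g f₂)) o →
        ((p ^ k : ℕ) : ℤ) ∣ o := fun g o ho => by
      obtain ⟨o₁, ho₁⟩ := exists_hasOrd EE hπ (toLS_mem EE (fShift EE g f₁))
        ((map_ne_zero (toLS EE)).mpr ((map_ne_zero (fShift EE g)).mpr hod₁.ne_zero))
      have h1 := ho₁
      rw [hf₁, toLS_fShift_toFld] at h1
      have h2 := he g o₁ h1
      have h3 : HasOrd EE π (toLS EE (fShift EE g f₂)) ((j : ℤ) + (p ^ r : ℕ) * o₁) := by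
        rw [hf₂, map_mul, map_mul, map_pow (fShift EE g), map_pow (toLS EE), fShift_algebraMap,
          toLS_algebraMap, map_pow]
        exact (hasOrd_pi EE hπ j).mul hπ (ho₁.pow hπ _)
      rw [HasOrd.unique hπ ho h3]
      push_cast at hje ⊢
      rw [show (j : ℤ) + (p : ℤ) ^ r * o₁ = ((p : ℤ) ^ r * o₁ - e) + ((j : ℤ) + e) by ring]
      exact dvd_add h2 hje
    obtain ⟨hr₀, hr₁⟩ := hasRootAt_all EE hπ (NeZero.pos (p ^ k)) hod hgauss hreg₀ hreg₁
    have hnu : IsUnit ((p ^ k : ℕ) : oBase A M) := by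
      rw [Nat.cast_pow]
      refine IsUnit.pow _ (notMem_maximalIdeal.mp fun hpm => ?_)
      obtain ⟨a, b, hab⟩ : ∃ a b : ℤ, a * p + b * q = 1 :=
        (Nat.coprime_primes hp hq).mpr (Ne.symm hqp) |>.isCoprime
      have h1 : (1 : oBase A M) ∈ maximalIdeal (oBase A M) := by
        have e1 := congrArg (Int.cast : ℤ → oBase A M) hab
        push_cast at e1
        rw [← e1]
        exact add_mem (Ideal.mul_mem_left _ _ hpm)
          (Ideal.mul_mem_left _ _ (natCast_mem_maximal hq hA hQ hMN hqN))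
      exact (maximalIdeal.isMaximal _).ne_top ((Ideal.eq_top_iff_one _).mpr h1)
    have hm0 : ∀ (m' : Ideal (ModField.model EE).B₀), m'.IsMaximal → m' ≠ ⊥ := fun m' hm' =>
      @ne_bot_of_isMaximal _ _ _ _ _ _ EE (jF EE) m' hm' (aeval_jF_injective EE)
    have hfix : ∀ a, conjTor hq hA hQ hMN hqN a (toFld EE ⟨powMF hG hF, hbd⟩) =
        toFld EE ⟨powMF hG hF, hbd⟩ := fun a =>
      conjTor_eq_self hq hA hQ hMN hqN (by rw [toLS_toFld, hser]; exact pow_mem hfK _) a
    obtain ⟨c, h, hc0, hh0, hh⟩ := hexp (p ^ k) (NeZero.pos (p ^ k)) hnu (f₂ ^ (6 * M))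
      (pow_ne_zero _ hod.ne_zero) (fun m' hm' => hr₀ m' hm'.isPrime (hm0 m' hm')) hr₁
      fun σ hσ P => by
      obtain ⟨a, b, k', ha, hb, hab⟩ := exists_norm_root hq hA hQ hMN hqN hπ hmN hG hF hbd hfix
        (fun g => sum_act_redPow hvan k g) σ hσ P
      rw [← hf₁] at hab
      -- translates of constants
      have hcst : ∀ h : RingAut (Fld EE), ∃ c' : oBase A M,
          h ∈ fixH hq hA hQ hMN hqN hπ P →
            h (σ (algebraMap (oBase A M) (Fld EE) (π ^ j) ^ (6 * M))) =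
              algebraMap (oBase A M) (Fld EE) c' := fun h => by
        by_cases hh : h ∈ fixH hq hA hQ hMN hqN hπ P
        · obtain ⟨c', hc', -⟩ := symG_const hq hA hQ hMN hqN
            (mul_mem (hS.mem P h hh) hσ : h * σ ∈ symG hq hA hQ hMN hqN) ((π ^ j) ^ (6 * M))
          exact ⟨c', fun _ => by rw [← map_pow]; exact hc'⟩
        · exact ⟨1, fun h' => absurd h' hh⟩
      choose cc hcc using hcst
      refine ⟨(∏ h ∈ fixH hq hA hQ hMN hqN hπ P, cc h) * a ^ (p ^ r * (6 * M)),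
        b ^ (p ^ r * (6 * M)), k' ^ (p ^ r * (6 * M)),
        mul_ne_zero (Finset.prod_ne_zero_iff.mpr fun h hh h0 => ?_) (pow_ne_zero _ ha),
        pow_ne_zero _ hb, ?_⟩
      · have h1 := hcc h hh
        rw [h0, map_zero, map_eq_zero, map_eq_zero, pow_eq_zero_iff', map_eq_zero_iff _ hinj] at h1
        exact hπj h1.1
      · have hsplit : ∀ h ∈ fixH hq hA hQ hMN hqN hπ P, h (σ (f₂ ^ (6 * M))) =
            algebraMap (oBase A M) (Fld EE) (cc h) * (h (σ f₁)) ^ (p ^ r * (6 * M)) := fun h hh => by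
          rw [← hcc h hh, hf₂, mul_pow, ← pow_mul, map_mul, map_mul, map_pow σ f₁, map_pow h (σ f₁)]
        rw [Finset.prod_congr rfl hsplit, Finset.prod_mul_distrib, Finset.prod_pow, ← map_prod,
          map_mul, map_pow, map_pow]
        rw [mul_left_comm, ← mul_pow, hab]
        ring
    have h4 : h ^ (p ^ k) =
        algebraMap (oBase A M) (Fld EE) (c * (π ^ j) ^ (6 * M * D)) * f₁ ^ C := by
      rw [hh, hf₂, map_mul, map_pow _ (π ^ j) (6 * M * D), hCdef]
      ring
    rw [hf₁] at h4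
    have h5 := nsmul_apply_eq_zero hG hF hfs hf0 hser hbd hh0 h4 γ hγ
    rwa [pullQ_apply, redPow_apply] at h5
  have h6 : (C : ℤ_[p]) * (v : Additive (Gamma0 (Q * Q * m)) →+ ℤ_[p])
      (Additive.ofMul (pullHom Q m γ)) = 0 := by
    refine PadicInt.ext_of_toZModPow.mp fun k => ?_
    rw [map_mul, map_natCast, map_zero, ← nsmul_eq_mul]
    exact key k
  exact (mul_eq_zero.mp h6).resolve_left (Nat.cast_ne_zero.mpr hC)

end Fermat.Agent.Carayol
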