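import Fermat.Agent.Moduli.Family

/-!
# Lengths of products of parameters, and the supersingular length at level `q`
-/

set_option autoImplicit false
set_option linter.unusedSectionVars false
set_option linter.style.haveILetI false

namespace Fermat.Agent.Carayol

open Ideal IsLocalRing Finset Fermat.Agent.Moduli

lemma enat_le_of_mul_le_mul {n c : ℕ} (hn : 0 < n) {x : ℕ∞}
    (h : (n : ℕ∞) * x ≤ ((n * c : ℕ) : ℕ∞)) : x ≤ c := by
  rcases eq_or_ne x ⊤ with rfl | hx
  · rw [ENat.mul_top (by exact_mod_cast hn.ne'), top_le_iff] at h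
    exact absurd h (ENat.natCast_ne_top (n * c))
  · obtain ⟨a, rfl⟩ := ENat.ne_top_iff_exists.1 hx
    norm_cast at h ⊢
    exact Nat.le_of_mul_le_mul_left h hn

/-- If a sum is at most the number of terms times their common lower bound, every term is it. -/
lemma le_of_sum_le {ι : Type*} [DecidableEq ι] {s : Finset ι} {f : ι → ℕ∞} {c : ℕ}
    (hc : ∀ i ∈ s, (c : ℕ∞) ≤ f i) (h : ∑ i ∈ s, f i ≤ ((s.card * c : ℕ) : ℕ∞))
    {i : ι} (hi : i ∈ s) : f i ≤ c := by
  rw [← Finset.add_sum_erase _ f hi, ← Finset.card_erase_add_one hi, add_one_mul, Nat.cast_add,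
    add_comm _ (c : ℕ∞)] at h
  have h1 : (((s.erase i).card * c : ℕ) : ℕ∞) ≤ ∑ j ∈ s.erase i, f j := by
    rw [Nat.cast_mul, ← nsmul_eq_mul]
    exact Finset.card_nsmul_le_sum _ _ _ fun j hj => hc j (Finset.mem_of_mem_erase hj)
  exact (ENat.add_le_add_iff_right (ENat.natCast_ne_top _)).1
    ((add_le_add le_rfl h1).trans h)

variable {C : Type*} [CommRing C]

lemma IsRegularMod.of_dvd {I : Ideal C} {a b : C} (h : IsRegularMod I a) (hd : b ∣ a) :
    IsRegularMod I b := by
  obtain ⟨c, rfl⟩ := hd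
  exact Fermat.Agent.Moduli.IsRegularMod.of_mul_right (a := c) (by rwa [mul_comm])

/-- The length of `(a, b)` when `a` and `b` are products. -/
lemma qlen_sup_prod_prod [IsDomain C] {ι : Type*} (s t : Finset ι) (f : ι → C) {a b : C}
    (ha : Associated a (∏ i ∈ s, f i)) (hb : Associated b (∏ i ∈ t, f i)) (ha0 : a ≠ 0)
    (h : IsRegularMod (span {a}) b) :
    qlen (span {a} ⊔ span {b}) = ∑ i ∈ t, ∑ j ∈ s, qlen (span {f i} ⊔ span {f j}) := by
  have hreg : ∀ i ∈ t, IsRegularMod (span {a}) (f i) := fun i hi =>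
    IsRegularMod.of_dvd h ((Finset.dvd_prod_of_mem f hi).trans hb.symm.dvd)
  rw [span_singleton_eq_span_singleton.2 hb, qlen_sup_prod t f hreg]
  refine Finset.sum_congr rfl fun i hi => ?_
  rw [sup_comm, span_singleton_eq_span_singleton.2 ha, qlen_sup_prod s f fun j hj =>
    IsRegularMod.of_dvd (isRegularMod_swap ha0 (hreg i hi))
      ((Finset.dvd_prod_of_mem f hj).trans ha.symm.dvd)]

variable [IsLocalRing C] {M : Type*} [AddCommGroup M] [Fintype M] [DecidableEq M] {q : ℕ}
  [hq : Fact q.Prime] (F : TorsionFamily M C q)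

/-- The supersingular point at level `q`: the length of `(t, z T)`. -/
theorem qlen_sup_z_eq [IsDomain C] {t : C} (ht0 : t ≠ 0) (hall : ∀ T, F.z T ∈ maximalIdeal C)
    (hreg : ∀ T, T ≠ 0 → IsRegularMod (span {t}) (F.z T))
    (hHasse : ∀ P : M, P ≠ 0 → ∃ u, IsUnit u ∧
      t ^ 2 - u * ∏ T ∈ univ.filter (fun T => T ∉ AddSubgroup.zmultiples P), F.z T ^ 2 ∈
        span {F.z P})
    {T R : M} (hT : T ≠ 0) (hR : R ∉ AddSubgroup.zmultiples T) :
    qlen (span {t} ⊔ span {F.z T}) = (q ^ 2 - q) • qlen (span {F.z T} ⊔ span {F.z R}) ∧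
      IsRegularMod (span {F.z T}) (F.z R) := by
  classical
  obtain ⟨u, hu, hH⟩ := hHasse T hT
  have hct : IsRegularMod (span {F.z T}) t := isRegularMod_swap ht0 (hreg T hT)
  set S := univ.filter (fun X : M => X ∉ AddSubgroup.zmultiples T) with hS
  have hSc : S.card = q ^ 2 - q := by
    have h1 : (univ.filter (fun X : M => X ∈ AddSubgroup.zmultiples T)).card = q := by
      rw [← Fintype.card_subtype, ← Nat.card_eq_fintype_card]
      exact F.card_zmultiples hT
    have h2 := Finset.card_filter_add_card_filter_not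
      (s := (univ : Finset M)) (fun X : M => X ∈ AddSubgroup.zmultiples T)
    rw [Finset.card_univ, F.card_eq, h1] at h2
    rw [hS]
    omega
  choose v hv using fun X (hX : X ∈ S) => F.z_off_line hT hall hR (Finset.mem_filter.1 hX).2
  have hprod : ∃ w, IsUnit w ∧ t ^ 2 - w * (F.z R ^ 2) ^ S.card ∈ span {F.z T} := by
    refine ⟨u * ∏ X ∈ S.attach, v X.1 X.2 ^ 2, hu.mul (IsUnit.prod_iff.2 fun X _ =>
      (hv X.1 X.2).1.pow 2), ?_⟩
    have h3 : ∏ X ∈ S, F.z X ^ 2 - (∏ X ∈ S.attach, v X.1 X.2 ^ 2) * (F.z R ^ 2) ^ S.card ∈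
        span {F.z T} := by
      rw [← Finset.prod_attach S, ← Finset.card_attach (s := S), ← Finset.prod_const,
        ← Finset.prod_mul_distrib, ← Ideal.Quotient.eq_zero_iff_mem, map_sub, map_prod, map_prod,
        sub_eq_zero]
      refine Finset.prod_congr rfl fun X _ => ?_
      rw [← mul_pow, map_pow, map_pow]
      congr 1
      exact Ideal.Quotient.eq.2 (hv X.1 X.2).2
    have := AddMemClass.add_mem hH (mul_mem_left _ u h3)
    convert this using 1
    ring
  obtain ⟨w, hw, hT2⟩ := hprod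
  rw [← pow_mul, hSc] at hT2
  have hRreg : IsRegularMod (span {F.z T}) (F.z R) := by
    intro b hb
    refine hct.pow 2 b ?_
    have hpos : 0 < 2 * (q ^ 2 - q) := by
      have : q < q ^ 2 := lt_self_pow₀ hq.out.one_lt one_lt_two
      omega
    obtain ⟨j, hj⟩ := Nat.exists_eq_add_of_le hpos
    rw [hj] at hT2
    rw [show t ^ 2 * b = b * (t ^ 2 - w * F.z R ^ (1 + j)) + w * F.z R ^ j * (F.z R * b) by ring]
    exact AddMemClass.add_mem (mul_mem_left _ _ hT2) (mul_mem_left _ _ hb)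
  refine ⟨enat_eq_of_two_nsmul ?_, hRreg⟩
  rw [sup_comm (span {t}), ← qlen_sup_pow hct, sup_span_congr hw hT2, qlen_sup_pow hRreg,
    mul_smul]

end Fermat.Agent.Carayol
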