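import Fermat.Agent.LL.Carayol.Preimage

/-!
# The kernel of reduction at level `q ^ J`
-/

set_option autoImplicit false
set_option linter.unusedSectionVars false
set_option linter.style.haveILetI false

namespace Fermat.Agent.Carayol

open WeierstrassCurve Polynomial Fermat.Agent.EC Finset IsLocalRing Fermat.Agent.Moduli

variable {R : Type*} [CommRing R] [IsDomain R] [IsIntegrallyClosed R] {Ω : Type*} [Field Ω]
  [IsAlgClosed Ω] [CharZero Ω] [DecidableEq Ω] [Algebra R Ω] [FaithfulSMul R Ω] {l : R} {k K : ℕ}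
  {C : Type*} [CommRing C] [IsDomain C] [IsLocalRing C] [Algebra C Ω] [FaithfulSMul C Ω]
  [Algebra R C] [IsScalarTower R C Ω] [Fintype (LegTorsion Ω l (2 * K + 1))]
  [DecidableEq (LegTorsion Ω l (2 * K + 1))]

/-- The points reducing to the origin. -/
def kernelQ (H : HasCoords (Ω := Ω) C K l) : AddSubgroup (LegTorsion Ω l (2 * K + 1)) where
  carrier := {T | H.z T ∈ maximalIdeal C}
  zero_mem' := by simp [H.z_zero]
  neg_mem' := fun {T} h => by
    simpa only [Set.mem_setOf_eq, H.z_neg, neg_mem_iff] using h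
  add_mem' := fun {P Q} hP hQ => by
    have h := H.add_mem P Q hP hQ
    have hle : (Ideal.span {H.z P, H.z Q} : Ideal C) ^ 2 ≤ maximalIdeal C :=
      (Ideal.pow_le_self two_ne_zero).trans (Ideal.span_le.2 (by
        rintro x (rfl | rfl) <;> assumption))
    have := AddMemClass.add_mem (hle h) (AddMemClass.add_mem hP hQ)
    simpa [sub_sub] using this

variable {H : HasCoords (Ω := Ω) C K l}

lemma mem_kernelQ {T : LegTorsion Ω l (2 * K + 1)} :
    T ∈ kernelQ H ↔ H.z T ∈ maximalIdeal C := Iff.rfl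

lemma z_nsmul_eq {P : LegTorsion Ω l (2 * K + 1)} (hP : H.z P ∈ maximalIdeal C) (a : ℕ) :
    ∃ c, H.z (a • P) = H.z P * ((a : C) + c * H.z P) := by
  induction a with
  | zero => exact ⟨0, by simp [H.z_zero]⟩
  | succ a ih =>
    obtain ⟨c, hc⟩ := ih
    have h := H.add_mem (a • P) P ((kernelQ H).nsmul_mem (mem_kernelQ.2 hP) a) hP
    have hle : (Ideal.span {H.z (a • P), H.z P} : Ideal C) ≤ Ideal.span {H.z P} :=
      Ideal.span_le.2 (by
        rintro x (rfl | rfl)
        · exact Ideal.mem_span_singleton.2 ⟨_, hc⟩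
        · exact Ideal.mem_span_singleton_self _)
    have h2 := Ideal.pow_right_mono hle 2 h
    rw [Ideal.span_singleton_pow, Ideal.mem_span_singleton] at h2
    obtain ⟨d, hd⟩ := h2
    refine ⟨c + d, ?_⟩
    rw [succ_nsmul]
    push_cast
    linear_combination hd + hc

lemma z_torIncl (h : 2 * k + 1 ∣ 2 * K + 1) (H₁ : HasCoords (Ω := Ω) C k l)
    (T : LegTorsion Ω l (2 * k + 1)) : H.z (torIncl h T) = H₁.z T :=
  HasCoords.inj (C := C) (Ω := Ω) (by rw [H.map_z, H₁.map_z]; rfl)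

variable {q J : ℕ} [hp : Fact q.Prime]

lemma exists_pow_nsmul (hK : 2 * K + 1 = q ^ J) {T : LegTorsion Ω l (2 * K + 1)} (hT : T ≠ 0) :
    ∃ j, q ^ j • T ≠ 0 ∧ q • q ^ j • T = 0 := by
  have hfin : ∃ j, q ^ j • T = 0 := ⟨J, by rw [← hK]; exact legTorsion_nsmul' T⟩
  classical
  set j₁ := Nat.find hfin with hj₁
  have h1 : q ^ j₁ • T = 0 := Nat.find_spec hfin
  have hpos : j₁ ≠ 0 := fun e => hT (by rwa [e, pow_zero, one_nsmul] at h1)
  obtain ⟨j, hj⟩ : ∃ j, j₁ = j + 1 := ⟨j₁ - 1, by omega⟩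
  refine ⟨j, fun h => Nat.find_min hfin (m := j) (by rw [← hj₁, hj]; omega) h, ?_⟩
  rw [← mul_nsmul', ← pow_succ', ← hj]
  exact h1

variable [Fintype (LegTorsion Ω l (2 * k + 1))] [DecidableEq (LegTorsion Ω l (2 * k + 1))]

/-- Every nonzero parameter divides `q`. -/
lemma natCast_mem_span [IsIntegrallyClosed C] (hl : IsUnit l) (hl1 : IsUnit (1 - l))
    (H₁ : HasCoords (Ω := Ω) C k l) (hk : q = 2 * k + 1) (h : 2 * k + 1 ∣ 2 * K + 1)
    (hK : 2 * K + 1 = q ^ J) {T : LegTorsion Ω l (2 * K + 1)} (hT : T ≠ 0) :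
    (q : C) ∈ Ideal.span {H.z T} := by
  by_cases hm : H.z T ∈ maximalIdeal C
  · obtain ⟨j, hj, hqj⟩ := exists_pow_nsmul hK hT
    obtain ⟨S, hS⟩ := exists_torIncl_eq h (T := q ^ j • T) (by rw [← hk]; exact hqj)
    obtain ⟨c, hc⟩ := z_nsmul_eq hm (q ^ j)
    have hS0 : S ≠ 0 := fun e => hj (by rw [← hS, e, map_zero])
    have h1 : (q : C) ∈ Ideal.span {H₁.z S} :=
      (H₁.toFamily hl hl1 hk).natCast_mem hS0
    refine (Ideal.span_singleton_le_iff_mem _).2 ?_ h1
    rw [← z_torIncl (H := H) h H₁, hS, hc]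
    exact Ideal.mul_mem_right _ _ (Ideal.mem_span_singleton_self _)
  · rw [Ideal.span_singleton_eq_top.2 (notMem_maximalIdeal.1 hm)]
    exact Submodule.mem_top

/-- If the points killed by `q` reduce to the origin, all do. -/
theorem mem_kernelQ_of_torsion [IsIntegrallyClosed C] (hl : IsUnit l) (hl1 : IsUnit (1 - l))
    (hJ : 1 ≤ J) (hK : 2 * K + 1 = q ^ J)
    (hall : ∀ T : LegTorsion Ω l (2 * K + 1), q • T = 0 → T ∈ kernelQ H)
    (T : LegTorsion Ω l (2 * K + 1)) : T ∈ kernelQ H := by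
  have hN : 2 * K + 1 = q * q ^ (J - 1) := by
    rw [hK, ← pow_succ', Nat.sub_add_cancel hJ]
  suffices ∀ i, ∀ T : LegTorsion Ω l (2 * K + 1), q ^ i • T = 0 → T ∈ kernelQ H from
    this J T (by rw [← hK]; exact legTorsion_nsmul' T)
  intro i
  induction i with
  | zero => intro T hT; rw [pow_zero, one_nsmul] at hT; rw [hT]; exact zero_mem _
  | succ i ih =>
    intro T hT
    rw [pow_succ', mul_nsmul] at hT
    by_cases hP : q • T = 0
    · exact hall T hP
    have hPm := ih _ hT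
    have hd : q ^ (J - 1) • q • T = 0 := by
      rw [← mul_nsmul, ← hN]; exact legTorsion_nsmul' T
    have hass := associated_prod_preim H hl hl1 hN hP hd
    have : ∏ S ∈ preim q (q • T), H.z S ∈ maximalIdeal C := by
      obtain ⟨u, hu⟩ := hass
      rw [← hu]
      exact Ideal.mul_mem_right _ _ hPm
    obtain ⟨S, hS, hSm⟩ := Ideal.IsPrime.prod_mem_iff.1 this
    have h2 := hall (T - S) (by rw [nsmul_sub, mem_preim.1 hS, sub_self])
    have := AddMemClass.add_mem h2 (mem_kernelQ.2 hSm)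
    rwa [sub_add_cancel] at this

/-- A point above `P` in the kernel, for `P` in the kernel. -/
theorem exists_preim_mem [IsIntegrallyClosed C] (hl : IsUnit l) (hl1 : IsUnit (1 - l))
    {n d : ℕ} (hN : 2 * K + 1 = n * d) {P : LegTorsion Ω l (2 * K + 1)} (hP : P ≠ 0)
    (hdP : d • P = 0) (hPm : P ∈ kernelQ H) : ∃ T, n • T = P ∧ T ∈ kernelQ H := by
  obtain ⟨u, hu⟩ := associated_prod_preim H hl hl1 hN hP hdP
  have : ∏ T ∈ preim n P, H.z T ∈ maximalIdeal C := by
    rw [← hu]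
    exact Ideal.mul_mem_right _ _ hPm
  obtain ⟨T, hT, hTm⟩ := Ideal.IsPrime.prod_mem_iff.1 this
  exact ⟨T, mem_preim.1 hT, hTm⟩

/-- Two points above a basis of the points killed by `q` generate. -/
theorem exists_eq_add (hJ : 1 ≤ J) (hK : 2 * K + 1 = q ^ J)
    {P Q : LegTorsion Ω l (2 * K + 1)}
    (hspan : ∀ U : LegTorsion Ω l (2 * K + 1), q • U = 0 →
      ∃ a b : ℕ, U = a • (q ^ (J - 1) • Q) + b • (q ^ (J - 1) • P))
    (T : LegTorsion Ω l (2 * K + 1)) : ∃ a b : ℕ, T = a • Q + b • P := by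
  suffices ∀ i ≤ J, ∀ T : LegTorsion Ω l (2 * K + 1), q ^ i • T = 0 →
      ∃ a b : ℕ, T = a • Q + b • P from this J le_rfl T (by rw [← hK]; exact legTorsion_nsmul' T)
  intro i
  induction i with
  | zero => intro _ T hT; rw [pow_zero, one_nsmul] at hT; exact ⟨0, 0, by simp [hT]⟩
  | succ i ih =>
    intro hi T hT
    obtain ⟨a, b, hab⟩ := hspan (q ^ i • T) (by rw [← mul_nsmul', ← pow_succ']; exact hT)
    set e := J - 1 - i with he
    have hpow : q ^ (J - 1) = q ^ i * q ^ e := by rw [← pow_add]; congr 1; omega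
    set T' := (a * q ^ e) • Q + (b * q ^ e) • P with hT'
    have h1 : q ^ i • (T - T') = 0 := by
      rw [nsmul_sub, sub_eq_zero, hab, hT', nsmul_add, ← mul_nsmul', ← mul_nsmul', ← mul_nsmul',
        ← mul_nsmul', hpow, mul_left_comm, mul_left_comm (q ^ i) b]
    obtain ⟨c, d, hcd⟩ := ih (by omega) _ h1
    refine ⟨c + a * q ^ e, d + b * q ^ e, ?_⟩
    rw [← sub_add_cancel T T', hcd, hT', add_nsmul, add_nsmul]
    abel

end Fermat.Agent.Carayol
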