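import Fermat.Agent.Moduli.Prod

/-!
# Preimages under multiplication of the parameters of torsion points

For odd `n` the roots of `a - x(P) b` are the abscissae of the `n²` points `T` with `n T = P`, so
`s P` is the product of the `s T` up to a unit and the parameter of `P` is the product of theirs.
-/

set_option autoImplicit false
set_option linter.unusedSectionVars false
set_option linter.style.haveILetI false

namespace Fermat.Agent.Carayol

open WeierstrassCurve Polynomial Fermat.Agent.EC Finset IsLocalRing Fermat.Agent.Moduli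

variable {R : Type*} [CommRing R] [IsDomain R] [IsIntegrallyClosed R] {Ω : Type*} [Field Ω]
  [IsAlgClosed Ω] [CharZero Ω] [DecidableEq Ω] [Algebra R Ω] [FaithfulSMul R Ω] {l : R}

/-- The inclusion of the `n`-torsion in the `N`-torsion. -/
def torIncl {n N : ℕ} (h : n ∣ N) : LegTorsion Ω l n →+ LegTorsion Ω l N where
  toFun T := ⟨T.1, by
    obtain ⟨c, rfl⟩ := h
    rw [Submodule.mem_torsionBy_iff, natCast_zsmul, mul_comm, mul_nsmul', legTorsion_nsmul,
      nsmul_zero]⟩
  map_zero' := rfl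
  map_add' _ _ := rfl

lemma torIncl_injective {n N : ℕ} (h : n ∣ N) :
    Function.Injective (torIncl (Ω := Ω) (l := l) h) := fun _ _ e =>
  Subtype.ext (congrArg Subtype.val e : _)

lemma exists_torIncl_eq {n N : ℕ} (h : n ∣ N) {T : LegTorsion Ω l N} (hT : n • T = 0) :
    ∃ S, torIncl h S = T :=
  ⟨⟨T.1, by
    rw [Submodule.mem_torsionBy_iff, natCast_zsmul]
    exact (congrArg Subtype.val hT : _)⟩, rfl⟩

lemma natCard_nsmul_zero (hl : IsUnit l) (hl1 : IsUnit (1 - l)) {n N : ℕ} (h : n ∣ N)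
    (hn : 0 < n) : Nat.card {T : LegTorsion Ω l N // n • T = 0} = n ^ 2 := by
  haveI := legendreΩ_isElliptic (Ω := Ω) hl hl1
  rw [← natCard_torsionBy (legendreΩ Ω l) n hn]
  refine (Nat.card_congr (Equiv.ofBijective
    (fun S : LegTorsion Ω l n => (⟨torIncl h S, ?_⟩ : {T : LegTorsion Ω l N // n • T = 0}))
    ⟨fun a b e => torIncl_injective h (congrArg Subtype.val e), fun T => ?_⟩)).symm
  · rw [← map_nsmul, legTorsion_nsmul', map_zero]
  · obtain ⟨S, hS⟩ := exists_torIncl_eq h T.2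
    exact ⟨S, Subtype.ext hS⟩

/-- Multiplication by `n` is onto the points killed by `d`. -/
theorem exists_nsmul_eq (hl : IsUnit l) (hl1 : IsUnit (1 - l)) {n d N : ℕ} (hN : N = n * d)
    (hN0 : 0 < N) {P : LegTorsion Ω l N} (hP : d • P = 0) : ∃ T, n • T = P := by
  haveI := finite_legTorsion Ω l hl hl1 N hN0
  have hn : 0 < n := Nat.pos_of_ne_zero fun e => by simp [e] at hN; omega
  have hd : 0 < d := Nat.pos_of_ne_zero fun e => by simp [e] at hN; omega
  set f := nsmulAddMonoidHom (α := LegTorsion Ω l N) n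
  set g := nsmulAddMonoidHom (α := LegTorsion Ω l N) d
  have hle : f.range ≤ g.ker := by
    rintro _ ⟨T, rfl⟩
    show d • n • T = 0
    rw [← mul_nsmul, ← hN, legTorsion_nsmul']
  have hker : Nat.card f.ker = n ^ 2 :=
    (Nat.card_congr (Equiv.subtypeEquivRight fun T => Iff.rfl)).trans
      (natCard_nsmul_zero (Ω := Ω) hl hl1 ⟨d, hN⟩ hn)
  have hgker : Nat.card g.ker = d ^ 2 :=
    (Nat.card_congr (Equiv.subtypeEquivRight fun T => Iff.rfl)).trans
      (natCard_nsmul_zero (Ω := Ω) hl hl1 (Dvd.intro_left n hN.symm) hd)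
  haveI := legendreΩ_isElliptic (Ω := Ω) hl hl1
  have hM : Nat.card (LegTorsion Ω l N) = N ^ 2 := natCard_torsionBy _ _ hN0
  have hrange : Nat.card f.range = d ^ 2 := by
    have h1 := f.ker.card_eq_card_quotient_mul_card_addSubgroup
    rw [hM, hker, Nat.card_congr (QuotientAddGroup.quotientKerEquivRange f).toEquiv] at h1
    have h2 : N ^ 2 = d ^ 2 * n ^ 2 := by rw [← mul_pow, Nat.mul_comm, ← hN]
    exact Nat.eq_of_mul_eq_mul_right (pow_pos hn 2) (h1.symm.trans h2)
  have e : f.range = g.ker :=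
    AddSubgroup.eq_of_le_of_card_ge hle (le_of_eq (hgker.trans hrange.symm))
  obtain ⟨T, hT⟩ := (e ▸ (show P ∈ g.ker from hP) : P ∈ f.range)
  exact ⟨T, hT⟩

lemma spec_some_of_eq {a b : R[X]} {n : ℕ} (hp : MulPair (legendre l) (algebraMap R Ω) n a b)
    {V : WeierstrassCurve Ω} (hV : (legendre l).map (algebraMap R Ω) = V) {x y : Ω}
    (h : V.toAffine.Nonsingular x y) {x' y' : Ω} (h' : V.toAffine.Nonsingular x' y')
    (e : n • Affine.Point.some x y h = Affine.Point.some x' y' h') :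
    (a.map (algebraMap R Ω)).eval x = x' * (b.map (algebraMap R Ω)).eval x := by
  subst hV
  exact (hp.spec_some x y h x' y' h' e).2

variable {K : ℕ} [Fintype (LegTorsion Ω l (2 * K + 1))]
  [DecidableEq (LegTorsion Ω l (2 * K + 1))]

/-- The points `T` with `n • T = P`. -/
def preim (n : ℕ) (P : LegTorsion Ω l (2 * K + 1)) : Finset (LegTorsion Ω l (2 * K + 1)) :=
  univ.filter fun T => n • T = P

lemma mem_preim {n : ℕ} {P T : LegTorsion Ω l (2 * K + 1)} : T ∈ preim n P ↔ n • T = P := by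
  rw [preim, Finset.mem_filter]
  exact ⟨And.right, fun h => ⟨Finset.mem_univ _, h⟩⟩

lemma card_preim (hl : IsUnit l) (hl1 : IsUnit (1 - l)) {n d : ℕ} (hN : 2 * K + 1 = n * d)
    {P : LegTorsion Ω l (2 * K + 1)} (hP : d • P = 0) : (preim n P).card = n ^ 2 := by
  obtain ⟨T₀, hT₀⟩ := exists_nsmul_eq hl hl1 hN (by omega) hP
  have hn : 0 < n := Nat.pos_of_ne_zero fun e => by simp [e] at hN
  rw [← natCard_nsmul_zero (Ω := Ω) (l := l) hl hl1 (Dvd.intro d hN.symm) hn,
    ← Nat.card_eq_finsetCard]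
  refine Nat.card_congr ((Equiv.subRight T₀).subtypeEquiv fun T => ?_)
  rw [mem_preim, Equiv.subRight_apply, nsmul_sub, hT₀, sub_eq_zero]

/-- The identity in the ambient field. -/
theorem ts_eq_prod_preim (hl : IsUnit l) (hl1 : IsUnit (1 - l)) {k' d : ℕ}
    (hN : 2 * K + 1 = (2 * k' + 1) * d) (D : DivData R Ω l k')
    {P : LegTorsion Ω l (2 * K + 1)} (hP : P ≠ 0) (hdP : d • P = 0) :
    ts P = algebraMap R Ω (D.b.eval 0) * ∏ T ∈ preim (2 * k' + 1) P, ts T := by
  classical
  haveI := legendre_isElliptic (Ω := Ω) hl hl1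
  set φ := algebraMap R Ω with hφ
  have hinj := FaithfulSMul.algebraMap_injective R Ω
  set n := 2 * k' + 1 with hn
  set S := preim n P with hS
  obtain ⟨xP, yP, hxy, eP, -, esP, hyP, hxP, -, -⟩ := exists_coord_of_ne_zero hP
  have hT0 : ∀ T ∈ S, T ≠ 0 := fun T hT e => hP (by
    rw [← mem_preim.1 hT, e, nsmul_zero])
  have hroot : ∀ T ∈ S, (D.a.map φ - Polynomial.C xP * D.b.map φ).eval (ts T)⁻¹ = 0 := by
    intro T hT
    obtain ⟨x, y, h, eT, -, esT, -⟩ := exists_coord_of_ne_zero (hT0 T hT)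
    have e : n • Affine.Point.some x y h = Affine.Point.some xP yP hxy := by
      rw [← eT, ← eP, ← mem_preim.1 hT]
      rfl
    rw [esT, inv_inv, eval_sub, eval_mul, eval_C,
      spec_some_of_eq D.pair (map_legendre _ _) h hxy e, sub_self]
  have hinjS : Set.InjOn (fun T => (ts T)⁻¹) (S : Set (LegTorsion Ω l (2 * K + 1))) := by
    intro T hT T' hT' e
    obtain ⟨x, y, h, eT, -, esT, -⟩ := exists_coord_of_ne_zero (hT0 T hT)
    obtain ⟨x', y', h', eT', -, esT', -⟩ := exists_coord_of_ne_zero (hT0 T' hT')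
    simp only [esT, esT', inv_inv] at e
    rcases (Affine.Point.X_eq_iff (h₁ := h) (h₂ := h')).1 e with e' | e'
    · exact Subtype.ext (by rw [eT, eT', e'])
    · have hneg : T = -T' := Subtype.ext (by
        show T.1 = -T'.1
        rw [eT, eT', e'])
      exfalso
      have h1 : P = -P := by
        conv_lhs => rw [← mem_preim.1 hT, hneg, smul_neg, mem_preim.1 hT']
      have h2 : 2 • P = 0 := by rw [two_nsmul]; exact add_eq_zero_iff_eq_neg.2 h1
      have h3 : (2 * K + 1) • P = P := by rw [succ_nsmul, mul_nsmul, h2, nsmul_zero, zero_add]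
      exact hP (h3.symm.trans (legTorsion_nsmul' P))
  set g := D.a.map φ - Polynomial.C xP * D.b.map φ with hg
  have hbd : (Polynomial.C xP * D.b.map φ).natDegree ≤ n ^ 2 - 1 :=
    (natDegree_C_mul_le _ _).trans (natDegree_map_le.trans D.pair.natDegree_b)
  have hpos : 0 < n ^ 2 := pow_pos (by omega) 2
  have hgm : g.Monic := (D.pair.monic.map φ).sub_of_left (degree_lt_degree (by
    rw [D.pair.monic.natDegree_map, D.pair.natDegree_a, ← hn]; omega))
  have hgd : g.natDegree = n ^ 2 := by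
    rw [hg, natDegree_sub_eq_left_of_natDegree_lt, D.pair.monic.natDegree_map, D.pair.natDegree_a]
    rw [D.pair.monic.natDegree_map, D.pair.natDegree_a, ← hn]
    omega
  have hdvd : ∏ x ∈ S.image (fun T => (ts T)⁻¹), (X - Polynomial.C x) ∣ g := by
    rw [Finset.prod_eq_multiset_prod, Multiset.prod_X_sub_C_dvd_iff_le_roots hgm.ne_zero,
      Multiset.le_iff_subset (Finset.nodup _)]
    intro x hx
    obtain ⟨T, hT, rfl⟩ := Finset.mem_image.1 hx
    rw [mem_roots hgm.ne_zero]
    exact hroot T hT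
  rw [Finset.prod_image hinjS] at hdvd
  have heq : g = ∏ T ∈ S, (X - Polynomial.C (ts T)⁻¹) := by
    refine eq_of_monic_of_dvd_of_natDegree_le
      (monic_prod_of_monic _ _ fun T _ => monic_X_sub_C _) hgm hdvd ?_
    rw [natDegree_prod_of_monic _ _ (fun T _ => monic_X_sub_C _)]
    simp only [natDegree_X_sub_C, Finset.sum_const, smul_eq_mul, mul_one]
    rw [hgd, hS, card_preim hl hl1 hN hdP]
  obtain ⟨F, -, -, hF⟩ := exists_factor hinj (isTwoTor_zero l) (isUnit_slopeAt_zero hl) D.pair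
    D.b_eq D.natDegree_ψ.le
  have ha0 : D.a.eval 0 = 0 := by
    have := congrArg (eval (0 : R)) hF
    simpa using this
  have h0 := congrArg (eval (0 : Ω)) heq
  rw [hg, eval_sub, eval_mul, eval_C, eval_prod] at h0
  simp only [eval_sub, eval_X, eval_C, zero_sub] at h0
  rw [← map_zero φ, eval_map_apply, eval_map_apply, ha0, map_zero, zero_sub, Finset.prod_neg,
    Odd.neg_one_pow (by
      rw [hS, card_preim hl hl1 hN hdP]
      exact (odd_two_mul_add_one k').pow), neg_one_mul, neg_inj,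
    Finset.prod_inv_distrib] at h0
  rw [esP]
  have hb0 : φ (D.b.eval 0) ≠ 0 :=
    (map_ne_zero_iff φ hinj).2 (D.isUnit_b0 hl hl1).ne_zero
  have h1 : (∏ T ∈ S, ts T)⁻¹ ≠ 0 := by
    rw [← h0]
    exact mul_ne_zero hxP hb0
  rw [← inv_inv (∏ T ∈ S, ts T), ← h0, mul_inv, mul_comm xP⁻¹, ← mul_assoc,
    mul_inv_cancel₀ hb0, one_mul]

variable {C : Type*} [CommRing C] [IsDomain C] [IsLocalRing C] [Algebra C Ω] [FaithfulSMul C Ω]
  [Algebra R C] [IsScalarTower R C Ω] (H : HasCoords (Ω := Ω) C K l)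

include H in
/-- `s P` is the product over the preimages, up to a unit. -/
theorem exists_s_eq_prod_preim (hl : IsUnit l) (hl1 : IsUnit (1 - l)) {n d : ℕ}
    (hN : 2 * K + 1 = n * d) {P : LegTorsion Ω l (2 * K + 1)} (hP : P ≠ 0) (hdP : d • P = 0) :
    ∃ u : C, IsUnit u ∧ H.s P = u * ∏ T ∈ preim n P, H.s T := by
  obtain ⟨k', rfl⟩ : ∃ k', n = 2 * k' + 1 := by
    have : Odd (n * d) := hN ▸ odd_two_mul_add_one K
    obtain ⟨k', hk'⟩ := (Nat.odd_mul.1 this).1
    exact ⟨k', hk'⟩
  obtain ⟨D⟩ := nonempty_divData (R := R) (Ω := Ω) hl hl1 k'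
  refine ⟨algebraMap R C (D.b.eval 0), (D.isUnit_b0 hl hl1).map _, HasCoords.inj (C := C) (Ω := Ω) ?_⟩
  rw [map_mul, map_prod, ← IsScalarTower.algebraMap_apply, H.map_s,
    ts_eq_prod_preim hl hl1 hN D hP hdP]
  exact congrArg _ (Finset.prod_congr rfl fun T _ => (H.map_s T).symm)

include H in
/-- The parameter of `P` is the product over the preimages, up to a unit. -/
theorem associated_prod_preim [IsIntegrallyClosed C] (hl : IsUnit l) (hl1 : IsUnit (1 - l))
    {n d : ℕ} (hN : 2 * K + 1 = n * d) {P : LegTorsion Ω l (2 * K + 1)} (hP : P ≠ 0)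
    (hdP : d • P = 0) : Associated (H.z P) (∏ T ∈ preim n P, H.z T) := by
  obtain ⟨u, hu, h⟩ := exists_s_eq_prod_preim H hl hl1 hN hP hdP
  have hs : ∀ T, Associated (H.s T) (H.z T ^ 2) := fun T => by
    rw [H.s_eq]
    exact associated_mul_unit_left _ _ ((H.u T).isUnit.mul (H.v T).isUnit)
  have h2 : Associated (H.s P) (∏ T ∈ preim n P, H.z T ^ 2) := by
    rw [h]
    exact (associated_unit_mul_left _ _ hu).trans (Associated.prod _ _ _ fun T _ => hs T)
  rw [Finset.prod_pow] at h2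
  have hsq := (hs P).symm.trans h2
  exact associated_of_dvd_dvd
    ((IsIntegrallyClosed.pow_dvd_pow_iff two_ne_zero).1 hsq.dvd)
    ((IsIntegrallyClosed.pow_dvd_pow_iff two_ne_zero).1 hsq.symm.dvd)

end Fermat.Agent.Carayol
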