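import Fermat.Agent.Moduli.Stab
import Fermat.Agent.LL.Carayol.Preimage

/-!
# Bounds for groups acting faithfully on `(ℤ/q^J)²`
-/

set_option autoImplicit false
set_option linter.unusedSectionVars false
set_option linter.style.haveILetI false

namespace Fermat.Agent.Carayol

open Finset Fermat.Agent.Moduli Fermat.Agent.EC

section Line

variable {M G : Type*} [AddCommGroup M] [Fintype M] [DecidableEq M] [Group G]
  [DistribMulAction G M] {n q : ℕ}

/-- A group fixing a cyclic subgroup of order `n q` and the quotient by it. -/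
theorem card_le_of_lineQ (hq : 0 < q) (S : Subgroup G) {P Q : M}
    (hord : addOrderOf P = n * q) (hnP : n • P ≠ 0)
    (hline : ∀ g ∈ S, g • P ∈ AddSubgroup.zmultiples P)
    (hquot : ∀ g ∈ S, g • Q - Q ∈ AddSubgroup.zmultiples P)
    (hgen : ∀ g ∈ S, g • P = P → g • Q = Q → g = 1) :
    Nat.card S ≤ (q - 1) * n * (n * q) := by
  classical
  set L := univ.filter fun T => T ∈ AddSubgroup.zmultiples P with hL
  set A := L.filter fun T => n • T ≠ 0 with hA
  let f : S → {x // x ∈ A ×ˢ L} := fun g => ⟨((g : G) • P, (g : G) • Q - Q), by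
    simp only [hA, hL, mem_product, mem_filter, mem_univ, true_and]
    refine ⟨⟨hline _ g.2, fun h => hnP ?_⟩, hquot _ g.2⟩
    rwa [← smul_comm, smul_eq_zero_iff_eq] at h⟩
  have hf : Function.Injective f := by
    intro a b h
    simp only [f, Subtype.mk.injEq, Prod.mk.injEq, sub_left_inj] at h
    have hmem : (b : G)⁻¹ * a ∈ S := S.mul_mem (S.inv_mem b.2) a.2
    have := hgen _ hmem (by rw [mul_smul, h.1, inv_smul_smul]) (by rw [mul_smul, h.2, inv_smul_smul])
    exact Subtype.ext (inv_mul_eq_one.1 this).symm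
  have hLc : L.card = n * q := by
    rw [hL, ← Fintype.card_subtype, ← Nat.card_eq_fintype_card]
    exact (Nat.card_zmultiples P).trans hord
  have hB : n ≤ (L.filter fun T => ¬ (n • T ≠ 0)).card := by
    have hc : (univ.filter fun T => T ∈ AddSubgroup.zmultiples (q • P)).card = n := by
      rw [← Fintype.card_subtype, ← Nat.card_eq_fintype_card]
      refine (Nat.card_zmultiples (q • P)).trans ?_
      rw [addOrderOf_nsmul' P hq.ne', hord, Nat.gcd_mul_left_left, Nat.mul_div_cancel _ hq]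
    refine hc.symm.le.trans (Finset.card_le_card fun T hT => ?_)
    obtain ⟨i, rfl⟩ := AddSubgroup.mem_zmultiples_iff.1 (Finset.mem_filter.1 hT).2
    simp only [hL, mem_filter, mem_univ, true_and, ne_eq, not_not]
    refine ⟨AddSubgroup.zsmul_mem _ (nsmul_mem (AddSubgroup.mem_zmultiples P) q) i, ?_⟩
    rw [← smul_comm i n, ← mul_nsmul', ← hord, addOrderOf_nsmul_eq_zero, smul_zero]
  have hAc : A.card ≤ (q - 1) * n := by
    have h2 := Finset.card_filter_add_card_filter_not (s := L) (fun T => n • T ≠ 0)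
    rw [← hA, hLc] at h2
    rw [Nat.sub_mul, one_mul, mul_comm q n]
    omega
  refine (Nat.card_le_card_of_injective f hf).trans ?_
  rw [Nat.card_eq_fintype_card, Fintype.card_coe, card_product, hLc]
  exact Nat.mul_le_mul_right _ hAc

end Line

variable {R : Type*} [CommRing R] [IsDomain R] [IsIntegrallyClosed R] {Ω : Type*} [Field Ω]
  [IsAlgClosed Ω] [CharZero Ω] [DecidableEq Ω] [Algebra R Ω] [FaithfulSMul R Ω] {l : R} {k K : ℕ}
  {G : Type*} [Group G]
  [Fintype (LegTorsion Ω l (2 * k + 1))] [DecidableEq (LegTorsion Ω l (2 * k + 1))]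
  [Fintype (LegTorsion Ω l (2 * K + 1))] [DecidableEq (LegTorsion Ω l (2 * K + 1))]
  [DistribMulAction G (LegTorsion Ω l (2 * K + 1))]

/-- A group acting faithfully on lifts of a basis. -/
theorem card_le_of_basisQ (hl : IsUnit l) (hl1 : IsUnit (1 - l)) {q : ℕ} [Fact q.Prime]
    (hk : q = 2 * k + 1) (h : 2 * k + 1 ∣ 2 * K + 1) {n : ℕ} (hN : 2 * K + 1 = n * q)
    (S : Subgroup G) {P Q : LegTorsion Ω l (2 * K + 1)} {P₁ Q₁ : LegTorsion Ω l (2 * k + 1)}
    (hP₁ : P₁ ≠ 0) (hQ₁ : Q₁ ∉ AddSubgroup.zmultiples P₁) (eP : n • P = torIncl h P₁)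
    (eQ : n • Q = torIncl h Q₁) (hgen : ∀ g ∈ S, g • P = P → g • Q = Q → g = 1) :
    Nat.card S ≤ (q ^ 2 - 1) * (q ^ 2 - q) * (n ^ 2 * n ^ 2) := by
  classical
  have hn : 0 < n := Nat.pos_of_ne_zero fun e => by simp [e] at hN
  have hkill : ∀ T : LegTorsion Ω l (2 * K + 1), (2 * k + 1) • n • T = 0 := fun T => by
    rw [← mul_nsmul, ← hk, ← hN]; exact legTorsion_nsmul' T
  choose ρ hρ using fun T : LegTorsion Ω l (2 * K + 1) => exists_torIncl_eq h (hkill T)
  have hq0 : ∀ T : LegTorsion Ω l (2 * k + 1), q • torIncl h T = 0 := fun T => by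
    rw [← map_nsmul, hk, legTorsion_nsmul', map_zero]
  choose σ hσ using fun T : LegTorsion Ω l (2 * k + 1) =>
    exists_nsmul_eq hl hl1 hN (by omega) (hq0 T)
  have hexp : ∀ T : LegTorsion Ω l (2 * k + 1), q • T = 0 := fun T => by
    subst hk; exact legTorsion_nsmul' T
  have hcard : Fintype.card (LegTorsion Ω l (2 * k + 1)) = q ^ 2 := by
    subst hk
    haveI := legendreΩ_isElliptic (Ω := Ω) hl hl1
    rw [← Nat.card_eq_fintype_card]
    exact natCard_torsionBy _ _ (by omega)
  have hpair : ∀ g : S, ρ ((g : G) • P) ≠ 0 ∧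
      ρ ((g : G) • Q) ∉ AddSubgroup.zmultiples (ρ ((g : G) • P)) := by
    intro g
    constructor
    · intro e
      have h0 := congrArg (torIncl h) e
      rw [hρ, map_zero, ← smul_comm, smul_eq_zero_iff_eq, eP, ← map_zero (torIncl h)] at h0
      exact hP₁ (torIncl_injective h h0)
    · intro hm
      obtain ⟨i, hi⟩ := AddSubgroup.mem_zmultiples_iff.1 hm
      have h0 := congrArg (torIncl h) hi
      rw [map_zsmul, hρ, hρ, ← smul_comm (g : G) n, ← smul_comm (g : G) n, ← smul_comm (g : G) i,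
        smul_left_cancel_iff, eP, eQ, ← map_zsmul] at h0
      exact hQ₁ (AddSubgroup.mem_zmultiples_iff.2 ⟨i, torIncl_injective h h0⟩)
  let f : S → {x // x ∈ basisPairs (LegTorsion Ω l (2 * k + 1))} ×
      ({T : LegTorsion Ω l (2 * K + 1) // n • T = 0} ×
        {T : LegTorsion Ω l (2 * K + 1) // n • T = 0}) := fun g =>
    (⟨(ρ ((g : G) • P), ρ ((g : G) • Q)), mem_basisPairs.2 (hpair g)⟩,
      ⟨(g : G) • P - σ (ρ ((g : G) • P)), by rw [nsmul_sub, hσ, hρ, sub_self]⟩,
      ⟨(g : G) • Q - σ (ρ ((g : G) • Q)), by rw [nsmul_sub, hσ, hρ, sub_self]⟩)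
  have hf : Function.Injective f := by
    intro a b e
    simp only [f, Prod.mk.injEq, Subtype.mk.injEq] at e
    obtain ⟨⟨e1, e2⟩, e3, e4⟩ := e
    rw [e1, sub_left_inj] at e3
    rw [e2, sub_left_inj] at e4
    have hmem : (b : G)⁻¹ * a ∈ S := S.mul_mem (S.inv_mem b.2) a.2
    have := hgen _ hmem (by rw [mul_smul, e3, inv_smul_smul]) (by rw [mul_smul, e4, inv_smul_smul])
    exact Subtype.ext (inv_mul_eq_one.1 this).symm
  refine (Nat.card_le_card_of_injective f hf).trans ?_
  rw [Nat.card_prod, Nat.card_prod, natCard_nsmul_zero hl hl1 (Dvd.intro q hN.symm) hn,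
    Nat.card_eq_fintype_card, Fintype.card_coe, card_basisPairs hexp hcard]

end Fermat.Agent.Carayol
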