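import Fermat.Agent.LL.Carayol.MuQ
import Fermat.Agent.LL.Carayol.FamilyQ
import Fermat.Agent.LL.Carayol.KernelQ
import Fermat.Agent.LL.Carayol.StabQ
import Fermat.Agent.Moduli.LegPoint

/-!
# Points over `q` of the full level `q ^ J` model of the Legendre curve
-/

set_option autoImplicit false
set_option linter.unusedSectionVars false
set_option linter.style.haveILetI false

namespace Fermat.Agent.Carayol

open WeierstrassCurve Polynomial Fermat.Agent.EC IsLocalRing Fermat.Agent.Moduli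
open scoped Pointwise

variable {R : Type*} [CommRing R] [IsDomain R] [IsIntegrallyClosed R] [IsNoetherianRing R]
  {Ω : Type*} [Field Ω] [IsAlgClosed Ω] [CharZero Ω] [DecidableEq Ω] [Algebra R Ω]
  [FaithfulSMul R Ω] {l : R} {k K q J : ℕ} [hp : Fact q.Prime]
  {B G : Type*} [CommRing B] [IsDomain B] [IsIntegrallyClosed B] [Algebra R B]
  [FaithfulSMul R B] [Algebra.IsIntegral R B] [Algebra B Ω] [FaithfulSMul B Ω]
  [IsScalarTower R B Ω] [Group G] [Finite G] [MulSemiringAction G B] [SMulCommClass G R B]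
  [Fintype (LegTorsion Ω l (2 * k + 1))] [DecidableEq (LegTorsion Ω l (2 * k + 1))]
  [DistribMulAction G (LegTorsion Ω l (2 * k + 1))]
  [Fintype (LegTorsion Ω l (2 * K + 1))] [DecidableEq (LegTorsion Ω l (2 * K + 1))]
  [DistribMulAction G (LegTorsion Ω l (2 * K + 1))]

/-- Two generators at every point over `q` of level `q ^ J`. -/
theorem exists_two_generators {t : R} {H₁ : HasCoords (Ω := Ω) B k l} (S : LegSetup H₁ G q t)
    (H : HasCoords (Ω := Ω) B K l) (hz : ∀ (g : G) T, H.z (g • T) = g • H.z T)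
    (hs : ∀ (g : G) T, H.s (g • T) = g • H.s T) (hJ : 1 ≤ J) (hK : 2 * K + 1 = q ^ J)
    {m : Ideal B} [hm : m.IsMaximal] (hqm : (q : B) ∈ m) (htm : algebraMap R B t ∈ m)
    (hfix : ∀ g : G, g • m = m → (∀ T : LegTorsion Ω l (2 * K + 1), g • T = T) → g = 1)
    {C : Type*} [CommRing C] [IsDomain C] [IsLocalRing C] [Algebra B C]
    [IsLocalization.AtPrime C m] [Algebra R C] [IsScalarTower R B C] :
    ∃ x y : C, maximalIdeal C = Ideal.span {x} ⊔ Ideal.span {y} := by
  classical
  letI : Algebra C Ω := (localToField Ω m C).toAlgebra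
  haveI : IsScalarTower B C Ω := IsScalarTower.of_algebraMap_eq fun x =>
    (localToField_algebraMap Ω m C x).symm
  haveI : IsScalarTower R C Ω := IsScalarTower.of_algebraMap_eq fun x => by
    rw [IsScalarTower.algebraMap_apply R B C, ← IsScalarTower.algebraMap_apply B C Ω,
      ← IsScalarTower.algebraMap_apply]
  haveI : FaithfulSMul C Ω := (faithfulSMul_iff_algebraMap_injective C Ω).2
    (localToField_injective Ω m C)
  haveI : IsIntegrallyClosed C :=
    isIntegrallyClosed_of_isLocalization C m.primeCompl (Ideal.primeCompl_le_nonZeroDivisors m)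
  obtain ⟨hl, hl1, hk⟩ : IsUnit l ∧ IsUnit (1 - l) ∧ q = 2 * k + 1 :=
    ⟨S.isUnit_l, S.isUnit_one_sub, S.hq⟩
  have hqpos : 0 < q := hp.out.pos
  let H' := H.toLocal C
  let H₁' := H₁.toLocal C
  let F := H₁'.toFamily hl hl1 hk
  set n := q ^ (J - 1) with hn
  have hnpos : 0 < n := pow_pos hqpos _
  have hN : 2 * K + 1 = n * q := by rw [hK, hn, ← pow_succ, Nat.sub_add_cancel hJ]
  have h : 2 * k + 1 ∣ 2 * K + 1 := ⟨n, by rw [hN, ← hk, mul_comm]⟩
  set ι := torIncl (Ω := Ω) (l := l) h with hι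
  have hcompat : ∀ T, H'.z (ι T) = F.z T := fun T => z_torIncl h H₁' T
  have hmem : ∀ T, H'.z T ∈ maximalIdeal C ↔ H.z T ∈ m := fun T =>
    IsLocalization.AtPrime.to_map_mem_maximal_iff C m _
  have hRC : ∀ r : R, algebraMap R C r ∈ maximalIdeal C ↔ r ∈ Ideal.span {(q : R), t} := by
    intro r
    rw [IsScalarTower.algebraMap_apply R B C, IsLocalization.AtPrime.to_map_mem_maximal_iff C m,
      S.mem_m_iff hqm htm]
  set tC := algebraMap R C t with htC
  have htmem : tC ∈ maximalIdeal C := (hRC t).2 (Ideal.subset_span (Or.inr rfl))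
  have hRCinj : Function.Injective (algebraMap R C) := by
    rw [IsScalarTower.algebraMap_eq R B C]
    exact (IsLocalization.injective C (Ideal.primeCompl_le_nonZeroDivisors m)).comp
      (FaithfulSMul.algebraMap_injective R B)
  have ht0 : tC ≠ 0 := (map_ne_zero_iff _ hRCinj).2 fun e => S.not_dvd (e ▸ dvd_zero _)
  have hqC0 : (q : C) ≠ 0 := by
    rw [← map_natCast (algebraMap R C)]
    exact (map_ne_zero_iff _ hRCinj).2 S.prime_q.ne_zero
  have hqspan : ∀ T : LegTorsion Ω l (2 * K + 1), T ≠ 0 → (q : C) ∈ Ideal.span {H'.z T} :=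
    fun T hT => natCast_mem_span hl hl1 H₁' hk h hK hT
  have hreg : ∀ T : LegTorsion Ω l (2 * K + 1), T ≠ 0 →
      IsRegularMod (Ideal.span {tC}) (H'.z T) := fun T hT =>
    IsRegularMod.of_dvd (regular_fibre (B := B) m S.prime_q S.not_dvd)
      (Ideal.mem_span_singleton.1 (hqspan T hT))
  have hz0 : ∀ T : LegTorsion Ω l (2 * K + 1), T ≠ 0 → H'.z T ≠ 0 := fun T hT e => hqC0 (by
    simpa [e] using hqspan T hT)
  have hι0 : ∀ T, T ≠ 0 → ι T ≠ 0 := fun T hT e =>
    hT (torIncl_injective h (e.trans (map_zero _).symm))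
  have hqι : ∀ T, q • ι T = 0 := fun T => by rw [← map_nsmul, hk, legTorsion_nsmul', map_zero]
  have hsum : qlen (Ideal.span {tC} ⊔ Ideal.span {(q : C)}) =
      ∑ T ∈ (Finset.univ : Finset (LegTorsion Ω l (2 * k + 1))).erase 0,
        qlen (Ideal.span {tC} ⊔ Ideal.span {F.z T}) := by
    rw [Ideal.span_singleton_eq_span_singleton.2 F.prod_eq, qlen_sup_prod _ _ fun T hT => by
      have := hreg (ι T) (hι0 T (Finset.mem_erase.1 hT).1)
      rwa [hcompat] at this]
  have hle := qlen_fibre_le (m := m) H₁.z F (fun T => rfl) S.prime_q S.not_dvd S.maximal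
    S.rank_le (C := C)
  by_cases hh : (Fermat.Agent.Moduli.hasse R k).eval l ∈ Ideal.span {(q : R), t}
  · -- supersingular
    have hall : ∀ T, F.z T ∈ maximalIdeal C := fun T =>
      (IsLocalization.AtPrime.to_map_mem_maximal_iff C m _).2 ((S.all_mem_iff hqm htm).2 hh T)
    have hker : ∀ T, H'.z T ∈ maximalIdeal C := fun T =>
      mem_kernelQ_of_torsion (H := H') hl hl1 hJ hK (fun U hU => by
        obtain ⟨V, rfl⟩ := exists_torIncl_eq h (T := U) (by rw [← hk]; exact hU)
        show H'.z (ι V) ∈ maximalIdeal C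
        rw [hcompat]
        exact hall V) T
    have hHasse : ∀ P : LegTorsion Ω l (2 * k + 1), P ≠ 0 → ∃ u, IsUnit u ∧ tC ^ 2 -
        u * ∏ T ∈ Finset.univ.filter (fun T => T ∉ AddSubgroup.zmultiples P), F.z T ^ 2 ∈
          Ideal.span {F.z P} := by
      intro P' hP'
      have hqP := F.natCast_mem hP'
      obtain ⟨u, hu, h1⟩ := H₁'.hasse_sq_mem hl hl1 hk S.isPrime hP' (hall P') hqP
      obtain ⟨w, hw, h2⟩ := S.hasse.resolve_left (not_not.2 hh)
      obtain ⟨c, hc⟩ := Ideal.mem_span_singleton.1 h2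
      set D := algebraMap R C ((Fermat.Agent.Moduli.hasse R k).eval l) with hD
      obtain ⟨v, hv⟩ : IsUnit (algebraMap R C w) :=
        notMem_maximalIdeal.1 fun e => hw ((hRC w).1 e)
      refine ⟨(↑v⁻¹ : C) ^ 2 * u, (v⁻¹.isUnit.pow 2).mul hu, ?_⟩
      have e : D - v * tC = (q : C) * algebraMap R C c := by
        rw [hv, hD, htC, ← map_mul, ← map_sub, hc, map_mul, map_natCast]
      have h3 : D ^ 2 - ((v : C) * tC) ^ 2 ∈ Ideal.span {F.z P'} := by
        rw [sq_sub_sq, e]
        exact Ideal.mul_mem_left _ _ (Ideal.mul_mem_right _ _ hqP)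
      have h4 := Ideal.mul_mem_left _ ((↑v⁻¹ : C) ^ 2) (sub_mem h1 h3)
      have hvv := v.inv_mul
      have key : tC ^ 2 - (↑v⁻¹ : C) ^ 2 * u *
          ∏ T ∈ Finset.univ.filter (fun T => T ∉ AddSubgroup.zmultiples P'), H₁'.z T ^ 2 =
          (↑v⁻¹ : C) ^ 2 * (D ^ 2 - u *
            ∏ T ∈ Finset.univ.filter (fun T => T ∉ AddSubgroup.zmultiples P'), H₁'.z T ^ 2 -
            (D ^ 2 - ((v : C) * tC) ^ 2)) := by
        linear_combination -(tC ^ 2 * ((↑v⁻¹ : C) * (v : C) + 1)) * hvv
      rw [← key] at h4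
      convert h4 using 4
      all_goals rfl
    have key : ∀ T : LegTorsion Ω l (2 * k + 1), T ≠ 0 → ∀ U ∉ AddSubgroup.zmultiples T,
        qlen (Ideal.span {tC} ⊔ Ideal.span {F.z T}) =
            (q ^ 2 - q) • qlen (Ideal.span {F.z T} ⊔ Ideal.span {F.z U}) ∧
          IsRegularMod (Ideal.span {F.z T}) (F.z U) := fun T hT U hU =>
      qlen_sup_z_eq F ht0 hall (fun V hV => by
        have := hreg (ι V) (hι0 V hV)
        rwa [hcompat] at this) hHasse hT hU
    have hterm1 : ∀ T U, 1 ≤ qlen (Ideal.span {H'.z T} ⊔ Ideal.span {H'.z U}) := fun T U =>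
      qlen_pos fun e => (maximalIdeal.isMaximal C).ne_top (top_le_iff.1 (e ▸ sup_le
        ((Ideal.span_singleton_le_iff_mem _).2 (hker T))
        ((Ideal.span_singleton_le_iff_mem _).2 (hker U))))
    have hinner : ∀ T : LegTorsion Ω l (2 * k + 1), T ≠ 0 → ∀ U ∉ AddSubgroup.zmultiples T,
        qlen (Ideal.span {F.z T} ⊔ Ideal.span {F.z U}) =
            ∑ x ∈ preim n (ι U) ×ˢ preim n (ι T),
              qlen (Ideal.span {H'.z x.1} ⊔ Ideal.span {H'.z x.2}) ∧
          (preim n (ι U) ×ˢ preim n (ι T)).card = n ^ 2 * n ^ 2 := by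
      intro T hT U hU
      have hU0 : U ≠ 0 := fun e => hU (e ▸ zero_mem _)
      refine ⟨?_, by rw [Finset.card_product, card_preim hl hl1 hN (hqι U),
        card_preim hl hl1 hN (hqι T)]⟩
      rw [Finset.sum_product, ← hcompat T, ← hcompat U]
      exact qlen_sup_prod_prod _ _ _ (associated_prod_preim H' hl hl1 hN (hι0 T hT) (hqι T))
        (associated_prod_preim H' hl hl1 hN (hι0 U hU0) (hqι U)) (hz0 _ (hι0 T hT))
        (by rw [hcompat, hcompat]; exact (key T hT U hU).2)
    have hex : ∀ T : LegTorsion Ω l (2 * k + 1), T ≠ 0 → ∃ U, U ∉ AddSubgroup.zmultiples T := by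
      intro T hT
      by_contra hh'
      push Not at hh'
      have h1 := Nat.card_le_card_of_injective
        (fun X : LegTorsion Ω l (2 * k + 1) => (⟨X, hh' X⟩ : AddSubgroup.zmultiples T))
        fun a b e => congrArg Subtype.val e
      rw [F.card_zmultiples hT, Nat.card_eq_fintype_card, F.card_eq] at h1
      exact absurd h1 (not_le.2 (lt_self_pow₀ hp.out.one_lt one_lt_two))
    set c := (q ^ 2 - q) * (n ^ 2 * n ^ 2) with hc
    have hlow : ∀ T ∈ (Finset.univ : Finset (LegTorsion Ω l (2 * k + 1))).erase 0,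
        (c : ℕ∞) ≤ qlen (Ideal.span {tC} ⊔ Ideal.span {F.z T}) := by
      intro T hT
      have hT0 := (Finset.mem_erase.1 hT).1
      obtain ⟨U, hU⟩ := hex T hT0
      obtain ⟨e, hcard⟩ := hinner T hT0 U hU
      rw [(key T hT0 U hU).1, e, hc, Nat.cast_mul, ← nsmul_eq_mul]
      refine nsmul_le_nsmul_right ?_ _
      rw [← hcard, ← nsmul_one]
      exact Finset.card_nsmul_le_sum _ _ _ fun x _ => hterm1 _ _
    obtain ⟨P₁, hP₁, -⟩ := S.exists_mem_kernel hqm htm
    obtain ⟨Q₁, hQ₁⟩ := hex P₁ hP₁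
    obtain ⟨P, eP⟩ := exists_nsmul_eq hl hl1 hN (by omega) (hqι P₁)
    obtain ⟨Q, eQ⟩ := exists_nsmul_eq hl hl1 hN (by omega) (hqι Q₁)
    have hspan : ∀ U : LegTorsion Ω l (2 * K + 1), q • U = 0 →
        ∃ a b : ℕ, U = a • (q ^ (J - 1) • Q) + b • (q ^ (J - 1) • P) := by
      intro U hU
      obtain ⟨V, rfl⟩ := exists_torIncl_eq h (T := U) (by rw [← hk]; exact hU)
      obtain ⟨a, b, hab, -⟩ := F.exists_nsmul_add hP₁ hQ₁ V
      exact ⟨a, b, by rw [← hn, eP, eQ, hab, map_add, map_nsmul, map_nsmul]⟩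
    have hgen : ∀ g ∈ MulAction.stabilizer G m, g • P = P → g • Q = Q → g = 1 := by
      intro g hg hgP hgQ
      refine hfix g hg fun T => ?_
      obtain ⟨a, b, rfl⟩ := exists_eq_add hJ hK hspan T
      rw [smul_add, smul_comm g a, smul_comm g b, hgP, hgQ]
    have hbound := card_le_of_basisQ hl hl1 hk h hN (MulAction.stabilizer G m) hP₁ hQ₁ eP eQ hgen
    have hcard1 : ((Finset.univ : Finset (LegTorsion Ω l (2 * k + 1))).erase 0).card = q ^ 2 - 1 := by
      rw [Finset.card_erase_of_mem (Finset.mem_univ _), Finset.card_univ, F.card_eq]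
    have hb : Nat.card (MulAction.stabilizer G m) ≤
        ((Finset.univ : Finset (LegTorsion Ω l (2 * k + 1))).erase 0).card * c := by
      rw [hcard1, hc, ← mul_assoc]
      exact hbound
    have hsum_le := hsum ▸ hle.trans (Nat.cast_le.2 hb)
    have h1 := le_of_sum_le hlow hsum_le (Finset.mem_erase.2 ⟨hP₁, Finset.mem_univ _⟩)
    obtain ⟨e, hcard⟩ := hinner P₁ hP₁ Q₁ hQ₁
    rw [(key P₁ hP₁ Q₁ hQ₁).1, nsmul_eq_mul] at h1
    have hqq : 0 < q ^ 2 - q := by
      have : q < q ^ 2 := lt_self_pow₀ hp.out.one_lt one_lt_two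
      omega
    have h2 := enat_le_of_mul_le_mul hqq h1
    rw [e, ← hcard] at h2
    have h3 := le_of_sum_le (c := 1) (fun x _ => by exact_mod_cast hterm1 x.1 x.2)
      (by rw [mul_one]; exact h2) (i := (Q, P))
      (Finset.mk_mem_product (mem_preim.2 eQ) (mem_preim.2 eP))
    exact ⟨_, _, (eq_of_qlen_eq_one (le_antisymm (by exact_mod_cast h3) (hterm1 Q P))).symm⟩
  · -- ordinary
    obtain ⟨P₁, hP₁, hP₁m⟩ := S.exists_mem_kernel hqm htm
    obtain ⟨Q₁, hQ₁⟩ : ∃ Q₁, H₁.z Q₁ ∉ m :=
      not_forall.1 fun hall => hh ((S.all_mem_iff hqm htm).1 hall)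
    have hP₁C : F.z P₁ ∈ maximalIdeal C :=
      (IsLocalization.AtPrime.to_map_mem_maximal_iff C m _).2 hP₁m
    have hQ₁C : F.z Q₁ ∉ maximalIdeal C := fun e =>
      hQ₁ ((IsLocalization.AtPrime.to_map_mem_maximal_iff C m _).1 e)
    have hker1 : ∀ T, F.z T ∈ maximalIdeal C → T ∈ AddSubgroup.zmultiples P₁ := by
      intro T hT
      by_contra hT'
      obtain ⟨a, b, hab, -⟩ := F.exists_nsmul_add hP₁ hT' Q₁
      apply hQ₁C
      rw [hab]
      exact F.kernel.add_mem (F.kernel.nsmul_mem hT a) (F.kernel.nsmul_mem hP₁C b)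
    have hQ₁P : Q₁ ∉ AddSubgroup.zmultiples P₁ := fun e => hQ₁C (by
      obtain ⟨i, rfl⟩ := AddSubgroup.mem_zmultiples_iff.1 e
      exact F.kernel.zsmul_mem hP₁C i)
    obtain ⟨P, eP, hPm⟩ := exists_preim_mem (H := H') hl hl1 hN (hι0 P₁ hP₁) (hqι P₁)
      (mem_kernelQ.2 (by rw [hcompat]; exact hP₁C))
    obtain ⟨Q, eQ⟩ := exists_nsmul_eq hl hl1 hN (by omega) (hqι Q₁)
    have hnP : n • P ≠ 0 := eP ▸ hι0 P₁ hP₁
    have hP0 : P ≠ 0 := fun e => hnP (by rw [e, nsmul_zero])
    have hord : addOrderOf P = 2 * K + 1 := by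
      refine (addOrderOf_eq_prime_pow hnP ?_).trans ?_
      · rw [Nat.sub_add_cancel hJ, ← hK]
        exact legTorsion_nsmul' P
      · rw [Nat.sub_add_cancel hJ, hK]
    have hlineC : ∀ T ∈ AddSubgroup.zmultiples P, H'.z T ∈ maximalIdeal C := by
      intro T hT
      obtain ⟨i, rfl⟩ := AddSubgroup.mem_zmultiples_iff.1 hT
      exact (kernelQ H').zsmul_mem hPm i
    have hkerP : ∀ T, H'.z T ∈ maximalIdeal C → T ∈ AddSubgroup.zmultiples P := by
      suffices ∀ i ≤ J, ∀ T, q ^ i • T = 0 → T ∈ kernelQ H' → T ∈ AddSubgroup.zmultiples P from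
        fun T hT => this J le_rfl T (by rw [← hK]; exact legTorsion_nsmul' T) hT
      intro i
      induction i with
      | zero => intro _ T hT _; rw [pow_zero, one_nsmul] at hT; rw [hT]; exact zero_mem _
      | succ i ih =>
        intro hi T hT hTm
        have hqT : q • T ∈ AddSubgroup.zmultiples P := ih (by omega) _
          (by rw [← mul_nsmul', ← pow_succ]; exact hT) ((kernelQ H').nsmul_mem hTm q)
        obtain ⟨z, hz'⟩ := AddSubgroup.mem_zmultiples_iff.1 hqT
        have h0 : ((q ^ i : ℕ) * z) • P = 0 := by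
          rw [mul_smul, hz', natCast_zsmul, ← mul_nsmul', ← pow_succ]
          exact hT
        rw [← addOrderOf_dvd_iff_zsmul_eq_zero, hord, hK] at h0
        push_cast at h0
        obtain ⟨b, rfl⟩ : (q : ℤ) ∣ z := by
          have h5 : (q : ℤ) ^ i * q ∣ (q : ℤ) ^ i * z :=
            (pow_succ (q : ℤ) i ▸ pow_dvd_pow _ hi : (q : ℤ) ^ i * q ∣ (q : ℤ) ^ J).trans h0
          exact (mul_dvd_mul_iff_left (pow_ne_zero _ (by exact_mod_cast hp.out.ne_zero))).1 h5
        have hz2 : q • (T - b • P) = 0 := by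
          rw [nsmul_sub, ← hz', mul_smul, natCast_zsmul, sub_self]
        obtain ⟨V, hV⟩ := exists_torIncl_eq h (T := T - b • P) (by rw [← hk]; exact hz2)
        have hVm : F.z V ∈ maximalIdeal C := by
          rw [← hcompat, hV]
          exact mem_kernelQ.1 (sub_mem hTm ((kernelQ H').zsmul_mem hPm b))
        obtain ⟨w, rfl⟩ := AddSubgroup.mem_zmultiples_iff.1 (hker1 V hVm)
        rw [← sub_add_cancel T (b • P), ← hV, map_zsmul, ← hι, ← eP]
        exact add_mem (zsmul_mem (nsmul_mem (AddSubgroup.mem_zmultiples P) n) w)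
          (zsmul_mem (AddSubgroup.mem_zmultiples P) b)
    have hspan : ∀ U : LegTorsion Ω l (2 * K + 1), q • U = 0 →
        ∃ a b : ℕ, U = a • (q ^ (J - 1) • Q) + b • (q ^ (J - 1) • P) := by
      intro U hU
      obtain ⟨V, rfl⟩ := exists_torIncl_eq h (T := U) (by rw [← hk]; exact hU)
      obtain ⟨a, b, hab, -⟩ := F.exists_nsmul_add hP₁ hQ₁P V
      exact ⟨a, b, by rw [← hn, eP, eQ, hab, map_add, map_nsmul, map_nsmul]⟩
    have hgenM := fun T => exists_eq_add hJ hK hspan T
    have hgen : ∀ g ∈ MulAction.stabilizer G m, g • P = P → g • Q = Q → g = 1 := by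
      intro g hg hgP hgQ
      refine hfix g hg fun T => ?_
      obtain ⟨a, b, rfl⟩ := hgenM T
      rw [smul_add, smul_comm g a, smul_comm g b, hgP, hgQ]
    have hline : ∀ g ∈ MulAction.stabilizer G m, g • P ∈ AddSubgroup.zmultiples P := by
      intro g hg
      refine hkerP _ ((hmem _).2 ?_)
      rw [hz]
      have := Ideal.smul_mem_pointwise_smul g _ _ ((hmem P).1 hPm)
      rwa [MulAction.mem_stabilizer_iff.1 hg] at this
    have hQC : H'.z Q ∉ maximalIdeal C := fun e => hQ₁C (by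
      rw [← hcompat, ← eQ]
      exact (kernelQ H').nsmul_mem (mem_kernelQ.2 e) n)
    have h2 : IsUnit (2 : C) := isUnit_two_of_odd hk (by
      rw [← map_natCast (algebraMap R C), hRC]
      exact Ideal.subset_span (Or.inl rfl))
    have hle' : ∀ r ∈ Ideal.span {(q : R), t}, algebraMap R B r ∈ m := fun r hr =>
      (S.mem_m_iff hqm htm r).2 hr
    have hquot : ∀ g ∈ MulAction.stabilizer G m, g • Q - Q ∈ AddSubgroup.zmultiples P := by
      intro g hg
      have hg' := smul_sub_mem_of_fix S.splits hle' (MulAction.mem_stabilizer_iff.1 hg)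
      have hz1 : H'.z (g • Q) - H'.z Q ∈ maximalIdeal C := by
        show algebraMap B C _ - algebraMap B C _ ∈ _
        rw [← map_sub, IsLocalization.AtPrime.to_map_mem_maximal_iff C m, hz]
        exact hg' _
      have hs1 : H'.s (g • Q) - H'.s Q ∈ maximalIdeal C := by
        show algebraMap B C _ - algebraMap B C _ ∈ _
        rw [← map_sub, IsLocalization.AtPrime.to_map_mem_maximal_iff C m, hs]
        exact hg' _
      have hgQ : H'.z (g • Q) ∉ maximalIdeal C := fun e => hQC (by simpa using sub_mem e hz1)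
      refine hkerP _ ((H'.sep h2 _ Q hgQ hQC hs1).resolve_right fun hplus => hQC ?_)
      have h3 := (H'.congr_coords (g • Q + Q) (-Q) hplus (by rwa [H'.z_neg, neg_mem_iff])).1
      rw [add_neg_cancel_right, H'.z_neg, sub_neg_eq_add] at h3
      have h4 := sub_mem ((Ideal.span_singleton_le_iff_mem _).2 hplus h3) hz1
      rw [show H'.z (g • Q) + H'.z Q - (H'.z (g • Q) - H'.z Q) = 2 * H'.z Q by ring,
        Ideal.unit_mul_mem_iff_mem _ h2] at h4
      exact h4
    have hbound := card_le_of_lineQ hqpos (MulAction.stabilizer G m) (n := n) (P := P) (Q := Q)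
      (hord.trans hN) hnP hline hquot hgen
    obtain ⟨μ, hμ⟩ := exists_root_mod H' hl hl1 hJ hK hPm hord hkerP hgenM (hqspan P hP0)
    -- the root of the base point
    obtain ⟨μ₀, hμ₀⟩ := S.root
    obtain ⟨μ₁, hμ₁⟩ : ∃ μ₁ : R, μ₁ ^ n - μ₀ ∈ Ideal.span {(q : R), t} := by
      obtain ⟨rs, hrs⟩ := S.splits (X ^ n - Polynomial.C μ₀) (monic_X_pow_sub_C _ hnpos.ne')
      haveI := S.maximal
      set π := Ideal.Quotient.mk (Ideal.span {(q : R), t})
      have e : (X ^ n - Polynomial.C μ₀).map π =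
          ((rs.map fun x => X - Polynomial.C x).prod).map π := by
        ext i
        rw [coeff_map, coeff_map, ← sub_eq_zero, ← map_sub, ← coeff_sub,
          Ideal.Quotient.eq_zero_iff_mem]
        exact hrs i
      rcases Multiset.empty_or_exists_mem rs with rfl | ⟨r, hr⟩
      · exfalso
        simp only [Multiset.map_zero, Multiset.prod_zero, Polynomial.map_one] at e
        have := congrArg natDegree e
        rw [(monic_X_pow_sub_C μ₀ hnpos.ne').natDegree_map, natDegree_X_pow_sub_C,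
          natDegree_one] at this
        omega
      · refine ⟨r, Ideal.Quotient.eq_zero_iff_mem.1 ?_⟩
        have e2 := congrArg (eval (π r)) e
        rw [eval_map_apply, eval_map_apply, eval_sub, eval_pow, eval_X, eval_C] at e2
        rw [e2, eval_multiset_prod, Multiset.map_map, Multiset.prod_eq_zero, map_zero]
        exact Multiset.mem_map.2 ⟨r, hr, by simp⟩
    obtain ⟨a, b, hab⟩ := Ideal.mem_span_pair.1 hμ₁
    set e := μ - algebraMap R C μ₁ with he
    obtain ⟨w, hw, hte⟩ : ∃ w : C, IsUnit w ∧ tC * w - e ^ (2 * K + 1) ∈ Ideal.span {H'.z P} := by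
      set Jd : Ideal C := Ideal.span {H'.z P} with hJd
      set π := Ideal.Quotient.mk Jd
      haveI : Nontrivial (C ⧸ Jd) := Ideal.Quotient.nontrivial_iff.2 fun e' =>
        (maximalIdeal.isMaximal C).ne_top
          (top_le_iff.1 (e' ▸ (Ideal.span_singleton_le_iff_mem _).2 hPm))
      haveI : CharP (C ⧸ Jd) q := (CharP.charP_iff_prime_eq_zero hp.out).2 (by
        rw [← map_natCast π, Ideal.Quotient.eq_zero_iff_mem]; exact hqspan P hP0)
      haveI : ExpChar (C ⧸ Jd) q := ExpChar.prime hp.out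
      let ρ : R →+* C ⧸ Jd := π.comp (algebraMap R C)
      have hqρ : ρ (q : R) = 0 := by rw [map_natCast, CharP.cast_eq_zero]
      have e1 : ρ μ₁ ^ n - ρ μ₀ = ρ b * ρ t := by
        rw [← map_pow, ← map_sub, ← hab, map_add, map_mul, map_mul, hqρ, mul_zero, zero_add]
      have e2 : ρ t = ρ l - ρ μ₀ ^ q := by
        obtain ⟨c, hc'⟩ := Ideal.mem_span_singleton.1 hμ₀
        have := congrArg ρ hc'
        rwa [map_sub, map_sub, map_mul, hqρ, zero_mul, sub_eq_zero, map_pow] at this
      have e3 : π μ ^ (2 * K + 1) = ρ l := by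
        rw [← map_pow]; exact Ideal.Quotient.eq.2 hμ
      have e4 : ρ t = π e ^ (2 * K + 1) + ρ b ^ q * ρ t ^ q := by
        have e5 : ρ t = (π μ ^ n - ρ μ₀) ^ q := by
          rw [e2, ← e3, sub_pow_char, ← pow_mul, hN]
        have e6 : π μ ^ n - ρ μ₀ = π e ^ n + ρ b * ρ t := by
          rw [← e1, he, map_sub, hn, sub_pow_char_pow, show π (algebraMap R C μ₁) = ρ μ₁ from rfl]
          ring
        calc ρ t = (π μ ^ n - ρ μ₀) ^ q := e5
          _ = (π e ^ n + ρ b * ρ t) ^ q := by rw [e6]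
          _ = _ := by rw [add_pow_char, mul_pow, ← pow_mul, hN]
      refine ⟨1 - algebraMap R C b ^ q * tC ^ (q - 1), ?_, Ideal.Quotient.eq.1 ?_⟩
      · refine isUnit_one_sub_self_of_mem_nonunits _
          ((IsLocalRing.mem_maximalIdeal _).1 (Ideal.mul_mem_left _ _ ?_))
        exact Ideal.pow_mem_of_mem _ htmem _ (by have := hp.out.two_le; omega)
      · rw [map_pow, map_mul, map_sub, map_one, map_mul, map_pow, map_pow]
        show ρ t * (1 - ρ b ^ q * ρ t ^ (q - 1)) = _
        rw [mul_sub, mul_one, mul_left_comm, ← pow_succ', Nat.sub_add_cancel hp.out.one_le,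
          sub_eq_iff_eq_add]
        exact e4
    have hem : e ∈ maximalIdeal C := by
      refine Ideal.IsPrime.mem_of_pow_mem inferInstance (2 * K + 1) ?_
      rw [show e ^ (2 * K + 1) = tC * w - (tC * w - e ^ (2 * K + 1)) by ring]
      exact sub_mem (Ideal.mul_mem_right _ _ htmem) ((Ideal.span_singleton_le_iff_mem _).2 hPm hte)
    have hct : IsRegularMod (Ideal.span {H'.z P}) tC := isRegularMod_swap ht0 (hreg P hP0)
    have hereg : IsRegularMod (Ideal.span {H'.z P}) e := by
      intro x hx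
      refine hct x ((Ideal.unit_mul_mem_iff_mem _ hw).1 ?_)
      rw [show w * (tC * x) = x * (tC * w - e ^ (2 * K + 1)) + e ^ (2 * K) * (e * x) by ring]
      exact add_mem (Ideal.mul_mem_left _ _ hte) (Ideal.mul_mem_left _ _ hx)
    have hstep : qlen (Ideal.span {tC} ⊔ Ideal.span {H'.z P}) =
        (2 * K + 1) • qlen (Ideal.span {H'.z P} ⊔ Ideal.span {e}) := by
      obtain ⟨v, rfl⟩ := hw
      rw [sup_comm, sup_span_congr (b := e ^ (2 * K + 1)) v⁻¹.isUnit ?_, qlen_sup_pow hereg]
      have hvv := v.inv_mul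
      rw [show tC - (↑v⁻¹ : C) * e ^ (2 * K + 1) = (↑v⁻¹ : C) * (tC * v - e ^ (2 * K + 1)) by
        linear_combination -tC * hvv]
      exact Ideal.mul_mem_left _ _ hte
    -- the points of the kernel above a point killed by `q`
    have hassoc : ∀ U, H'.z U ∈ maximalIdeal C → n • U ≠ 0 →
        Ideal.span {H'.z U} = Ideal.span {H'.z P} := by
      intro U hU hnU
      obtain ⟨z, hzU⟩ := AddSubgroup.mem_zmultiples_iff.1 (hkerP U hU)
      set c := (z % ((2 * K + 1 : ℕ) : ℤ)).toNat
      have ec : c • P = U := by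
        rw [← natCast_zsmul, Int.toNat_of_nonneg (Int.emod_nonneg z (by omega)), Int.emod_def,
          sub_smul, mul_smul, natCast_zsmul, legTorsion_nsmul', sub_zero, hzU]
      obtain ⟨d, hd⟩ := z_nsmul_eq hPm c
      rw [← ec, hd, mul_comm, Ideal.span_singleton_mul_left_unit]
      rw [← notMem_maximalIdeal]
      intro hm'
      have h1 : (c : C) ∈ maximalIdeal C := by
        simpa using sub_mem hm' (Ideal.mul_mem_left _ d hPm)
      refine notMem_maximalIdeal.2 (TorsionFamily.isUnit_natCast (q := q) ?_ fun hd' => ?_) h1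
      · rw [← map_natCast (algebraMap R C), hRC]
        exact Ideal.subset_span (Or.inl rfl)
      · obtain ⟨d', hd'⟩ := hd'
        refine hnU ?_
        rw [← ec, hd', ← mul_nsmul', show n * (q * d') = d' * (2 * K + 1) by rw [hN]; ring,
          mul_nsmul', legTorsion_nsmul', nsmul_zero]
    have hlow : ∀ T ∈ ((Finset.univ : Finset (LegTorsion Ω l (2 * k + 1))).filter
          fun X => X ∈ AddSubgroup.zmultiples P₁).erase 0,
        n • qlen (Ideal.span {tC} ⊔ Ideal.span {H'.z P}) ≤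
          qlen (Ideal.span {tC} ⊔ Ideal.span {F.z T}) := by
      intro T hT
      obtain ⟨hT0, hTl⟩ : T ≠ 0 ∧ T ∈ AddSubgroup.zmultiples P₁ :=
        ⟨(Finset.mem_erase.1 hT).1, (Finset.mem_filter.1 (Finset.mem_erase.1 hT).2).2⟩
      obtain ⟨i, hi⟩ := AddSubgroup.mem_zmultiples_iff.1 hTl
      set U := i • P with hU
      have eU : n • U = ι T := by rw [hU, ← smul_comm i n, eP, ← map_zsmul, hi]
      have hUm : U ∈ kernelQ H' := (kernelQ H').zsmul_mem hPm i
      have hqP : addOrderOf (q • P) = n := by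
        rw [addOrderOf_nsmul' P hqpos.ne', hord, hN, Nat.gcd_mul_left_left,
          Nat.mul_div_cancel _ hqpos]
      let f : Fin n → LegTorsion Ω l (2 * K + 1) := fun x => U + (x : ℕ) • (q • P)
      have hfinj : Function.Injective f := fun x y hxy => Fin.ext (nsmul_injOn_Iio_addOrderOf
        (Set.mem_Iio.2 (hqP.symm ▸ x.2)) (Set.mem_Iio.2 (hqP.symm ▸ y.2)) (add_left_cancel hxy))
      have hfS : Finset.univ.image f ⊆ preim n (ι T) := by
        intro X hX
        obtain ⟨x, -, rfl⟩ := Finset.mem_image.1 hX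
        rw [mem_preim, nsmul_add, eU, smul_comm n (x : ℕ) (q • P), ← mul_nsmul' P n q,
          show n * q = 2 * K + 1 from hN.symm,
          legTorsion_nsmul', nsmul_zero, add_zero]
      have hTι := associated_prod_preim H' hl hl1 hN (hι0 T hT0) (hqι T)
      have hregS : ∀ X ∈ preim n (ι T), IsRegularMod (Ideal.span {tC}) (H'.z X) := fun X hX =>
        hreg X fun e => hι0 T hT0 (by rw [← mem_preim.1 hX, e, nsmul_zero])
      rw [← hcompat, Ideal.span_singleton_eq_span_singleton.2 hTι, qlen_sup_prod _ _ hregS]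
      refine le_trans (le_of_eq ?_) (Finset.sum_le_sum_of_subset hfS)
      rw [Finset.sum_image fun x _ y _ e => hfinj e, Finset.sum_congr rfl (g := fun _ =>
        qlen (Ideal.span {tC} ⊔ Ideal.span {H'.z P})) fun x _ => by
          rw [hassoc (f x)]
          · exact (kernelQ H').add_mem hUm
              ((kernelQ H').nsmul_mem ((kernelQ H').nsmul_mem hPm q) _)
          · rw [mem_preim.1 (hfS (Finset.mem_image_of_mem f (Finset.mem_univ x)))]
            exact hι0 T hT0,
        Finset.sum_const, Finset.card_univ, Fintype.card_fin]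
    have hHc : (((Finset.univ : Finset (LegTorsion Ω l (2 * k + 1))).filter
        fun X => X ∈ AddSubgroup.zmultiples P₁).erase 0).card = q - 1 := by
      rw [Finset.card_erase_of_mem (Finset.mem_filter.2 ⟨Finset.mem_univ _, zero_mem _⟩),
        ← Fintype.card_subtype, ← Nat.card_eq_fintype_card, F.card_zmultiples hP₁]
    have hge : ((q - 1) * n * (2 * K + 1)) • qlen (Ideal.span {H'.z P} ⊔ Ideal.span {e}) ≤
        qlen (Ideal.span {tC} ⊔ Ideal.span {(q : C)}) := by
      rw [mul_smul, ← hstep, mul_smul, ← hHc, hsum]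
      exact (Finset.card_nsmul_le_sum _ _ _ hlow).trans (Finset.sum_le_sum_of_subset
        (Finset.erase_subset_erase _ (Finset.filter_subset _ _)))
    have h1le : qlen (Ideal.span {H'.z P} ⊔ Ideal.span {e}) ≤ 1 := by
      have hpos : 0 < (q - 1) * n * (2 * K + 1) :=
        Nat.mul_pos (Nat.mul_pos (by have := hp.out.two_le; omega) hnpos) (by omega)
      refine enat_le_one_of_mul_le hpos ?_
      rw [← nsmul_eq_mul]
      refine hge.trans (hle.trans ?_)
      rw [hN]
      exact_mod_cast hbound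
    have hge1 : 1 ≤ qlen (Ideal.span {H'.z P} ⊔ Ideal.span {e}) :=
      qlen_pos fun h0 => (maximalIdeal.isMaximal C).ne_top (top_le_iff.1 (h0 ▸ sup_le
        ((Ideal.span_singleton_le_iff_mem _).2 hPm) ((Ideal.span_singleton_le_iff_mem _).2 hem)))
    exact ⟨_, _, (eq_of_qlen_eq_one (le_antisymm h1le hge1)).symm⟩

end Fermat.Agent.Carayol
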