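import Fermat.Agent.Moduli.Level
import Fermat.Agent.LL.Carayol.PointQ

/-!
# The field of abscissae of level `2^a q^J m'` is regular over a point of characteristic `q`
-/

set_option autoImplicit false
set_option linter.unusedSectionVars false
set_option linter.style.haveILetI false

noncomputable section

namespace Fermat.Agent.Carayol

open WeierstrassCurve Polynomial Fermat.Agent.EC IsLocalRing Fermat.Agent.Moduli
open scoped Pointwise

variable {R : Type*} [CommRing R] [IsDomain R] [IsIntegrallyClosed R] [IsNoetherianRing R]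
  {K : Type*} [Field K] [Algebra R K] [IsFractionRing R K] {Ω : Type*} [Field Ω] [IsAlgClosed Ω]
  [CharZero Ω] [DecidableEq Ω] [Algebra K Ω] [Algebra.IsAlgebraic K Ω] [Algebra R Ω]
  [IsScalarTower R K Ω] [FaithfulSMul R Ω] {l : R}

set_option synthInstance.maxHeartbeats 60000 in
set_option maxHeartbeats 400000 in
/-- The data at a point of the field of abscissae of level `2^a q^J m'`. -/
theorem exists_generators_absField {q k j a J M : ℕ} [Fact q.Prime] {t : R} (hB : BasePoint R l k q t)
    (h2 : IsUnit (2 : R)) (hj : 0 < j) (hqm : ¬ q ∣ 2 * j + 1)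
    (hJ : 1 ≤ J) (hM : M = 2 ^ a * (q ^ J * (2 * j + 1))) (F : IntermediateField K Ω)
    (hF : F = absField K Ω l M) (p : Ideal (integralClosure R F)) [p.IsMaximal]
    (hpq : (q : integralClosure R F) ∈ p) (hpt : algebraMap R (integralClosure R F) t ∈ p)
    {D : Type*} [CommRing D] [IsLocalRing D] [Algebra (integralClosure R F) D]
    [IsLocalization.AtPrime D p] :
    ∃ x y : integralClosure R F, maximalIdeal D =
      Ideal.span {algebraMap _ D x} ⊔ Ideal.span {algebraMap _ D y} := by
  classical
  have hqodd : q ≠ 2 := fun e => by have := hB.hq; omega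
  have hl := hB.isUnit_l
  have hl1 := hB.isUnit_one_sub
  haveI := legendreΩ_isElliptic (Ω := Ω) hl hl1
  obtain ⟨n, hn'⟩ : ∃ n, q ^ J = 2 * n + 1 :=
    ((((Fact.out : q.Prime).eq_two_or_odd').resolve_left hqodd).pow)
  have hM1 : 1 ≤ M := by
    have : 0 < 2 ^ a * (q ^ J * (2 * j + 1)) := by
      have := (Fact.out : q.Prime).pos
      positivity
    omega
  set L := coordField K Ω l M with hLdef
  haveI : FiniteDimensional K L := finiteDimensional_coordField hl hl1 hM1
  haveI : IsGalois K L := isGalois_coordField M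
  have hFL : F ≤ L := hF ▸ absField_le M
  have hdn : 2 * n + 1 ∣ M := ⟨2 ^ a * (2 * j + 1), by rw [hM, hn']; ring⟩
  have hdq : 2 * k + 1 ∣ M := by
    refine dvd_trans ?_ hdn
    rw [← hB.hq, ← hn']
    exact dvd_pow_self q (by omega)
  have hdm : 2 * j + 1 ∣ M := ⟨2 ^ a * q ^ J, by rw [hM]; ring⟩
  have hda : 2 ^ a ∣ M := ⟨q ^ J * (2 * j + 1), hM⟩
  have hLq : CoordsIn L l (2 * k + 1) := coordsIn_coordField hdq
  have hLm : CoordsIn L l (2 * j + 1) := coordsIn_coordField hdm
  have hLn : CoordsIn L l (2 * n + 1) := coordsIn_coordField hdn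
  obtain ⟨H⟩ := exists_hasCoords_intCl (k := k) hl hl1 hLq
  obtain ⟨H'⟩ := exists_hasCoords_intCl (k := j) hl hl1 hLm
  obtain ⟨H''⟩ := exists_hasCoords_intCl (k := n) hl hl1 hLn
  letI actq := galAction (n := 2 * k + 1) hLq
  letI actm := galAction (n := 2 * j + 1) hLm
  letI actn := galAction (n := 2 * n + 1) hLn
  haveI := finite_torsionBy (legendreΩ Ω l) (2 * k + 1) (by omega)
  haveI := finite_torsionBy (legendreΩ Ω l) (2 * j + 1) (by omega)
  letI : Fintype (LegTorsion Ω l (2 * k + 1)) := Fintype.ofFinite _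
  letI : Fintype (LegTorsion Ω l (2 * j + 1)) := Fintype.ofFinite _
  haveI := finite_torsionBy (legendreΩ Ω l) (2 * n + 1) (by omega)
  letI : Fintype (LegTorsion Ω l (2 * n + 1)) := Fintype.ofFinite _
  haveI : IsIntegrallyClosed (IntCl R L) := isIntegrallyClosed_intCl L
  haveI : IsNoetherianRing (IntCl R L) := isNoetherianRing_intCl L
  haveI : FaithfulSMul R (IntCl R L) := faithfulSMul_intCl L
  -- the inclusion
  let ι : integralClosure R F →+* IntCl R L :=
    ((IntermediateField.inclusion hFL).toRingHom.comp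
      (integralClosure R F).val.toRingHom).codRestrict (IntCl R L) fun b => by
        exact (isIntegral_algHom_iff ((IntermediateField.inclusion hFL).restrictScalars R)
          (IntermediateField.inclusion_injective hFL)).2 b.2
  letI : Algebra (integralClosure R F) (IntCl R L) := ι.toAlgebra
  have hιR : ∀ r : R, ι (algebraMap R _ r) = algebraMap R (IntCl R L) r := fun r =>
    Subtype.ext (Subtype.ext rfl)
  have hinj : Function.Injective ι := fun x y e => Subtype.ext
    (IntermediateField.inclusion_injective hFL (congrArg Subtype.val e))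
  haveI : Algebra.IsIntegral (integralClosure R F) (IntCl R L) := ⟨fun b => by
    obtain ⟨P, hP, hPe⟩ := integralClosure.isIntegral b
    refine ⟨P.map (algebraMap R _), hP.map _, ?_⟩
    rw [eval₂_map, show (algebraMap (integralClosure R F) (IntCl R L)).comp (algebraMap R _) =
      algebraMap R (IntCl R L) from RingHom.ext hιR]
    exact hPe⟩
  obtain ⟨m, hm, hmp⟩ := Ideal.exists_ideal_over_maximal_of_isIntegral (S := IntCl R L) p
    (le_of_eq_of_le ((RingHom.injective_iff_ker_eq_bot _).1 hinj) bot_le)
  have hn : ∀ b, b ∈ p ↔ algebraMap (integralClosure R F) (IntCl R L) b ∈ m := fun b => by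
    rw [← hmp]; rfl
  have hqm' : (q : IntCl R L) ∈ m := by
    have := (hn _).1 hpq
    rwa [map_natCast] at this
  have htm : algebraMap R (IntCl R L) t ∈ m := by
    have := (hn _).1 hpt
    rwa [show algebraMap (integralClosure R F) (IntCl R L) (algebraMap R _ t) = _ from hιR t] at this
  have S := legSetup_of_basePoint hB hLq H
  have hle : ∀ r ∈ Ideal.span {(q : R), t}, algebraMap R (IntCl R L) r ∈ m := fun r hr =>
    (S.mem_m_iff hqm' htm r).2 hr
  -- the stabiliser acts faithfully on the torsion of order `q ^ J`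
  have hfix : ∀ g : L ≃ₐ[K] L, g • m = m →
      (∀ T : LegTorsion Ω l (2 * n + 1), g • T = T) → g = 1 := by
    intro g hg hT
    have hq' : ∀ T : (legendreΩ Ω l).toAffine.Point, q ^ J • T = 0 →
        T ∈ fixedPts (l := l) L g :=
      fun T hTq => congrArg Subtype.val (hT ⟨T, legTorsion_mem_iff.2 (hn' ▸ hTq)⟩)
    have hm' : ∀ T : (legendreΩ Ω l).toAffine.Point, (2 * j + 1) • T = 0 →
        T ∈ fixedPts (l := l) L g := fun T hTm => congrArg Subtype.val
      (smul_eq_of_not_dvd (q := q) hqodd hqm hl hl1 H' (fun σ T => (coords_smul hLm H' σ T).1)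
        (fun σ T => (coords_smul hLm H' σ T).2) hB.splits hle hqm' hg ⟨T, legTorsion_mem_iff.2 hTm⟩)
    have h2a := autPoint_two_power L hl hl1 h2 hB.splits hle hg a (coordsIn_coordField hda)
    have hall : ∀ T : (legendreΩ Ω l).toAffine.Point, M • T = 0 → T ∈ fixedPts (l := l) L g := by
      intro T hTM
      have hodd : Nat.Coprime (2 ^ a) (q ^ J * (2 * j + 1)) := by
        refine Nat.Coprime.pow_left a ((Nat.coprime_two_left).2 ?_)
        rw [hn']
        exact (odd_two_mul_add_one n).mul (odd_two_mul_add_one j)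
      refine fixedPts_coprime hodd h2a (fun S hS => ?_) (hM ▸ hTM)
      exact fixedPts_coprime (((Fact.out : q.Prime).coprime_iff_not_dvd.2 hqm).pow_left J) hq' hm' hS
    refine AlgEquiv.ext fun z => Subtype.ext ?_
    rw [← liftAut_coe L g z]
    show liftAut L g (z : Ω) = z
    refine IntermediateField.adjoin_induction K (p := fun z _ => liftAut L g z = z) ?_ ?_ ?_ ?_ ?_
      (z.2 : (z : Ω) ∈ IntermediateField.adjoin K (coordSet Ω l M))
    · rintro _ ⟨x, y, h, hTM, hz⟩
      obtain ⟨h', e⟩ := autPoint_some (l := l) (liftAut L g) h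
      have := hall _ hTM
      rw [mem_fixedPts, e, Affine.Point.some.injEq] at this
      rcases hz with rfl | rfl
      exacts [this.1, this.2]
    · exact fun x => (liftAut L g).commutes x
    · intro x y _ _ hx hy; rw [map_add, hx, hy]
    · intro x _ hx; rw [map_inv₀, hx]
    · intro x y _ _ hx hy; rw [map_mul, hx, hy]
  -- two generators upstairs
  obtain ⟨A, B, hC⟩ := exists_two_generators (C := Localization.AtPrime m) S H''
    (fun σ T => (coords_smul hLn H'' σ T).1) (fun σ T => (coords_smul hLn H'' σ T).2) hJ hn'.symm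
    hqm' htm hfix
  -- the group fixing the abscissae
  let FL : IntermediateField K L := IntermediateField.restrict hFL
  let Hs : Subgroup (L ≃ₐ[K] L) := FL.fixingSubgroup
  haveI : Fintype Hs := Fintype.ofFinite _
  have hfixF : ∀ (h : Hs) (z : L), (z : Ω) ∈ F → (h : L ≃ₐ[K] L) z = z := fun h z hz =>
    (IntermediateField.mem_fixingSubgroup_iff FL h.1).1 h.2 z ((IntermediateField.mem_restrict hFL z).2 hz)
  haveI : SMulCommClass Hs (integralClosure R F) (IntCl R L) := ⟨fun h b c => by
    rw [Algebra.smul_def, Algebra.smul_def, smul_mul']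
    congr 1
    exact Subtype.ext (hfixF h _ b.1.2)⟩
  have hinv : ∀ b : IntCl R L, (∀ h : Hs, h • b = b) →
      ∃ x : integralClosure R F, algebraMap (integralClosure R F) (IntCl R L) x = b := by
    intro b hb
    have hbF : (b : L) ∈ IntermediateField.fixedField Hs :=
      (IntermediateField.mem_fixedField_iff _ _).2 fun f hf => congrArg Subtype.val (hb ⟨f, hf⟩)
    rw [show IntermediateField.fixedField Hs = FL from IsGalois.fixedField_fixingSubgroup FL,
      IntermediateField.mem_restrict] at hbF
    refine ⟨⟨⟨_, hbF⟩, ?_⟩, Subtype.ext (Subtype.ext rfl)⟩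
    refine (isIntegral_algHom_iff ((IntermediateField.inclusion hFL).restrictScalars R)
      (IntermediateField.inclusion_injective hFL)).1 ?_
    exact b.2
  have hfree : ∀ h : Hs, h • m = m → h = 1 := by
    intro h hh
    refine Subtype.ext (hfix h.1 hh fun T => ?_)
    by_contra hne
    obtain ⟨S', hS'⟩ : ∃ S' : LegTorsion Ω l (2 * j + 1), S' ≠ 0 := by
      by_contra hall
      push Not at hall
      haveI : Subsingleton (LegTorsion Ω l (2 * j + 1)) := ⟨fun x y => (hall x).trans (hall y).symm⟩
      have := natCard_torsionBy (legendreΩ Ω l) (2 * j + 1) (by omega)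
      rw [Nat.card_of_subsingleton (0 : LegTorsion Ω l (2 * j + 1))] at this
      nlinarith
    have hS'fix : autPoint (liftAut L h.1) S'.1 = S'.1 := congrArg Subtype.val
      (smul_eq_of_not_dvd (q := q) hqodd hqm hl hl1 H' (fun σ T => (coords_smul hLm H' σ T).1)
        (fun σ T => (coords_smul hLm H' σ T).2) hB.splits hle hqm' hh S')
    set U := T.1 + S'.1
    have hU : M • U = 0 := by
      obtain ⟨c, hc⟩ := hdn
      obtain ⟨c', hc'⟩ := hdm
      rw [nsmul_add]
      conv_lhs =>
        congr
        · rw [hc, mul_comm, mul_nsmul', legTorsion_nsmul T, nsmul_zero]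
        · rw [hc', mul_comm, mul_nsmul', legTorsion_nsmul S', nsmul_zero]
      exact add_zero _
    have hpm : autPoint (liftAut L h.1) U = U ∨ autPoint (liftAut L h.1) U = -U := by
      rcases eU : U with _ | ⟨x, y, hxy⟩
      · exact Or.inl (map_zero _)
      · obtain ⟨hxy', e⟩ := autPoint_some (l := l) (liftAut L h.1) hxy
        have hx : x ∈ F := hF ▸ IntermediateField.subset_adjoin K _ ⟨x, y, hxy, eU ▸ hU, rfl⟩
        have ex : liftAut L h.1 x = x := by
          rw [show x = ((⟨x, hFL hx⟩ : L) : Ω) from rfl, liftAut_coe, hfixF h _ hx]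
        have he2 := equation_legendre hxy'.1
        rw [ex, ← equation_legendre hxy.1] at he2
        rw [e, Affine.Point.neg_some, Affine.Point.some.injEq, Affine.Point.some.injEq,
          negY_legendre]
        rcases eq_or_eq_neg_of_sq_eq_sq _ _ he2 with e' | e'
        exacts [Or.inl ⟨ex, e'⟩, Or.inr ⟨ex, e'⟩]
    rcases hpm with e | e
    · rw [map_add, hS'fix, add_left_inj] at e
      exact hne (Subtype.ext e)
    · rw [map_add, hS'fix] at e
      have h2S : autPoint (liftAut L h.1) T.1 = -T.1 - 2 • S'.1 := by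
        rw [eq_sub_of_add_eq e, neg_add, two_nsmul]; abel
      have hq2 : (2 * n + 1) • (2 • S'.1) = 0 := by
        have h0 := congrArg ((2 * n + 1) • ·) h2S
        simp only [← map_nsmul, nsmul_sub, smul_neg, legTorsion_nsmul T, map_zero, neg_zero,
          zero_sub] at h0
        exact neg_eq_zero.1 h0.symm
      apply hS'
      apply Subtype.ext
      refine AddMonoid.addOrderOf_eq_one_iff.1 ?_
      have d1 : addOrderOf S'.1 ∣ (2 * n + 1) * 2 :=
        addOrderOf_dvd_of_nsmul_eq_zero (by rw [mul_nsmul', hq2])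
      have d2 : addOrderOf S'.1 ∣ 2 * j + 1 := addOrderOf_dvd_of_nsmul_eq_zero (legTorsion_nsmul S')
      refine Nat.eq_one_of_dvd_coprimes ?_ d1 d2
      rw [← hn']
      exact Nat.Coprime.mul_left (((Fact.out : q.Prime).coprime_iff_not_dvd.2 hqm).pow_left J)
        (Nat.coprime_two_left.2 (odd_two_mul_add_one j))
  obtain ⟨x, y, hD, -⟩ := exists_generators_of_free (H := Hs) (D := D) hinv hinj m hfree p hn hC
  exact ⟨x, y, hD⟩

end Fermat.Agent.Carayol
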