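import Fermat.Agent.Moduli.Interior
import Fermat.Agent.LL.Carayol.LevelQ

/-!
# The finite chart of the level field is regular over `q` at level `2^a q^J (2j+1)`

For odd `q` every maximal ideal of the integral closure of `O[j]` containing `q` is locally generated
by two elements, whatever the exponent of `q` in the level.
-/

set_option autoImplicit false
set_option linter.style.haveILetI false
set_option linter.unusedSectionVars false

noncomputable section

namespace Fermat.Agent.Carayol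

open Polynomial IsLocalRing WeierstrassCurve Fermat.Agent.EC Fermat.Agent.Moduli
open Fermat.Agent.GalRep Fermat.Agent.ModField
open Fermat.Agent.GalRep.Model (Lev NZ chartRing mem_chartRing_iff)

section Interior

variable {W : Type} [CommRing W] [IsDomain W] [IsDiscreteValuationRing W]
  [IsAlgClosed (ResidueField W)] {O : Type} [CommRing O] [IsDomain O] [Algebra W O]
  {M : ℕ} [NeZero M] (E : Emb O M)

/-- The transport of the regularity of the field of abscissae. -/
theorem exists_regular_of_base (L : Lev M) (hLm : L.m = 2) {R : Type} [CommRing R] [IsDomain R]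
    [IsIntegrallyClosed R] [IsNoetherianRing R] {K₀ : Type} [Field K₀] [Algebra R K₀]
    [IsFractionRing R K₀] [Algebra R (Fld E)] [Algebra K₀ (Fld E)] [IsScalarTower R K₀ (Fld E)]
    {l : R} {q k j a J : ℕ} [Fact q.Prime] (hgen : Algebra.adjoin W {E.ζ} = ⊤)
    (hζ : ∃ c : W, algebraMap W O c = E.ζ ^ q ^ J) (hMq : ¬ M ∣ 2 * q ^ J) (hj : 0 < j)
    (hqj : ¬ q ∣ 2 * j + 1) (hJ : 1 ≤ J) (hM : M = 2 ^ a * (q ^ J * (2 * j + 1))) (h2R : IsUnit (2 : R))
    (hlu : IsUnit l) (hl1u : IsUnit (1 - l)) (hfl : algebraMap R (Fld E) l = lamF E L)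
    (hconst : ∀ y ∈ Set.range ((algebraMap O (Fld E)).comp (algebraMap W O)),
      ∃ c : K₀, algebraMap K₀ (Fld E) c = y)
    (hiff : ∀ x : Fld E, x ∈ chartRing O (jF E) ↔ _root_.IsIntegral R x)
    (hbase : ∀ I : Ideal R, I.IsMaximal → (q : R) ∈ I → ∃ t ∈ I, BasePoint R l k q t)
    (𝔪 : Ideal (chartRing O (jF E))) [h𝔪 : 𝔪.IsMaximal]
    (hqm : (q : chartRing O (jF E)) ∈ 𝔪) :
    ∃ x y : chartRing O (jF E), x ∈ 𝔪 ∧ y ∈ 𝔪 ∧
      ∀ z ∈ 𝔪, ∃ s ∉ 𝔪, s * z ∈ Ideal.span {x, y} := by
  classical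
  obtain ⟨Br⟩ := nonempty_absBridge E L hLm hgen hζ hMq hlu hl1u hfl hconst
  -- transport
  let jA := Br.ι
  have hrange := Br.range_eq
  set F' := absField K₀ Br.Ω l M
  let jF' : Fld E →+* F' := jA.toRingHom.codRestrict F' fun x => hrange.le ⟨x, rfl⟩
  have hjF'R : ∀ r : R, jF' (algebraMap R (Fld E) r) = algebraMap R F' r := fun r => Subtype.ext (by
    show jA (algebraMap R (Fld E) r) = algebraMap R Br.Ω r
    rw [IsScalarTower.algebraMap_apply R K₀ (Fld E), AlgHom.commutes,
      ← IsScalarTower.algebraMap_apply R K₀ Br.Ω])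
  let jR : Fld E →ₐ[R] F' := { jF' with commutes' := hjF'R }
  have hjRinj : Function.Injective jR := jF'.injective
  let ψB : chartRing O (jF E) →+* integralClosure R F' :=
    (jF'.comp (chartRing O (jF E)).val.toRingHom).codRestrict _ fun b =>
      (isIntegral_algHom_iff jR hjRinj).2 ((hiff _).1 b.2)
  have hbij : Function.Bijective ψB := by
    refine ⟨fun x y e => Subtype.ext (hjRinj (congrArg Subtype.val e)), fun y => ?_⟩
    obtain ⟨x, hx⟩ : ∃ x, jF' x = y.1 := by
      obtain ⟨x, hx⟩ : (y.1 : Br.Ω) ∈ jA.fieldRange := hrange.ge y.1.2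
      exact ⟨x, Subtype.ext hx⟩
    have hxi : _root_.IsIntegral R x :=
      (isIntegral_algHom_iff jR hjRinj).1 (show _root_.IsIntegral R (jR x) from hx ▸ y.2)
    exact ⟨⟨x, (hiff x).2 hxi⟩, Subtype.ext hx⟩
  let e : chartRing O (jF E) ≃+* integralClosure R F' := RingEquiv.ofBijective ψB hbij
  set p : Ideal (integralClosure R F') := 𝔪.map (e : chartRing O (jF E) →+* _)
  have hp_mem : ∀ z, z ∈ p ↔ e.symm z ∈ 𝔪 := fun z => by
    rw [show p = 𝔪.comap (e.symm : integralClosure R F' →+* _) from Ideal.map_comap_of_equiv e]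
    rfl
  haveI : p.IsMaximal := Ideal.map_isMaximal_of_equiv e
  have hqp : (q : integralClosure R F') ∈ p := by rw [hp_mem, map_natCast]; exact hqm
  haveI : Algebra.IsIntegral R (integralClosure R F') := ⟨fun x => integralClosure.isIntegral x⟩
  haveI : (p.comap (algebraMap R (integralClosure R F'))).IsMaximal :=
    Ideal.isMaximal_comap_of_isIntegral_of_isMaximal p
  obtain ⟨t, ht, hB⟩ := hbase (p.comap (algebraMap R (integralClosure R F'))) inferInstance
    (by rw [Ideal.mem_comap, map_natCast]; exact hqp)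
  obtain ⟨x, y, hxy⟩ := exists_generators_absField (Ω := Br.Ω) (K := K₀) hB h2R hj hqj hJ hM F' rfl p
    hqp ht (D := Localization.AtPrime p)
  have hx : x ∈ p := (IsLocalization.AtPrime.to_map_mem_maximal_iff (Localization.AtPrime p) p x).1
    (hxy ▸ Ideal.mem_sup_left (Ideal.mem_span_singleton_self _))
  have hy : y ∈ p := (IsLocalization.AtPrime.to_map_mem_maximal_iff (Localization.AtPrime p) p y).1
    (hxy ▸ Ideal.mem_sup_right (Ideal.mem_span_singleton_self _))
  refine ⟨e.symm x, e.symm y, (hp_mem x).1 hx, (hp_mem y).1 hy, fun z hz => ?_⟩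
  have hzp : e z ∈ p := by rw [hp_mem, RingEquiv.symm_apply_apply]; exact hz
  have h1 := (IsLocalization.AtPrime.to_map_mem_maximal_iff (Localization.AtPrime p) p (e z)).2 hzp
  rw [hxy, ← Ideal.span_union, Set.singleton_union, ← Set.image_pair, ← Ideal.map_span,
    IsLocalization.algebraMap_mem_map_algebraMap_iff p.primeCompl] at h1
  obtain ⟨s, hs, hsz⟩ := h1
  refine ⟨e.symm s, fun h => hs ((hp_mem s).2 h), ?_⟩
  have h2 := Ideal.mem_map_of_mem (e.symm : integralClosure R F' →+* chartRing O (jF E)) hsz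
  rw [Ideal.map_span, Set.image_pair, map_mul] at h2
  simpa using h2

/-- Every maximal ideal of the finite chart over `q` is locally generated by two elements. -/
theorem exists_regular_finite_qPow {q k j a J : ℕ} (hq : q.Prime) (hk : q = 2 * k + 1)
    (hmax : maximalIdeal W = Ideal.span {(q : W)}) (hgen : Algebra.adjoin W {E.ζ} = ⊤)
    (hζ : ∃ c : W, algebraMap W O c = E.ζ ^ q ^ J) (ha : 0 < a) (hj : 0 < j) (hqj : ¬ q ∣ 2 * j + 1)
    (hJ : 1 ≤ J) (hM : M = 2 ^ a * (q ^ J * (2 * j + 1))) (𝔪 : Ideal (chartRing O (jF E))) [h𝔪 : 𝔪.IsMaximal]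
    (hqm : (q : chartRing O (jF E)) ∈ 𝔪) :
    ∃ x y : chartRing O (jF E), x ∈ 𝔪 ∧ y ∈ 𝔪 ∧
      ∀ z ∈ 𝔪, ∃ s ∉ 𝔪, s * z ∈ Ideal.span {x, y} := by
  classical
  haveI : Fact q.Prime := ⟨hq⟩
  have hk0 : 0 < k := by have := hq.two_le; omega
  -- the level
  let L : Lev M :=
    { m := 2, e := 2 ^ (a - 1) * (q ^ J * (2 * j + 1)), hm := Or.inl rfl
      eq := by rw [hM]; conv_lhs => rw [show a = a - 1 + 1 by omega, pow_succ]
               ring
      five := by
        rw [hM]
        have h1 : 2 ≤ 2 ^ a := by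
          calc 2 = 2 ^ 1 := rfl
            _ ≤ 2 ^ a := Nat.pow_le_pow_right (by norm_num) ha
        have h2 : 3 * 3 ≤ q ^ J * (2 * j + 1) :=
          Nat.mul_le_mul ((show 3 ≤ q by omega).trans (Nat.le_self_pow (by omega) q)) (by omega)
        nlinarith }
  have hLm : L.m = 2 := rfl
  have hMq : ¬ M ∣ 2 * q ^ J := by
    intro hd
    have := Nat.le_of_dvd (by have := pow_pos hq.pos J; omega) hd
    have h1 : 2 ≤ 2 ^ a := by
      calc 2 = 2 ^ 1 := rfl
        _ ≤ 2 ^ a := Nat.pow_le_pow_right (by norm_num) ha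
    have h2 : 2 * (q ^ J * (2 * j + 1)) ≤ M := hM ▸ Nat.mul_le_mul_right _ h1
    nlinarith [pow_pos hq.pos J]
  -- constants
  let ψ : W →+* Fld E := (algebraMap O (Fld E)).comp (algebraMap W O)
  letI : Algebra W (Fld E) := ψ.toAlgebra
  haveI : IsScalarTower W O (Fld E) := IsScalarTower.of_algebraMap_eq fun w => rfl
  have hq0 : (q : W) ≠ 0 := fun h0 => by
    have := congrArg ψ h0
    rw [map_natCast, map_zero] at this
    exact hq.ne_zero (Nat.cast_eq_zero.1 this)
  have hψ : Function.Injective ψ := by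
    rw [injective_iff_map_eq_zero]
    intro w hw
    by_contra h0
    obtain ⟨ϖ, hϖ⟩ := IsDiscreteValuationRing.exists_irreducible W
    obtain ⟨n, u, rfl⟩ := IsDiscreteValuationRing.eq_unit_mul_pow_irreducible h0 hϖ
    have hπ : ψ ϖ = 0 := by
      rw [map_mul, mul_eq_zero, map_pow] at hw
      rcases hw with hw | hw
      · exact absurd hw (u.isUnit.map ψ).ne_zero
      · exact eq_zero_of_pow_eq_zero hw
    obtain ⟨b, hb⟩ : ϖ ∣ (q : W) := by
      rw [← Ideal.mem_span_singleton, ← hϖ.maximalIdeal_eq, hmax]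
      exact Ideal.subset_span rfl
    have := congrArg ψ hb
    rw [map_mul, hπ, zero_mul, map_natCast] at this
    exact hq.ne_zero (Nat.cast_eq_zero.1 this)
  have hWO : Function.Injective (algebraMap W O) := fun x y h => hψ (by simp [ψ, h])
  have hwu : ∀ n : ℕ, ¬ q ∣ n → IsUnit (n : W) := fun n hn => by
    refine notMem_maximalIdeal.1 fun h => hn ?_
    obtain ⟨u, v, huv⟩ : ∃ u v : ℤ, u * n + v * q = 1 := by
      have := ((Nat.coprime_comm.1 ((hq.coprime_iff_not_dvd).2 hn))).isCoprime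
      exact this
    by_contra
    have h1 : (1 : W) ∈ maximalIdeal W := by
      have e := congrArg (Int.cast : ℤ → W) huv
      push_cast at e
      rw [← e]
      exact add_mem (Ideal.mul_mem_left _ _ h)
        (Ideal.mul_mem_left _ _ (hmax ▸ Ideal.subset_span rfl))
    exact (maximalIdeal.isMaximal W).ne_top ((Ideal.eq_top_iff_one _).2 h1)
  have h2W : IsUnit (2 : W) := by
    have := hwu 2 fun h => by have := (Nat.prime_dvd_prime_iff_eq hq Nat.prime_two).1 h; omega
    simpa using this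
  -- the base
  set f := baseHom E L hLm hWO
  have hfal := baseHom_algebraMap E L hLm hWO
  have hfl : f (legVar W) = lamF E L := baseHom_legVar E L hLm hWO
  have hfinj : Function.Injective f := baseHom_injective E L hLm hWO
  set R := LegBase W
  set K₀ := FractionRing R
  letI : Algebra R (Fld E) := f.toAlgebra
  let g : K₀ →+* Fld E := IsFractionRing.lift (A := R) (K := K₀) hfinj
  letI : Algebra K₀ (Fld E) := g.toAlgebra
  haveI : IsScalarTower R K₀ (Fld E) :=
    IsScalarTower.of_algebraMap_eq fun r => (IsFractionRing.lift_algebraMap hfinj r).symm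
  have h2R : IsUnit (2 : R) := by
    have := h2W.map ((algebraMap W[X] R).comp C)
    rwa [map_ofNat] at this
  obtain ⟨hlu, hl1u⟩ := isUnit_legVar (W := W)
  refine exists_regular_of_base E L hLm (k := k) (R := R) (K₀ := K₀) (l := legVar W) hgen hζ hMq hj hqj hJ hM
    h2R hlu hl1u hfl ?_ (mem_chartRing_iff_isIntegral E L hLm hgen h2W f hfal) ?_ 𝔪 hqm
  · rintro _ ⟨w, rfl⟩
    refine ⟨algebraMap R K₀ (algebraMap W[X] R (C w)), ?_⟩
    rw [← IsScalarTower.algebraMap_apply R K₀ (Fld E)]
    exact baseHom_C E L hLm hWO w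
  · exact fun I hI hqI => exists_basePoint hq hk hmax hq0 I hqI

end Interior

end Fermat.Agent.Carayol
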