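/-
U1: unipotence at `q` gives an inertia-fixed class of level `Q² m` whose sums of translates
vanish, for a newform of level `M` with `Q m ∣ M ∣ Q² m` and `M ≠ Q m`.
-/
import Fermat.Agent.NewVec.Vanish
import Fermat.Agent.GalRep.Model.Reduction
import Fermat.Agent.Newform.Eigen
import Fermat.Agent.Newform.Independence

set_option autoImplicit false
set_option linter.style.haveILetI false

noncomputable section

namespace Fermat.Agent.Carayol

open CongruenceSubgroup IsLocalRing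
open Fermat.Agent.GalRep Fermat.Agent.NewVec
open Fermat.Agent.Deform
open Fermat.Agent.Galois (GQ)
open MvPolynomial (rename)
open scoped IsMulCommutative MatrixGroups

section Psi

variable {q m : ℕ} [NeZero q] [NeZero m] [hqm : Fact (Nat.Coprime q m)]
  {p : ℕ} [Fact p.Prime]

local notation "L₀" => q * q * m

/-- A vector killed by the relations of the eigen-system of a newform of level `M ∣ q² m`, `q m` a proper
divisor of `M`, maps to zero at level `qm`. -/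
theorem latPsi_eq_zero_of_dvd (hM : KummerReduction (L₀)) (hN : KummerReduction (q * m))
    {M : ℕ} [NeZero M] (hML : M ∣ L₀) (hlow : q * m ∣ M) (hne : q * m ≠ M)
    {f : CuspForm (Gamma0 M) 2} (hf : f.IsNewform) (S : Finset ℕ) (hpS : p ∈ S)
    (hMS : ∀ l : ℕ, l.Prime → l ∣ L₀ → l ∈ S)
    (chig : CuspForm.heckeAlgebra (L₀) 2 (↑S : Set ℕ) →+* ℂ)
    (hchig : ∀ (ℓ : ℕ) (hℓ : ℓ.Prime) (hℓM : ¬ ℓ ∣ L₀) (hℓS : ℓ ∉ (↑S : Set ℕ)),
      chig (CuspForm.heckeAlgebra.T hℓ hℓM hℓS) = ModularFormClass.qCoeff f ℓ)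
    (v : Lat (L₀) p)
    (hv : ∀ Q, chig (evFormsOff (↑S : Set ℕ) Q) = 0 → latHeckePoly (L₀) p (rename Subtype.val Q) v = 0)
    (g : SL(2, ZMod q)) : latPsi q m p g v = 0 := by
  classical
  by_contra hy
  set y := latPsi q m p g v
  have hdvd : ∀ l, l ∣ q * m → l ∣ L₀ := fun l hl => hl.trans ⟨q, by ring⟩
  let ev : MvPolynomial (GoodPrimeOff (L₀) (↑S : Set ℕ)) ℤ →ₐ[ℤ]
      CuspForm.heckeAlgebra (q * m) 2 (↑S : Set ℕ) :=
    MvPolynomial.aeval fun i => CuspForm.heckeAlgebra.T i.1.1.2 (lowPrime i).2 i.2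
  have hcoe : ∀ Q, (ev Q : Module.End ℂ (CuspForm (Gamma0 (q * m)) 2)) =
      (evForms (q * m) (rename lowPrime Q) :) := fun Q => by
    induction Q using MvPolynomial.induction_on with
    | C a => simp [ev, evForms]
    | add x z hx hz => simp only [map_add, Subalgebra.coe_add, hx, hz]
    | mul_X x i hx =>
      simp only [map_mul, Subalgebra.coe_mul, hx, MvPolynomial.rename_X]
      congr 1
      simp [ev, evForms, lowPrime]
  have hsurj : Function.Surjective ev := by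
    have : CuspForm.heckeAlgebra (q * m) 2 (↑S : Set ℕ) ≤
        ((CuspForm.heckeAlgebra (q * m) 2 (↑S : Set ℕ)).val.comp ev).range := by
      refine Algebra.adjoin_le ?_
      rintro _ (⟨ℓ, hℓ, hℓN, hℓS, rfl⟩ | ⟨l, hlN, hl, hlS, rfl⟩)
      · exact ⟨MvPolynomial.X ⟨⟨⟨ℓ, hℓ⟩, fun h => hℓS (hMS ℓ hℓ h)⟩, hℓS⟩, by simp [ev]⟩
      · exact absurd (hMS l hl (hdvd l hlN)) hlS
    intro c
    obtain ⟨Q, hQ⟩ := this c.2
    exact ⟨Q, Subtype.ext hQ⟩
  haveI := Hecke.moduleFinite_heckeAlgebra (L₀) 2 (↑S : Set ℕ)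
  haveI : Algebra.IsIntegral ℤ (CuspForm.heckeAlgebra (L₀) 2 (↑S : Set ℕ)) :=
    Algebra.IsIntegral.of_finite _ _
  have hker : RingHom.ker ev.toRingHom ≤
      RingHom.ker (chig.comp (evFormsOff (N := L₀) (↑S : Set ℕ)).toRingHom) := by
    intro Q hQ
    rw [RingHom.mem_ker] at hQ ⊢
    by_contra hb
    have hint : IsIntegral ℤ (chig (evFormsOff (↑S : Set ℕ) Q)) :=
      (Algebra.IsIntegral.isIntegral (R := ℤ) (evFormsOff (N := L₀) (↑S : Set ℕ) Q)).map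
        chig.toIntAlgHom
    obtain ⟨R, hR0, hRa⟩ := exists_poly_coeff_zero (b := chig (evFormsOff (↑S : Set ℕ) Q)) hint hb
    set φ : MvPolynomial (GoodPrimeOff (L₀) (↑S : Set ℕ)) ℤ →ₐ[ℤ] ℂ :=
      chig.toIntAlgHom.comp (evFormsOff (↑S : Set ℕ))
    have hR : chig (evFormsOff (↑S : Set ℕ) (Polynomial.aeval Q R)) = 0 := by
      show φ (Polynomial.aeval Q R) = 0
      rw [← Polynomial.aeval_algHom_apply]
      exact hRa
    have h1 := congrArg (latPsi q m p g) (hv _ hR)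
    rw [map_zero, latPsi_heckePoly hM hN g (by simpa using hpS), ← Polynomial.aeval_algHom_apply,
      ← Polynomial.aeval_algHom_apply] at h1
    have hQe : ev Q = 0 := hQ
    have hQ0 : evForms (q * m) (rename lowPrime Q) = 0 := Subtype.ext (by
      rw [← hcoe, hQe, ZeroMemClass.coe_zero, ZeroMemClass.coe_zero])
    have hQ1 : latHeckePoly (q * m) p (rename lowPrime Q) = 0 := LinearMap.ext fun w => by
      have h := toPar_latHeckePoly (rename lowPrime Q) w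
      rw [heckePoly_eq_zero_of_forms hQ0, LinearMap.zero_apply] at h
      exact Subtype.ext (congrArg (fun z : ParHom (q * m) ℤ_[p] => z.1) h)
    rw [hQ1, show Polynomial.aeval (0 : Module.End ℤ_[p] (Lat (q * m) p)) R =
        (R.coeff 0 : Module.End ℤ_[p] (Lat (q * m) p)) by
      rw [← Polynomial.coeff_zero_eq_aeval_zero']
      simp, Module.End.intCast_apply, ← Int.cast_smul_eq_zsmul ℤ_[p]] at h1
    exact hy ((smul_eq_zero.mp h1).resolve_left (Int.cast_ne_zero.mpr hR0))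
  let θ : CuspForm.heckeAlgebra (q * m) 2 (↑S : Set ℕ) →+* ℂ :=
    RingHom.liftOfSurjective ev.toRingHom hsurj ⟨_, hker⟩
  refine not_eigensystem_divisor hf hlow hne S θ fun ℓ hℓ hℓN hℓS hℓM' => ?_
  have hℓM : ¬ ℓ ∣ L₀ := fun h => hℓS (hMS ℓ hℓ h)
  have e : CuspForm.heckeAlgebra.T hℓ hℓN hℓS = ev.toRingHom
      (MvPolynomial.X (⟨⟨⟨ℓ, hℓ⟩, hℓM⟩, hℓS⟩ : GoodPrimeOff (L₀) (↑S : Set ℕ))) := by
    simp [ev]
  rw [e]
  refine (RingHom.liftOfRightInverse_comp_apply _ _ _ _ _).trans ?_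
  show chig (evFormsOff _ (MvPolynomial.X _)) = _
  rw [evFormsOff, MvPolynomial.aeval_X]
  exact hchig ℓ hℓ hℓM hℓS

end Psi

theorem exists_fixed_sum_zero {q Q m M p : ℕ} [NeZero Q] [NeZero m] [NeZero M]
    [Fact (Nat.Coprime Q m)] [Fact p.Prime]
    (hq : q.Prime) (hqQ : q ∣ Q) (hqp : q ≠ p) (hML : M ∣ Q * Q * m) (hlow : Q * m ∣ M)
    (hne : Q * m ≠ M) (hK : KummerReduction (Q * Q * m))
    {f : CuspForm (Gamma0 M) 2} (hf : f.IsNewform) (S : Finset ℕ) (hpS : p ∈ S)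
    (hMS : ∀ l : ℕ, l.Prime → l ∣ M → l ∈ S)
    (chig : CuspForm.heckeAlgebra M 2 (↑S : Set ℕ) →+* ℂ)
    (hchig : ∀ (ℓ : ℕ) (hℓ : ℓ.Prime) (hℓM : ¬ ℓ ∣ M) (hℓS : ℓ ∉ (↑S : Set ℕ)),
      chig (CuspForm.heckeAlgebra.T hℓ hℓM hℓS) = ModularFormClass.qCoeff f ℓ)
    {O : Type} [CommRing O] [IsDomain O] [IsDiscreteValuationRing O]
    [IsAdicComplete (maximalIdeal O) O] [CharZero O] (hp : (p : O) ∈ maximalIdeal O)
    (ι : chig.range →+* O) (ρ : GaloisRepAdic O)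
    (hchar : ∀ (ℓ : ℕ) (hℓ : ℓ.Prime) (hℓM : ¬ ℓ ∣ M) (hℓS : ℓ ∉ (↑S : Set ℕ)),
      ∀ A : ValuationSubring (AlgebraicClosure ℚ), A.LiesOverPrime ℓ →
        ∀ σ : GQ, A.IsFrobeniusAt σ ℓ → LinearMap.charpoly (ρ.ρ σ) =
          Polynomial.X ^ 2 - Polynomial.C ((ι.comp chig.rangeRestrict)
            (CuspForm.heckeAlgebra.T hℓ hℓM hℓS)) * Polynomial.X + Polynomial.C ((ℓ : O)))
    (hu : ρ.IsUnipotentOnInertiaAt q)
    {A : ValuationSubring (AlgebraicClosure ℚ)} (hA : A.LiesOverPrime q) :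
    ∃ v : Lat (Q * Q * m) p, v ≠ 0 ∧
      (∀ σ ∈ A.inertiaSubgroupIn ℚ, (latDatum (Q * Q * m) p hK).galois σ v = v) ∧
      ∀ g : SL(2, ZMod Q), ∑ w : ZMod Q, ∑ a : (ZMod Q)ˣ,
        act Q m (Level.conjA a g * unip Q w) (pullQ Q m (toPar v)) = 0 := by
  classical
  have hKN : KummerReduction (Q * m) := GalRep.Model.kummerReduction _
  have hLS : ∀ l : ℕ, l.Prime → l ∣ Q * Q * m → l ∈ S := fun l hl h => hMS l hl ((by
    rcases hl.dvd_mul.mp h with h | h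
    · exact (((hl.dvd_mul.mp h).elim id id)).mul_right m
    · exact h.mul_left Q : l ∣ Q * m).trans hlow)
  obtain ⟨g₀, hg₀, hg₀f⟩ := Newform.exists_eigenform_of_dvd hML hf.1
  obtain ⟨chig₀, -, hchig₀', -⟩ := Newform.exists_character_of_eigenform hg₀ (↑S : Set ℕ)
  have hnd : ∀ ℓ : ℕ, ℓ.Prime → ℓ ∉ (↑S : Set ℕ) → ¬ ℓ ∣ M := fun ℓ hℓ h1 h2 => h1 (hMS ℓ hℓ h2)
  have hchig₀ : ∀ (ℓ : ℕ) (hℓ : ℓ.Prime) (hℓL : ¬ ℓ ∣ Q * Q * m) (hℓS : ℓ ∉ (↑S : Set ℕ)),
      chig₀ (CuspForm.heckeAlgebra.T hℓ hℓL hℓS) = ModularFormClass.qCoeff f ℓ :=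
    fun ℓ hℓ hℓL hℓS => (hchig₀' ℓ hℓ hℓL hℓS).trans (hg₀f ℓ hℓ hℓL)
  have hrange : ∀ t, chig₀ t ∈ chig.range := by
    rintro ⟨t, ht⟩
    induction ht using Algebra.adjoin_induction with
    | mem x hx =>
      rcases hx with ⟨ℓ, hℓ, hℓL, hℓS, rfl⟩ | ⟨l, hlN, hl, hlS, rfl⟩
      · exact ⟨CuspForm.heckeAlgebra.T hℓ (hnd ℓ hℓ hℓS) hℓS,
          (hchig ℓ hℓ _ hℓS).trans (hchig₀ ℓ hℓ hℓL hℓS).symm⟩
      · exact absurd (hLS l hl hlN) hlS
    | algebraMap z =>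
      show chig₀ (algebraMap ℤ (CuspForm.heckeAlgebra (Q * Q * m) 2 (↑S : Set ℕ)) z) ∈ chig.range
      rw [eq_intCast, map_intCast]
      exact intCast_mem _ _
    | add x y hx' hy' hx hy =>
      show chig₀ (⟨x, hx'⟩ + ⟨y, hy'⟩) ∈ chig.range
      rw [map_add]
      exact add_mem hx hy
    | mul x y hx' hy' hx hy =>
      show chig₀ (⟨x, hx'⟩ * ⟨y, hy'⟩) ∈ chig.range
      rw [map_mul]
      exact mul_mem hx hy
  have hchar₀ : ∀ (ℓ : ℕ) (hℓ : ℓ.Prime) (hℓL : ¬ ℓ ∣ Q * Q * m) (hℓS : ℓ ∉ (↑S : Set ℕ)),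
      ∀ A : ValuationSubring (AlgebraicClosure ℚ), A.LiesOverPrime ℓ →
        ∀ σ : GQ, A.IsFrobeniusAt σ ℓ → LinearMap.charpoly (ρ.ρ σ) =
          Polynomial.X ^ 2 - Polynomial.C ((ι.comp (chig₀.codRestrict chig.range hrange))
            (CuspForm.heckeAlgebra.T hℓ hℓL hℓS)) * Polynomial.X + Polynomial.C ((ℓ : O)) := by
    intro ℓ hℓ hℓL hℓS B hB σ hσ
    rw [hchar ℓ hℓ (hnd ℓ hℓ hℓS) hℓS B hB σ hσ, RingHom.comp_apply, RingHom.comp_apply]
    congr 5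
    exact Subtype.ext ((hchig ℓ hℓ _ hℓS).trans (hchig₀ ℓ hℓ hℓL hℓS).symm)
  letI : Algebra ℤ_[p] O := padicAlgebra hp
  let D := latDatum (Q * Q * m) p hK
  set χ : CuspForm.heckeAlgebra (Q * Q * m) 2 (↑S : Set ℕ) →+* O := ι.comp (chig₀.codRestrict chig.range hrange)
  obtain ⟨ψ, hψ, hψc⟩ := exists_extension (D := D) hp
    (fun x hx => IsHausdorff.haus (inferInstance : IsHausdorff (maximalIdeal O) O) x fun k => by
      rw [SModEq.zero, smul_eq_mul, Ideal.mul_top]; exact hx k) χ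
  obtain ⟨r, hr⟩ := exists_hasMatrix ρ
  have htr := trace_eq_uTrace D S frobeniusPowDensity χ ψ hψ hψc ρ hchar₀ hr
  have h2 : ∀ σ ∈ A.inertiaSubgroupIn ℚ,
      ψ ⟨uTrace D σ, uTrace_mem D frobeniusPowDensity S σ⟩ = 2 := fun σ hσ => by
    rw [← htr]
    obtain ⟨b, hb⟩ := hr
    have hc := hu A hA σ hσ
    rw [← LinearMap.charpoly_toMatrix _ b, hb, Matrix.charpoly_fin_two] at hc
    have h := congrArg (fun P => Polynomial.coeff P 1) hc
    rw [show ((Polynomial.X : Polynomial O) - 1) ^ 2 = Polynomial.X ^ 2 - Polynomial.C 2 * Polynomial.X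
      + Polynomial.C 1 by rw [Polynomial.C_ofNat, map_one]; ring] at h
    simp [Polynomial.coeff_X_pow, Polynomial.coeff_C, Polynomial.coeff_one] at h
    exact h
  obtain ⟨v, hv0, hvI, hvk⟩ := exists_fixed_killed D S ψ (A.inertiaSubgroupIn ℚ)
    (fun σ hσ => cyc_inertia p hq hqp hA hσ) h2
  refine ⟨v, hv0, hvI, fun g => sum_translates_eq_zero Q m g _ ?_⟩
  have hψP : ∀ F, ψ (heckeClosureHom D (↑S : Set ℕ) (MvPolynomial.map (Int.castRingHom ℤ_[p]) F)) =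
      χ (evFormsOff (↑S : Set ℕ) F) := fun F => by
    induction F using MvPolynomial.induction_on with
    | C a => simp
    | add x y hx hy => simp only [map_add, hx, hy]
    | mul_X x i hx =>
      simp only [map_mul, hx, MvPolynomial.map_X]
      congr 1
      rw [show heckeClosureHom D (↑S : Set ℕ) (MvPolynomial.X i) = heckeGen D _ i from
        MvPolynomial.aeval_X _ _, hψ, evFormsOff, MvPolynomial.aeval_X]
  have h := latPsi_eq_zero_of_dvd hK hKN hML hlow hne hf S hpS hLS chig₀ hchig₀ v (fun F hQ => by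
    have h1 := hvk _ ((hψP F).trans (by
      show ι (chig₀.codRestrict chig.range hrange _) = 0
      rw [show chig₀.codRestrict chig.range hrange (evFormsOff _ F) = 0 from Subtype.ext hQ,
        map_zero]))
    rw [coe_heckeClosureHom_map] at h1
    exact h1) g
  exact Subtype.ext (congrArg (fun z : Lat (Q * m) p => z.1) h)

end Fermat.Agent.Carayol
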