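/-
S45: from modularity at an arbitrary level to a form of level two, given the local behaviour at
primes whose square divides the level.
-/
import Fermat.Agent.ConductorMatch.Main
import Fermat.Agent.EC.Frey
import Fermat.Agent.Mazur.FreyFacts
import Fermat.Agent.Raise.Galois
import Fermat.Agent.LL.Lower2.Main
import Fermat.Agent.S35

set_option autoImplicit false
set_option linter.style.haveILetI false

namespace Fermat.Agent.Carayol

open Polynomial CongruenceSubgroup ModularFormClass WeierstrassCurve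
open Fermat.Agent.Deform Fermat.Agent.Newform Fermat.Agent.ConductorMatch
open CuspForm CuspForm.IsNewform

/-- The local behaviour at primes whose square divides the level, whatever the exponent. -/
def AnyExponentLocal : Prop :=
  ∀ {M : ℕ} [NeZero M] {g : CuspForm (CongruenceSubgroup.Gamma0 M) 2} (hg : g.IsNewform)
    (lam : ℕ) [Fact lam.Prime]
    (S : Finset ℕ)
    (O' : Type) [CommRing O'] [IsDomain O'] [IsDiscreteValuationRing O']
    [IsAdicComplete (IsLocalRing.maximalIdeal O') O'] [Finite (IsLocalRing.ResidueField O')]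
    [CharZero O'] (hlamO' : (lam : O') ∈ IsLocalRing.maximalIdeal O')
    (hlam2 : lam ≠ 2)
    (chig : CuspForm.heckeAlgebra M 2 (↑S : Set ℕ) →+* ℂ)
    (hchig : ∀ (ℓ : ℕ) (hℓ : ℓ.Prime) (hℓM : ¬ ℓ ∣ M) (hℓS : ℓ ∉ (↑S : Set ℕ)),
      chig (CuspForm.heckeAlgebra.T hℓ hℓM hℓS) = ModularFormClass.qCoeff g ℓ)
    (iota : chig.range →+* O')
    (hlamS : lam ∈ S) (hMS : ∀ q : ℕ, q.Prime → q ∣ M → q ∈ S),
    ∃ (O'' : Type) (_ : CommRing O'') (_ : IsDomain O'') (_ : IsDiscreteValuationRing O'')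
      (_ : IsAdicComplete (IsLocalRing.maximalIdeal O'') O'') (_ : Finite (IsLocalRing.ResidueField O''))
      (_ : CharZero O'') (_ : Algebra O' O'') (_ : Module.Finite O' O'') (_ : IsLocalHom (algebraMap O' O'')),
      Function.Injective (algebraMap O' O'') ∧
      ∃ ρ : GaloisRepAdic O'',
        (∀ (ℓ : ℕ) (hℓ : ℓ.Prime) (hℓM : ¬ ℓ ∣ M) (hℓS : ℓ ∉ (↑S : Set ℕ)),
          ∀ A : ValuationSubring (AlgebraicClosure ℚ), A.LiesOverPrime ℓ →
            ∀ σ : AlgebraicClosure ℚ ≃ₐ[ℚ] AlgebraicClosure ℚ, A.IsFrobeniusAt σ ℓ →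
              LinearMap.charpoly (ρ.ρ σ) =
                X ^ 2 - C (algebraMap O' O'' ((iota.comp chig.rangeRestrict) (CuspForm.heckeAlgebra.T hℓ hℓM hℓS))) * X
                  + C ((ℓ : O''))) ∧
        (∀ q : ℕ, q.Prime → q ≠ lam → q ^ 2 ∣ M → ¬ ρ.IsUnipotentOnInertiaAt q)

local notation "Qb" => AlgebraicClosure ℚ
local notation "GQ" => (AlgebraicClosure ℚ) ≃ₐ[ℚ] (AlgebraicClosure ℚ)

/-- Conductor-level matching from an arbitrary level. -/
theorem isModularModelOfLevel_conductorLevel_any (H35 : MultiplicativeLocal)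
    (H36 : AnyExponentLocal) (W : WeierstrassCurve ℤ) (hss : W.IsSemistableModel) (N : ℕ)
    (hNpos : 0 < N) (hN : W.IsModularModelOfLevel N)
    (hbad : ∀ ℓ : ℕ, ℓ.Prime → (ℓ : ℤ) ∣ W.Δ → ℓ ∣ N) :
    W.IsModularModelOfLevel W.conductorLevel := by
  classical
  have hN0 : N ≠ 0 := hNpos.ne'
  have hΔ0 : W.Δ ≠ 0 := by
    intro h
    obtain ⟨ℓ, hℓ, hℓp⟩ := Nat.exists_infinite_primes (N + 1)
    have := Nat.le_of_dvd (Nat.pos_of_ne_zero hN0) (hbad ℓ hℓp (h ▸ dvd_zero _))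
    omega
  haveI : NeZero N := ⟨hN0⟩
  obtain ⟨f, hf, hfW⟩ := hN
  obtain ⟨M, g, hMN, hMpos, hg, hgf⟩ := exists_newform_of_eigenform (Nat.pos_of_ne_zero hN0) hf
  haveI : NeZero M := ⟨hMpos.ne'⟩
  have hgoodN : ∀ ℓ : ℕ, ℓ.Prime → ¬ ℓ ∣ N → qCoeff ⇑g ℓ = (W.apOfModel ℓ : ℂ) := fun ℓ hℓ hℓN =>
    (hgf ℓ hℓ hℓN).trans (hfW ℓ hℓ (fun h => hℓN (hbad ℓ hℓ h)) hℓN)
  have hint : ∀ ℓ : ℕ, ∃ b : ℤ, ℓ.Prime → ¬ ℓ ∣ M → (b : ℂ) = qCoeff ⇑g ℓ := fun ℓ => by
    by_cases h : ℓ.Prime ∧ ¬ ℓ ∣ M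
    · obtain ⟨b, hb⟩ := exists_intCast_qCoeff hg.1 N.primeFactors
        (fun r hr hrM hrX => ⟨W.apOfModel r, (hgoodN r hr fun hd =>
          hrX (Nat.mem_primeFactors.2 ⟨hr, hd, hN0⟩)).symm⟩) h.1 h.2
      exact ⟨b, fun _ _ => hb⟩
    · exact ⟨0, fun h1 h2 => absurd ⟨h1, h2⟩ h⟩
  choose b hb using hint
  have hbN : ∀ ℓ : ℕ, ℓ.Prime → ¬ ℓ ∣ N → b ℓ = W.apOfModel ℓ := fun ℓ hℓ hℓN => by
    have := (hb ℓ hℓ fun h => hℓN (h.trans hMN)).trans (hgoodN ℓ hℓ hℓN)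
    exact_mod_cast this
  -- no square divides `M`
  have hsq : ∀ q : ℕ, q.Prime → ¬ q ^ 2 ∣ M := by
    intro q hq hq2
    obtain ⟨p, hpp, hp2, hqp⟩ : ∃ p : ℕ, p.Prime ∧ p ≠ 2 ∧ p ≠ q := by
      by_cases h : q = 3
      · exact ⟨5, Nat.prime_five, by norm_num, by omega⟩
      · exact ⟨3, Nat.prime_three, by norm_num, fun e => h e.symm⟩
    haveI := Fact.mk hpp
    haveI := finite_residueField_padicInt p
    set S : Finset ℕ := insert p N.primeFactors with hS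
    have hpS : p ∈ S := Finset.mem_insert_self _ _
    have hMS : ∀ r : ℕ, r.Prime → r ∣ M → r ∈ S := fun r hr hrM =>
      Finset.mem_insert_of_mem (Nat.mem_primeFactors.2 ⟨hr, hrM.trans hMN, hN0⟩)
    obtain ⟨chig, iota, hchig, hiota⟩ := exists_intCharacter hg.1 hb S hMS ℤ_[p]
    have hpO : (p : ℤ_[p]) ∈ IsLocalRing.maximalIdeal ℤ_[p] := by
      rw [PadicInt.maximalIdeal_eq_span_p]; exact Ideal.mem_span_singleton_self _
    have hgS : ∀ ℓ : ℕ, ℓ.Prime → ℓ ∉ S → W.IsGoodPrimeFor ℓ ∧ ¬ ℓ ∣ N := fun ℓ hℓ hℓS =>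
      have h : ¬ ℓ ∣ N := fun h => hℓS (Finset.mem_insert_of_mem (Nat.mem_primeFactors.2 ⟨hℓ, h, hN0⟩))
      ⟨fun hd => h (hbad ℓ hℓ hd), h⟩
    obtain ⟨O, _, _, _, _, _, _, _, _, _, -, ρ, hρ, hρq⟩ :=
      H36 hg p S ℤ_[p] hpO hp2 chig hchig iota hpS hMS
    refine hρq q hq hqp.symm hq2 ?_
    have hpA : (p : O) ∈ IsLocalRing.maximalIdeal O := by
      have := map_nonunit (algebraMap ℤ_[p] O) _ hpO
      rwa [map_natCast] at this
    obtain ⟨r, hr⟩ := exists_hasMatrix ρ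
    refine unipotent_inertia W hpA hr hpS hp2 (fun ℓ hℓ hℓS => (hgS ℓ hℓ hℓS).1) ?_ hΔ0 hq hqp
      (hss q hq)
    intro ℓ hℓ hℓS P hP φ hφ
    have h := (hgS ℓ hℓ hℓS).2
    rw [hρ ℓ hℓ (fun e => h (e.trans hMN)) hℓS P hP φ hφ,
      hiota ℓ hℓ (fun e => h (e.trans hMN)) hℓS, map_intCast, hbN ℓ hℓ h]
  have key : ∀ q : ℕ, q.Prime → W.IsGoodPrimeFor q → ¬ q ∣ M ∧ b q = W.apOfModel q := by
    intro q hq hgood
    rcases trace_frobenius_eq W H35 hg hb hN0 hMN hbN hbad hΔ0 hq hgood (hsq q hq) with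
      h | ⟨-, h⟩
    · exact h
    · exfalso
      have hH := EC.apOfModel_sq_le W hq hgood
      have h2 : (2 : ℤ) ≤ q := by exact_mod_cast hq.two_le
      rcases h with h | h <;> rw [h] at hH <;> nlinarith
  have hMsq : Squarefree M := Nat.squarefree_iff_prime_squarefree.2 fun q hq h =>
    hsq q hq (by rwa [pow_two])
  have hMC : M ∣ W.conductorLevel := by
    rw [← Nat.prod_primeFactors_of_squarefree hMsq,
      ← Nat.prod_primeFactors_of_squarefree W.squarefree_conductorLevel]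
    refine Finset.prod_dvd_prod_of_subset _ _ _ fun q hq => ?_
    obtain ⟨hqp, hqM, -⟩ := Nat.mem_primeFactors.1 hq
    refine Nat.mem_primeFactors.2 ⟨hqp, ?_, W.conductorLevel_pos.ne'⟩
    rw [W.prime_dvd_conductorLevel_iff hΔ0 hqp]
    by_contra hd
    exact (key q hqp hd).1 hqM
  refine isModularModelOfLevel_of_dvd hMC ⟨g, hg.1, fun q hq hgood hqM => ?_⟩
  rw [← hb q hq hqM, (key q hq hgood).2]

/-- Two integral models of a curve have the same `a_ℓ` at their common good primes. -/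
theorem apOfModel_eq_of_models {E : WeierstrassCurve ℚ} [E.IsElliptic] {W W' : WeierstrassCurve ℤ}
    (hW : W.IsIntegralModelOf E) (hW' : W'.IsIntegralModelOf E) {ℓ : ℕ} (hℓ : ℓ.Prime)
    (hg : W.IsGoodPrimeFor ℓ) (hg' : W'.IsGoodPrimeFor ℓ) : W.apOfModel ℓ = W'.apOfModel ℓ := by
  obtain ⟨p, hpge, hp⟩ :=
    Nat.exists_infinite_primes ((W.apOfModel ℓ).natAbs + (W'.apOfModel ℓ).natAbs + ℓ + 3)
  haveI := Fact.mk hp
  obtain ⟨A, hA⟩ := Galois.exists_liesOverPrime hℓ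
  obtain ⟨σ, hσ⟩ := Galois.exists_isFrobeniusAt hℓ hA
  have hℓp : ℓ ≠ p := by omega
  have h := (Raise.trE_frobenius E hW p (by omega) hℓ hg hℓp hA hσ).symm.trans
    (Raise.trE_frobenius E hW' p (by omega) hℓ hg' hℓp hA hσ)
  rw [ZMod.intCast_eq_intCast_iff_dvd_sub] at h
  have := Int.eq_zero_of_dvd_of_natAbs_lt_natAbs h (by omega)
  omega

/-- The standard model of the Frey curve is semistable, bad only at divisors of `abc`. -/
theorem freyCurveInt_spec (P : FreyPackage) :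
    P.freyCurveInt.IsSemistableModel ∧ P.freyCurveInt.Δ ≠ 0 ∧
      ∀ q : ℕ, q.Prime → (q : ℤ) ∣ P.freyCurveInt.Δ → (q : ℤ) ∣ P.a * P.b * P.c := by
  have hΔ : (P.freyCurveInt.Δ : ℚ) = P.freyCurve.Δ := by
    rw [← Mazur.freyCurveInt_map P, WeierstrassCurve.map_Δ]; rfl
  have hc : P.freyCurveInt.c₄ =
      (P.a ^ P.p) ^ 2 + P.a ^ P.p * P.b ^ P.p + (P.b ^ P.p) ^ 2 := by
    have h : (P.freyCurveInt.c₄ : ℚ) = P.freyCurve.c₄ := by
      rw [← Mazur.freyCurveInt_map P, WeierstrassCurve.map_c₄]; rfl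
    rw [EC.freyCurve_c₄] at h
    exact_mod_cast h
  have hsup : ∀ q : ℕ, q.Prime → (q : ℤ) ∣ P.freyCurveInt.Δ → (q : ℤ) ∣ P.a * P.b * P.c := by
    intro q hq hd
    have h256 : 256 * P.freyCurveInt.Δ = ((P.a * P.b * P.c) ^ P.p) ^ 2 := by
      have h : ((256 * P.freyCurveInt.Δ : ℤ) : ℚ) = ((((P.a * P.b * P.c) ^ P.p) ^ 2 : ℤ) : ℚ) := by
        rw [Int.cast_mul, hΔ, EC.freyCurve_Δ]
        push_cast
        ring
      exact_mod_cast h
    have hq' := Nat.prime_iff_prime_int.1 hq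
    exact hq'.dvd_of_dvd_pow (hq'.dvd_of_dvd_pow (h256 ▸ dvd_mul_of_dvd_right hd 256))
  refine ⟨fun q hq hd h4 => ?_, fun h => ?_, hsup⟩
  · exact EC.not_dvd_c₄_of_dvd P hq (hsup q hq hd) (hc ▸ h4)
  · rw [h, Int.cast_zero] at hΔ
    exact EC.freyCurve_Δ_ne_zero P hΔ.symm

open WeierstrassCurve.Affine WeierstrassCurve.Affine.Point in
/-- **A modular Frey curve with irreducible torsion leaves a form of level two.** -/
theorem exists_cuspForm_two_of_isModular (H36 : AnyExponentLocal) (P : FreyPackage)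
    (hmod : P.freyCurve.IsModular)
    (hirr : GaloisRepIsIrreducible (K := AlgebraicClosure ℚ) ℚ P.freyCurve P.p) :
    ∃ f : CuspForm (CongruenceSubgroup.Gamma0 2) 2, f ≠ 0 := by
  haveI : P.freyCurve.IsElliptic := ⟨(EC.freyCurve_Δ_ne_zero P).isUnit⟩
  obtain ⟨W, hW, N, hN0, f, hf, hfW⟩ := hmod
  obtain ⟨hss, hΔ', hsup⟩ := freyCurveInt_spec P
  have hW' : P.freyCurveInt.IsIntegralModelOf P.freyCurve :=
    ⟨1, by rw [one_smul, Mazur.freyCurveInt_map P]⟩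
  have hΔ : W.Δ ≠ 0 := Raise.delta_ne_zero P.freyCurve hW
  set N' := N * (W.Δ.natAbs * P.freyCurveInt.Δ.natAbs) with hN'
  have hN'0 : 0 < N' := Nat.mul_pos hN0
    (Nat.mul_pos (Int.natAbs_pos.2 hΔ) (Int.natAbs_pos.2 hΔ'))
  haveI : NeZero N := ⟨hN0.ne'⟩
  haveI : NeZero N' := ⟨hN'0.ne'⟩
  obtain ⟨g, hg, hgf⟩ := Newform.exists_eigenform_of_dvd (dvd_mul_right N _ : N ∣ N') hf
  have hmodel : P.freyCurveInt.IsModularModelOfLevel N' := ⟨g, hg, fun ℓ hℓ hgood hℓN' => by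
    have hℓN : ¬ ℓ ∣ N := fun h => hℓN' (h.mul_right _)
    have hgW : W.IsGoodPrimeFor ℓ := fun h =>
      hℓN' ((Int.natCast_dvd.1 h).mul_right _ |>.mul_left _)
    rw [hgf ℓ hℓ hℓN', hfW ℓ hℓ hgW hℓN, apOfModel_eq_of_models hW hW' hℓ hgW hgood]⟩
  have hcl := isModularModelOfLevel_conductorLevel_any S35.result H36 P.freyCurveInt hss N' hN'0
    hmodel fun ℓ _ h => ((Int.natCast_dvd.1 h).mul_left _).mul_left _
  refine LL.exists_cuspForm_two_of_conductorLevel P hirr hW'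
    ⟨P.freyCurveInt.conductorLevel_pos, P.freyCurveInt.squarefree_conductorLevel, fun q hq hqN =>
      hsup q hq ((P.freyCurveInt.prime_dvd_conductorLevel_iff hΔ' hq).1 hqN)⟩ hcl

end Fermat.Agent.Carayol
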