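/-
The representation of a newform is not unipotent on inertia at a prime whose square divides the
level, whatever the exponent.
-/
import Fermat.Agent.LL.Carayol.Detect
import Fermat.Agent.LL.Carayol.Level
import Fermat.Agent.LL.Carayol.CuspRegular
import Fermat.Agent.LL.Carayol.InteriorQ
import Fermat.Agent.LL.Carayol.Two.Interior
import Fermat.Agent.LL.Carayol.Wiring
import Fermat.Agent.GalRep.Adic
import Fermat.Agent.GalRep.Model.Reduction
import Fermat.Agent.Galois.Places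

set_option autoImplicit false
set_option linter.style.haveILetI false

noncomputable section

namespace Fermat.Agent.Carayol

open CongruenceSubgroup IsLocalRing
open Fermat.Agent.GalRep Fermat.Agent.GalRep.Level Fermat.Agent.ModField
open Fermat.Agent.Galois (GQ)
open Fermat.Agent.GalRep.Model (chartRing self_mem_chartRing)
open Fermat.Agent.NewVec hiding oBase_dvr piO isAlgClosed_oBase natCast_mem_maximal exists_wBase_pow adjoin_eq_top eq_zero_of_regular eq_zero_of_fixed_of_sum_zero exists_fixed_sum_zero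
open scoped MatrixGroups

/-- An inertia-fixed class with vanishing sums of translates is zero. -/
theorem eq_zero_of_fixed_of_sum_zero {A : ValuationSubring (AlgebraicClosure ℚ)} {q t Q m p : ℕ}
    [NeZero Q] [NeZero m] [Fact (Nat.Coprime Q m)] [Fact p.Prime]
    (hq : q.Prime) (hA : A.LiesOverPrime q) (hQ : Q = q ^ (t + 1)) (hqp : q ≠ p)
    (hqm : ¬ q ∣ m) (hK : KummerReduction (Q * Q * m)) (v : Lat (Q * Q * m) p)
    (hv : ∀ σ ∈ A.inertiaSubgroupIn ℚ, (latDatum (Q * Q * m) p hK).galois σ v = v)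
    (hvan : ∀ g : SL(2, ZMod Q), ∑ w : ZMod Q, ∑ a : (ZMod Q)ˣ,
      act Q m (Level.conjA a g * unip Q w) (pullQ Q m (toPar v)) = 0) :
    v = 0 := by
  obtain ⟨hW, hWmax, hWac⟩ := wBase_props A hq hA
  haveI := hW
  haveI := hWac
  have hm0 := NeZero.pos m
  -- an auxiliary level
  rcases hq.eq_two_or_odd' with h2 | hodd
  · subst h2
    have hM : Q * (3 * m) = 2 ^ (t + 1) * (3 * m) := by rw [hQ]
    have hmodd : Odd m := Nat.odd_iff.mpr (by omega)
    have hN : ¬ 2 ∣ 3 * m := fun h => by omega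
    haveI : NeZero (Q * (3 * m)) := ⟨mul_ne_zero (NeZero.ne Q) (by omega)⟩
    obtain ⟨hO, hmax, hπ⟩ := oBase_dvr (M := Q * (3 * m)) hq hA hQ rfl hN
    haveI := hO
    haveI := isAlgClosed_oBase (M := Q * (3 * m)) hq hA hQ hN
    have h2π : piO hq hA (M := Q * (3 * m)) hQ rfl hN ∣ ((2 : ℕ) : oBase A (Q * (3 * m))) := by
      rw [← Ideal.mem_span_singleton, ← hmax]
      exact natCast_mem_maximal hq hA hQ rfl hN
    refine eq_zero_of_regular hq hA hQ rfl hN hπ hqp (dvd_mul_left m 3) hK v hv hvan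
      (fun n hn hπn => ?_) fun n hn hπn hwn => ?_
    · haveI := hn
      refine exists_regular_finite_twoPow (embO A _) (k := t + 1) (n := 3 * m) (Nat.succ_pos t)
        (by simpa using hWmax) (adjoin_eq_top hq hA hQ rfl hN)
        (by simpa [← hQ] using exists_wBase_pow hq hA hQ rfl hN)
        ((show Odd 3 by decide).mul hmodd) (dvd_mul_right 3 m) hM n ?_
      obtain ⟨s, hs⟩ := h2π
      have e : (2 : chartRing (oBase A (Q * (3 * m))) (jF (embO A (Q * (3 * m))))) =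
          algebraMap _ _ ((2 : ℕ) : oBase A (Q * (3 * m))) := (map_natCast _ 2).symm
      rw [e, hs, map_mul]
      exact Ideal.mul_mem_right _ _ hπn
    · haveI := hn
      exact regularPoint_cusp (embO A _) hq (Nat.succ_pos t) hM hN (by omega) (natCast_mem_maximal hq hA hQ rfl hN) hπ
        n hπn hwn
  · obtain ⟨c, hc⟩ := hodd
    have hq2 : q ≠ 2 := by omega
    obtain ⟨r, hr3, hrodd, hqr⟩ : ∃ r : ℕ, 3 ≤ r ∧ Odd r ∧ ¬ q ∣ r := by
      by_cases h3 : q = 3
      · exact ⟨5, by norm_num, by decide, by subst h3; decide⟩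
      · exact ⟨3, le_rfl, by decide,
          fun h => h3 ((Nat.prime_dvd_prime_iff_eq hq Nat.prime_three).mp h)⟩
    obtain ⟨u, m', ⟨i, hi⟩, hm⟩ := Nat.exists_eq_two_pow_mul_odd (NeZero.ne m)
    obtain ⟨l, hl⟩ : Odd (m' * r) := (Odd.mul ⟨i, hi⟩ hrodd)
    have hl0 : 0 < l := by
      have : 3 ≤ m' * r := le_trans hr3 (Nat.le_mul_of_pos_left r (by omega))
      omega
    have hql : ¬ q ∣ 2 * l + 1 := by
      rw [← hl]
      exact fun h => ((Nat.Prime.dvd_mul hq).mp h).elim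
        (fun h => hqm (hm ▸ h.mul_left _)) hqr
    obtain ⟨N, hNdef⟩ : ∃ N, N = 2 ^ (u + 2) * (2 * l + 1) := ⟨_, rfl⟩
    have hN : ¬ q ∣ N := fun h => by
      rw [hNdef] at h
      rcases (Nat.Prime.dvd_mul hq).mp h with h | h
      · exact hq2 ((Nat.prime_dvd_prime_iff_eq hq Nat.prime_two).mp (hq.dvd_of_dvd_pow h))
      · exact hql h
    have hmN : m ∣ N := ⟨4 * r, by rw [hNdef, ← hl, hm, pow_add]; ring⟩
    have hN3 : 3 ≤ N := by
      rw [hNdef]
      exact le_trans (by omega : 3 ≤ 2 * l + 1) (Nat.le_mul_of_pos_left _ (by positivity))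
    haveI : NeZero (Q * N) := ⟨mul_ne_zero (NeZero.ne Q) (by omega)⟩
    obtain ⟨hO, hmax, hπ⟩ := oBase_dvr (M := Q * N) hq hA hQ rfl hN
    haveI := hO
    haveI := isAlgClosed_oBase (M := Q * N) hq hA hQ hN
    have hM : Q * N = q ^ (t + 1) * N := by rw [hQ]
    have hqπ : piO hq hA (M := Q * N) hQ rfl hN ∣ (q : oBase A (Q * N)) := by
      rw [← Ideal.mem_span_singleton, ← hmax]
      exact natCast_mem_maximal hq hA hQ rfl hN
    refine eq_zero_of_regular hq hA hQ rfl hN hπ hqp hmN hK v hv hvan (fun n hn hπn => ?_)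
      fun n hn hπn hwn => ?_
    · haveI := hn
      refine exists_regular_finite_qPow (embO A _) (J := t + 1) (a := u + 2) (j := l) hq (k := c) hc
        hWmax (adjoin_eq_top hq hA hQ rfl hN)
        (by simpa [← hQ] using exists_wBase_pow hq hA hQ rfl hN) (by omega) hl0 hql (by omega)
        (by rw [hM, hNdef]; ring) n ?_
      obtain ⟨s, hs⟩ := hqπ
      rw [← map_natCast (algebraMap (oBase A (Q * N)) _), hs, map_mul]
      exact Ideal.mul_mem_right _ _ hπn
    · haveI := hn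
      exact regularPoint_cusp (embO A _) hq (Nat.succ_pos t) hM hN hN3 (natCast_mem_maximal hq hA hQ rfl hN) hπ n hπn hwn

theorem not_unipotentOnInertia_of_sq_dvd {M : ℕ} [NeZero M] {g : CuspForm (Gamma0 M) 2}
    (hg : g.IsNewform) (p : ℕ) [Fact p.Prime] (S : Finset ℕ) (hpS : p ∈ S)
    (hMS : ∀ l : ℕ, l.Prime → l ∣ M → l ∈ S)
    (chig : CuspForm.heckeAlgebra M 2 (↑S : Set ℕ) →+* ℂ)
    (hchig : ∀ (ℓ : ℕ) (hℓ : ℓ.Prime) (hℓM : ¬ ℓ ∣ M) (hℓS : ℓ ∉ (↑S : Set ℕ)),
      chig (CuspForm.heckeAlgebra.T hℓ hℓM hℓS) = ModularFormClass.qCoeff g ℓ)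
    {O : Type} [CommRing O] [IsDomain O] [IsDiscreteValuationRing O]
    [IsAdicComplete (maximalIdeal O) O] [CharZero O] (hp : (p : O) ∈ maximalIdeal O)
    (ι : chig.range →+* O) (ρ : GaloisRepAdic O)
    (hchar : ∀ (ℓ : ℕ) (hℓ : ℓ.Prime) (hℓM : ¬ ℓ ∣ M) (hℓS : ℓ ∉ (↑S : Set ℕ)),
      ∀ A : ValuationSubring (AlgebraicClosure ℚ), A.LiesOverPrime ℓ →
        ∀ σ : GQ, A.IsFrobeniusAt σ ℓ → LinearMap.charpoly (ρ.ρ σ) =
          Polynomial.X ^ 2 - Polynomial.C ((ι.comp chig.rangeRestrict)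
            (CuspForm.heckeAlgebra.T hℓ hℓM hℓS)) * Polynomial.X + Polynomial.C ((ℓ : O)))
    {q : ℕ} (hq : q.Prime) (hqp : q ≠ p) (hq2 : q ^ 2 ∣ M) :
    ¬ ρ.IsUnipotentOnInertiaAt q := by
  intro hu
  classical
  have hp' : p.Prime := Fact.out
  haveI : NeZero q := ⟨hq.ne_zero⟩
  obtain ⟨k, m, hqm, hM⟩ := Nat.exists_eq_pow_mul_and_not_dvd (NeZero.ne M) q hq.ne_one
  have hk : 2 ≤ k := by
    by_contra hlt
    refine hqm ?_
    obtain ⟨c, hc⟩ := hq2
    rcases (show k = 0 ∨ k = 1 by omega) with rfl | rfl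
    · exact ⟨q * c, by rw [pow_zero, one_mul] at hM; rw [← hM, hc]; ring⟩
    · refine ⟨c, Nat.eq_of_mul_eq_mul_left hq.pos ?_⟩
      rw [pow_one] at hM
      rw [← hM, hc]
      ring
  subst hM
  haveI : NeZero m := ⟨fun h => hqm (h ▸ dvd_zero q)⟩
  obtain ⟨j, hj⟩ : ∃ j, j = (k + 1) / 2 := ⟨_, rfl⟩
  obtain ⟨Q, hQ⟩ : ∃ Q, Q = q ^ j := ⟨_, rfl⟩
  haveI : NeZero Q := ⟨hQ ▸ pow_ne_zero _ hq.ne_zero⟩
  haveI : Fact (Nat.Coprime Q m) :=
    ⟨hQ ▸ (hq.coprime_iff_not_dvd.mpr hqm).pow_left j⟩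
  have hj0 : 0 < j := by omega
  have hQ' : Q = q ^ (j - 1 + 1) := by rw [hQ, Nat.sub_add_cancel hj0]
  obtain ⟨A, hA⟩ := Fermat.Agent.Galois.exists_liesOverPrime hq
  obtain ⟨v, hv0, hvI, hvan⟩ := exists_fixed_sum_zero (Q := Q) (m := m) (M := q ^ k * m) hq
    (hQ ▸ dvd_pow_self q hj0.ne') hqp
    (hQ ▸ Nat.mul_dvd_mul_right (by rw [← pow_add]; exact pow_dvd_pow q (by omega)) m)
    (hQ ▸ Nat.mul_dvd_mul_right (pow_dvd_pow q (by omega)) m)
    (fun h => by
      rw [hQ] at h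
      have := Nat.pow_right_injective hq.two_le (Nat.eq_of_mul_eq_mul_right (NeZero.pos m) h)
      omega)
    (Fermat.Agent.GalRep.Model.kummerReduction _) hg S hpS hMS chig hchig hp ι ρ hchar hu hA
  exact hv0 (eq_zero_of_fixed_of_sum_zero hq hA hQ' hqp hqm
    (Fermat.Agent.GalRep.Model.kummerReduction _) v hvI hvan)

/-- The local statement at every exponent. -/
theorem anyExponentLocal : AnyExponentLocal := by
  intro M _ g hg lam _ S O' _ _ _ _ _ _ hlamO' _ chig hchig iota hlamS hMS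
  obtain ⟨O'', i1, i2, i3, i4, i5, i6, i7, i8, i9, hinj, ρ, hρ, -⟩ :=
    Fermat.Agent.GalRep.exists_galoisRepAdic
      (Fermat.Agent.NewVec.latDatum M lam (Fermat.Agent.GalRep.Model.kummerReduction M))
      S hlamS O' hlamO' (iota.comp chig.rangeRestrict)
  have hp : (lam : O'') ∈ IsLocalRing.maximalIdeal O'' := fun h => hlamO'
    (isUnit_of_map_unit (algebraMap O' O'') _ (by rwa [map_natCast]))
  exact ⟨O'', i1, i2, i3, i4, i5, i6, i7, i8, i9, hinj, ρ, hρ, fun q hq hql hq2 =>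
    not_unipotentOnInertia_of_sq_dvd hg lam S hlamS hMS chig hchig hp
      ((algebraMap O' O'').comp iota) ρ hρ hq hql hq2⟩

end Fermat.Agent.Carayol
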