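import Fermat.Agent.Moduli.Mu

/-!
# A `q ^ J`-th root of the parameter along the kernel component
-/

set_option autoImplicit false
set_option linter.unusedSectionVars false
set_option linter.style.haveILetI false

namespace Fermat.Agent.Carayol

open WeierstrassCurve Polynomial Fermat.Agent.EC Finset IsLocalRing Fermat.Agent.Moduli

variable {R : Type*} [CommRing R] [IsDomain R] [IsIntegrallyClosed R] {Ω : Type*} [Field Ω]
  [IsAlgClosed Ω] [CharZero Ω] [DecidableEq Ω] [Algebra R Ω] [FaithfulSMul R Ω] {l : R} {K : ℕ}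
  {C : Type*} [CommRing C] [IsDomain C] [IsLocalRing C] [Algebra C Ω] [FaithfulSMul C Ω]
  [Algebra R C] [IsScalarTower R C Ω] [Fintype (LegTorsion Ω l (2 * K + 1))]
  [DecidableEq (LegTorsion Ω l (2 * K + 1))]

section

variable (H : HasCoords (Ω := Ω) C K l) {q : ℕ} [hp : Fact q.Prime] {J : ℕ}

lemma charP_quotient {P : LegTorsion Ω l (2 * K + 1)} (hPm : H.z P ∈ maximalIdeal C)
    (hqP : (q : C) ∈ Ideal.span {H.z P}) : CharP (C ⧸ Ideal.span {H.z P}) q := by
  haveI : Nontrivial (C ⧸ Ideal.span {H.z P}) := Ideal.Quotient.nontrivial_iff.2 fun e =>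
    (maximalIdeal.isMaximal C).ne_top (top_le_iff.1 (e ▸ (Ideal.span_singleton_le_iff_mem _).2 hPm))
  refine (CharP.charP_iff_prime_eq_zero hp.out).2 ?_
  rw [← map_natCast (Ideal.Quotient.mk _), Ideal.Quotient.eq_zero_iff_mem]
  exact hqP

/-- Modulo the parameter of the kernel the sum over cosets is a `q ^ J`-th root. -/
theorem cosetSum_pow_pow (hl : IsUnit l) (hl1 : IsUnit (1 - l)) (hK : 2 * K + 1 = q ^ J)
    (D : DivData R Ω l K) {r : R} (hr : r = 0 ∨ r = 1 ∨ r = l)
    {P Q : LegTorsion Ω l (2 * K + 1)} (hPm : H.z P ∈ maximalIdeal C)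
    (hker : ∀ T, H.z T ∈ maximalIdeal C → T ∈ AddSubgroup.zmultiples P)
    (hgen : ∀ T, ∃ a b : ℕ, T = a • Q + b • P) (hqP : (q : C) ∈ Ideal.span {H.z P}) :
    H.cosetSum hr Q ^ (2 * K + 1) - algebraMap R C
        (r * D.b.coeff (2 * K * (2 * K + 1)) - D.a.coeff (2 * K * (2 * K + 1))) ∈
      Ideal.span {H.z P} := by
  classical
  set I : Ideal C := Ideal.span {H.z P} with hI
  set π := Ideal.Quotient.mk I
  haveI : CharP (C ⧸ I) q := charP_quotient H hPm hqP
  haveI : ExpChar (C ⧸ I) q := ExpChar.prime hp.out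
  let e : Fin (2 * K + 1) × Fin (2 * K + 1) → LegTorsion Ω l (2 * K + 1) :=
    fun x => (x.1 : ℕ) • Q + (x.2 : ℕ) • P
  have hsurj : Function.Surjective e := by
    intro T
    have hmod : ∀ (S : LegTorsion Ω l (2 * K + 1)) (a : ℕ),
        (a % (2 * K + 1)) • S = a • S := by
      intro S a
      conv_rhs => rw [← Nat.mod_add_div a (2 * K + 1), add_nsmul, mul_comm (2 * K + 1), mul_nsmul',
        legTorsion_nsmul', nsmul_zero, add_zero]
    obtain ⟨a, b, rfl⟩ := hgen T
    refine ⟨(⟨a % (2 * K + 1), Nat.mod_lt _ (by omega)⟩,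
      ⟨b % (2 * K + 1), Nat.mod_lt _ (by omega)⟩), ?_⟩
    show (a % (2 * K + 1)) • Q + (b % (2 * K + 1)) • P = _
    rw [hmod, hmod]
  have hbij : Function.Bijective e :=
    (Fintype.bijective_iff_surjective_and_card e).2
      ⟨hsurj, by rw [Fintype.card_prod, Fintype.card_fin, HasCoords.card_torsion hl hl1, pow_two]⟩
  set x : Fin (2 * K + 1) → C ⧸ I := fun j => π (H.xShift hr ((j : ℕ) • Q)) with hx
  have hprod : ((D.a - Polynomial.C r * D.b).map (algebraMap R C)).map π =
      expand (C ⧸ I) (q ^ J) (∏ j, (X - Polynomial.C (x j ^ (q ^ J)))) := by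
    rw [H.shift_map_eq hl hl1 D hr, ← (Equiv.ofBijective e hbij).prod_comp, Polynomial.map_prod,
      Fintype.prod_prod_type, map_prod]
    refine Finset.prod_congr rfl fun j _ => ?_
    rw [map_sub, expand_X, expand_C, map_pow, ← sub_pow_char_pow]
    rw [Finset.prod_congr rfl (g := fun _ => X - Polynomial.C (x j)) fun i _ => by
      rw [Polynomial.map_sub, map_X, map_C]
      congr 2
      exact Ideal.Quotient.eq.2 (H.xShift_congr hr (H.s_congr hPm hker i)),
      Finset.prod_const, Finset.card_univ, Fintype.card_fin, hK]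
  have hn : 0 < q ^ J := pow_pos hp.out.pos J
  have h := congrArg (fun p => p.coeff ((q ^ J - 1) * q ^ J)) hprod
  rw [coeff_map, coeff_map, coeff_expand_mul hn, coeff_sub, coeff_C_mul] at h
  have hcard : (Finset.univ : Finset (Fin (2 * K + 1))).card = q ^ J := by
    rw [Finset.card_univ, Fintype.card_fin, hK]
  rw [← hcard, prod_X_sub_C_coeff_card_pred _ _ (by rw [hcard]; exact hn), hcard] at h
  rw [← hK, Nat.add_sub_cancel] at h
  rw [← Ideal.Quotient.eq, map_pow, hK, HasCoords.cosetSum, map_sum, sum_pow_char_pow, ← hK]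
  have h' := congrArg Neg.neg h
  rw [neg_neg, ← map_neg, ← map_neg, neg_sub] at h'
  exact h'.symm

/-- The coefficient at `X ^ (n (n - 1))` of `b` is a unit at an ordinary point. -/
theorem isUnit_coeff_b (hl : IsUnit l) (hl1 : IsUnit (1 - l)) (D : DivData R Ω l K)
    {P : LegTorsion Ω l (2 * K + 1)} (hPm : H.z P ∈ maximalIdeal C)
    (hord : addOrderOf P = 2 * K + 1)
    (hker : ∀ T, H.z T ∈ maximalIdeal C → T ∈ AddSubgroup.zmultiples P) :
    IsUnit (Ideal.Quotient.mk (Ideal.span {H.z P})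
      (algebraMap R C (D.b.coeff (2 * K * (2 * K + 1))))) := by
  classical
  set I : Ideal C := Ideal.span {H.z P} with hI
  set π := Ideal.Quotient.mk I
  set S := (univ : Finset (LegTorsion Ω l (2 * K + 1))).filter
    (fun T => T ∉ AddSubgroup.zmultiples P) with hS
  have hSc : S.card = 2 * K * (2 * K + 1) := by
    have h1 : ((univ : Finset (LegTorsion Ω l (2 * K + 1))).filter
        (fun T => T ∈ AddSubgroup.zmultiples P)).card = 2 * K + 1 := by
      rw [← Fintype.card_subtype, ← Nat.card_eq_fintype_card]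
      exact (Nat.card_zmultiples P).trans hord
    have h2 := Finset.card_filter_add_card_filter_not
      (s := (univ : Finset (LegTorsion Ω l (2 * K + 1))))
      (fun T => T ∈ AddSubgroup.zmultiples P)
    rw [Finset.card_univ, HasCoords.card_torsion hl hl1, h1] at h2
    rw [hS]
    have : (2 * K + 1) ^ 2 = 2 * K * (2 * K + 1) + (2 * K + 1) := by ring
    omega
  have hmap : (D.b.map (algebraMap R C)).map π =
      Polynomial.C (π (algebraMap R C (D.b.eval 0))) *
        ∏ T ∈ S, (1 - Polynomial.C (π (H.s T)) * X) := by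
    rw [H.b_map_eq hl hl1 D, Polynomial.map_mul, map_C, Polynomial.map_prod]
    congr 1
    rw [Finset.prod_congr rfl (g := fun T => 1 - Polynomial.C (π (H.s T)) * X) fun T _ => by
      simp [Polynomial.map_sub, Polynomial.map_mul]]
    symm
    refine Finset.prod_subset (Finset.subset_univ _) fun T _ hT => ?_
    have hT' : T ∈ AddSubgroup.zmultiples P := by simpa [hS] using hT
    rw [Ideal.Quotient.eq_zero_iff_mem.2 (H.s_mem_of_mem_zmultiples hPm hT'), map_zero, zero_mul,
      sub_zero]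
  have h := congrArg (fun p : (C ⧸ I)[X] => p.coeff S.card) hmap
  rw [coeff_map, coeff_map, coeff_C_mul, coeff_prod_one_sub, hSc] at h
  rw [h]
  refine IsUnit.mul (((D.isUnit_b0 hl hl1).map _).map _) (IsUnit.prod_iff.2 fun T hT => ?_)
  refine ((notMem_maximalIdeal.1 fun hs => ?_ : IsUnit (H.s T)).map π).neg
  exact (Finset.mem_filter.1 hT).2 (hker T ((H.z_mem_iff T).1 hs))

end

/-- At level `q ^ J`: `μ ^ (q ^ J) ≡ l` modulo the parameter of a generator of the kernel. -/
theorem exists_root_mod (H : HasCoords (Ω := Ω) C K l) (hl : IsUnit l) (hl1 : IsUnit (1 - l))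
    {q : ℕ} [Fact q.Prime] {J : ℕ} (hJ : 1 ≤ J) (hK : 2 * K + 1 = q ^ J)
    {P Q : LegTorsion Ω l (2 * K + 1)} (hPm : H.z P ∈ maximalIdeal C)
    (hord : addOrderOf P = 2 * K + 1)
    (hker : ∀ T, H.z T ∈ maximalIdeal C → T ∈ AddSubgroup.zmultiples P)
    (hgen : ∀ T, ∃ a b : ℕ, T = a • Q + b • P) (hqP : (q : C) ∈ Ideal.span {H.z P}) :
    ∃ μ : C, μ ^ (2 * K + 1) - algebraMap R C l ∈ Ideal.span {H.z P} := by
  classical
  obtain ⟨D⟩ := nonempty_divData (R := R) (Ω := Ω) hl hl1 K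
  set I : Ideal C := Ideal.span {H.z P} with hI
  set π := Ideal.Quotient.mk I
  haveI : CharP (C ⧸ I) q := charP_quotient H hPm hqP
  haveI : ExpChar (C ⧸ I) q := ExpChar.prime Fact.out
  set β := π (algebraMap R C (D.b.coeff (2 * K * (2 * K + 1)))) with hβ
  set α := π (algebraMap R C (D.a.coeff (2 * K * (2 * K + 1))))
  have hβu : IsUnit β := isUnit_coeff_b H hl hl1 D hPm hord hker
  have hU : ∀ {r : R} (hr : r = 0 ∨ r = 1 ∨ r = l),
      π (H.cosetSum hr Q) ^ (q ^ J) = π (algebraMap R C r) * β - α := by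
    intro r hr
    rw [← hK, ← map_pow, Ideal.Quotient.eq.2 (cosetSum_pow_pow H hl hl1 hK D hr hPm hker hgen hqP),
      map_sub, map_mul, map_sub, map_mul]
  set U₀ := H.cosetSum (r := (0 : R)) (Or.inl rfl) Q
  set U₁ := H.cosetSum (r := (1 : R)) (Or.inr (Or.inl rfl)) Q
  set U₂ := H.cosetSum (r := l) (Or.inr (Or.inr rfl)) Q
  have hn : q ^ J ≠ 0 := by omega
  have h10 : π (U₁ - U₀) ^ (q ^ J) = β := by
    rw [map_sub, sub_pow_char_pow, hU, hU, map_one, map_zero, map_one, map_zero]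
    ring
  obtain ⟨v, hv⟩ := (isUnit_pow_iff hn).1 (h10 ▸ hβu)
  obtain ⟨μ, hμ⟩ := Ideal.Quotient.mk_surjective (π (U₂ - U₀) * (↑v⁻¹ : C ⧸ I))
  refine ⟨μ, Ideal.Quotient.eq.1 ?_⟩
  show π (μ ^ (2 * K + 1)) = π (algebraMap R C l)
  have h1 : π μ * π (U₁ - U₀) = π (U₂ - U₀) := by
    rw [hμ, ← hv, mul_assoc, Units.inv_mul, mul_one]
  have h2 := congrArg (· ^ (q ^ J)) h1
  simp only [mul_pow, h10] at h2
  rw [map_sub, sub_pow_char_pow, hU, hU, map_zero, map_zero] at h2
  rw [map_pow, hK]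
  exact hβu.mul_right_cancel (by rw [h2]; ring)

end Fermat.Agent.Carayol
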